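import Fermat.Agent.ECRed.Star

set_option autoImplicit false
set_option linter.unusedSectionVars false

/-! # Multiplicative places of arbitrary residue characteristic: inertia acts unipotently -/

namespace Fermat.Agent.ECRed

open WeierstrassCurve WeierstrassCurve.Affine WeierstrassCurve.Affine.Point OrdFn

section Formula

variable {F : Type*} [Field F] [DecidableEq F] {W : Affine F}

lemma xN_sub_formula {x₁ y₁ x₂ y₂ : F} (h₁ : W.Nonsingular x₁ y₁) (h₂ : W.Nonsingular x₂ y₂)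
    (hx : x₁ ≠ x₂) : xN (Point.some x₁ y₁ h₁ - Point.some x₂ y₂ h₂) * (x₁ - x₂) ^ 2 =
      (y₁ + y₂ + W.a₁ * x₂ + W.a₃) ^ 2 + W.a₁ * (y₁ + y₂ + W.a₁ * x₂ + W.a₃) * (x₁ - x₂) -
        (W.a₂ + x₁ + x₂) * (x₁ - x₂) ^ 2 := by
  have e0 : Point.some x₁ y₁ h₁ - Point.some x₂ y₂ h₂ =
      Point.some x₁ y₁ h₁ + -Point.some x₂ y₂ h₂ := sub_eq_add_neg _ _
  have hd : x₁ - x₂ ≠ 0 := sub_ne_zero.mpr hx
  rw [e0, neg_some, xN_add h₁ _ hx]
  simp only [negY]
  field_simp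
  ring

end Formula

section Main

variable {K : Type*} [Field K] [DecidableEq K] [Algebra ℚ K] {W : Affine ℚ} {v : OrdFn K}

lemma smul_some (σ : K ≃ₐ[ℚ] K) {x y : K} (h : (W⁄K).Nonsingular x y) :
    ∃ h' : (W⁄K).Nonsingular (σ x) (σ y), σ • (Point.some x y h) = Point.some (σ x) (σ y) h' := by
  rw [smul_eq_map]
  exact ⟨_, map_some (W' := W) σ.toAlgHom h⟩

/-- the coefficients are integral -/
structure IntCoeff (W : Affine ℚ) (v : OrdFn K) : Prop where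
  a₁ : v.Ge 0 (W⁄K).a₁
  a₂ : v.Ge 0 (W⁄K).a₂
  a₃ : v.Ge 0 (W⁄K).a₃
  a₄ : v.Ge 0 (W⁄K).a₄
  a₆ : v.Ge 0 (W⁄K).a₆

/-- roots of monic integral quadratics are integral -/
lemma ge_of_quadratic {b c y : K} (hb : v.Ge 0 b) (hc : v.Ge 0 c) (h : y ^ 2 + b * y = c) :
    v.Ge 0 y := by
  by_contra hy
  rw [not_ge_iff] at hy
  have h1 : v.Eq (2 * v.ord y) (y ^ 2) := (OrdFn.eq_self hy.1).pow_two
  have h2 : v.Gt (2 * v.ord y) (b * y) :=
    (hb.mul (OrdFn.eq_self hy.1).ge).gt (by linarith [hy.2])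
  have h3 := h1.add_gt h2
  rw [h] at h3
  have := (ge_iff h3.1).mp hc
  rw [h3.2] at this
  linarith [hy.2]

lemma Ge.pow (n : ℕ) {x : K} (h : v.Ge 0 x) : v.Ge 0 (x ^ n) := by
  induction n with
  | zero => rw [pow_zero]; exact eq_one.ge
  | succ n ih => rw [pow_succ]; exact ih.zero_mul h

lemma y_integral (hc : IntCoeff W v) {x y : K} (h : (W⁄K).Equation x y) (hx : v.Ge 0 x) :
    v.Ge 0 y := by
  rw [equation_iff] at h
  refine ge_of_quadratic (b := (W⁄K).a₁ * x + (W⁄K).a₃)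
    (c := x ^ 3 + (W⁄K).a₂ * x ^ 2 + (W⁄K).a₄ * x + (W⁄K).a₆) ?_ ?_ ?_
  · exact (hc.a₁.zero_mul hx).add hc.a₃
  · exact (((Ge.pow 3 hx).add (hc.a₂.zero_mul (Ge.pow 2 hx))).add (hc.a₄.zero_mul hx)).add hc.a₆
  · linear_combination h

/-- inertia fixes torsion points on the identity component (any residue characteristic) -/
theorem fixed_comp_zero (hc : IntCoeff W v) {m : ℝ} (h : (KummerLine.ofCurve (W⁄K)).MultAt v m)
    {σ : K ≃ₐ[ℚ] K} (hσ : ∀ z, v.Ge 0 z → v.Gt 0 (σ z - z))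
    {n : ℕ} (hn : v.Eq 0 (n : K)) (hodd : Odd n) {P : (W⁄K).Point} (hP : n • P = 0)
    (hcomp : (KummerLine.ofCurve (W⁄K)).comp v P = 0) : σ • P = P := by
  by_cases hP0 : P = 0
  · rw [hP0, gal_smul_zero]
  set κ := KummerLine.ofCurve (W⁄K) with hκ
  have hx := KummerLine.comp_eq h hn hodd hP0 hP
  rw [hcomp] at hx
  have h2P := KummerLine.two_ne hodd hP0 hP
  obtain ⟨e0, e⟩ := κ.dup hP0 h2P
  have h2u := KummerLine.unit_double h hn hodd hP0 hP hx
  have hphi : v.Eq 0 (κ.phi (κ.N P)) := by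
    rw [KummerLine.phi_eq_F2]
    have := KummerLine.F2_lt h hx hx le_rfl le_rfl (by linarith [h.pos])
    simpa using this
  have hpsi : v.Eq 0 (κ.psi (κ.N P)) := by
    rw [← e, mul_comm] at hphi
    simpa using hphi.of_mul_eq h2u
  have heta : v.Eq 0 (eta P) := by
    have e1 := eta_sq hP0
    rw [← hκ] at e1
    have h0 : eta P ≠ 0 := by
      intro h0
      rw [h0] at e1
      exact hpsi.ne (by rw [← e1]; ring)
    refine ⟨h0, ?_⟩
    have := hpsi.2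
    rw [← e1, ord_pow h0] at this
    push_cast at this
    linarith
  by_contra hne
  have hint : v.Ge 0 (κ.N (σ • P - P)) :=
    KummerLine.integral_of_torsion h.integral hn (sub_ne_zero.mpr hne)
      (KummerLine.sub_torsion (smul_torsion σ hP) hP)
  rcases P with _ | ⟨x, y, hxy⟩
  · exact hP0 rfl
  have hNx : κ.N (Point.some x y hxy) = x := xN_some hxy
  rw [hNx] at hx
  have hy : v.Ge 0 y := y_integral hc hxy.1 hx.ge
  obtain ⟨h', hs⟩ := smul_some σ hxy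
  rw [hs] at hne hint
  have hδ := hσ x hx.ge
  have hε := hσ y hy
  have hη : eta (Point.some x y hxy) = 2 * y + (W⁄K).a₁ * x + (W⁄K).a₃ := by
    simp only [eta, negY]; ring
  rw [hη] at heta
  by_cases hxx : σ x = x
  · have hYY := Y_eq_of_X_eq h'.1 hxy.1 hxx
    rcases hYY with hYY | hYY
    · apply hne
      simp only [hxx, hYY]
    · have : v.Gt 0 (-(2 * y + (W⁄K).a₁ * x + (W⁄K).a₃)) := by
        have e5 : -(2 * y + (W⁄K).a₁ * x + (W⁄K).a₃) = σ y - y := by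
          rw [hYY, negY]; ring
        rw [e5]; exact hε
      exact heta.neg.not_gt this
  · have hf := xN_sub_formula h' hxy hxx
    have h5 : v.Gt 0 (κ.N (Point.some (σ x) (σ y) h' - Point.some x y hxy) * (σ x - x) ^ 2) := by
      refine hint.zero_mul_gt ?_
      rw [pow_two]
      simpa using hδ.mul_ge hδ.ge
    have h6 : v.Eq 0 (κ.N (Point.some (σ x) (σ y) h' - Point.some x y hxy) * (σ x - x) ^ 2) := by
      have e7 : κ.N (Point.some (σ x) (σ y) h' - Point.some x y hxy) * (σ x - x) ^ 2 =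
          (2 * y + (W⁄K).a₁ * x + (W⁄K).a₃) ^ 2 +
          ((σ y - y) * (2 * (2 * y + (W⁄K).a₁ * x + (W⁄K).a₃) + (σ y - y)) +
            (σ x - x) * ((W⁄K).a₁ * (2 * y + (W⁄K).a₁ * x + (W⁄K).a₃ + (σ y - y)) -
            ((W⁄K).a₂ + 2 * x + (σ x - x)) * (σ x - x))) := by
        refine hf.trans ?_
        ring
      rw [e7]
      have h8 : v.Eq 0 ((2 * y + (W⁄K).a₁ * x + (W⁄K).a₃) ^ 2) := by
        simpa using heta.pow_two
      refine h8.add_gt (Gt.add ?_ ?_)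
      · have g1 : v.Ge 0 (2 * (2 * y + (W⁄K).a₁ * x + (W⁄K).a₃) + (σ y - y)) :=
          ((ge_ofNat 2).zero_mul heta.ge).add hε.ge
        simpa using hε.mul_ge g1
      · have g1 : v.Ge 0 ((W⁄K).a₁ * (2 * y + (W⁄K).a₁ * x + (W⁄K).a₃ + (σ y - y)) -
            ((W⁄K).a₂ + 2 * x + (σ x - x)) * (σ x - x)) := by
          refine (hc.a₁.zero_mul (heta.ge.add hε.ge)).sub (Ge.zero_mul ?_ hδ.ge)
          exact (hc.a₂.add ((ge_ofNat 2).zero_mul hx.ge)).add hδ.ge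
        simpa using hδ.mul_ge g1
    exact h6.not_gt h5

/-- inertia preserves the component up to the identity component -/
theorem comp_sub_eq_zero (hc : IntCoeff W v) (ha₃ : (W⁄K).a₃ = 0) (ha₆ : (W⁄K).a₆ = 0)
    {m : ℝ} (h : (KummerLine.ofCurve (W⁄K)).MultAt v m)
    {σ : K ≃ₐ[ℚ] K} (hσ : ∀ z, v.Ge 0 z → v.Gt 0 (σ z - z)) (hord : ∀ z, v.ord (σ z) = v.ord z)
    {n : ℕ} (hn : v.Eq 0 (n : K)) (hodd : Odd n) {P : (W⁄K).Point} (hP : n • P = 0) :
    (KummerLine.ofCurve (W⁄K)).comp v (σ • P - P) = 0 := by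
  set κ := KummerLine.ofCurve (W⁄K) with hκ
  obtain ⟨ha0, ham⟩ := KummerLine.comp_range h hn hodd hP
  rcases ha0.eq_or_lt with ha | ha
  · rw [fixed_comp_zero hc h hσ hn hodd hP ha.symm, sub_self, KummerLine.comp_zero]
  by_cases hP0 : P = 0
  · rw [hP0, gal_smul_zero, sub_self, KummerLine.comp_zero]
  have hx := KummerLine.comp_eq h hn hodd hP0 hP
  by_cases hne : σ • P = P
  · rw [hne, sub_self, KummerLine.comp_zero]
  have hQ0 : σ • P - P ≠ 0 := sub_ne_zero.mpr hne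
  have hQn : n • (σ • P - P) = 0 := KummerLine.sub_torsion (smul_torsion σ hP) hP
  have hint : v.Ge 0 (κ.N (σ • P - P)) :=
    KummerLine.integral_of_torsion h.integral hn hQ0 hQn
  have hQx := KummerLine.comp_eq h hn hodd hQ0 hQn
  have hrange := (KummerLine.comp_range h hn hodd hQn).1
  set a := κ.comp v P with hadef
  have hb2 := h.b₂
  have hb8 := h.b₈
  rcases P with _ | ⟨x, y, hxy⟩
  · exact absurd rfl hP0
  have hNx : κ.N (Point.some x y hxy) = x := xN_some hxy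
  rw [hNx] at hx
  obtain ⟨h', hs⟩ := smul_some σ hxy
  rw [hs] at hne hint hQ0 hQn hQx hrange ⊢
  have hx0 := hx.ne
  have hE := hxy.1
  rw [equation_iff, ha₃, ha₆] at hE
  set a₁ := (W⁄K).a₁ with ha1
  set a₂ := (W⁄K).a₂ with ha2
  set a₄ := (W⁄K).a₄ with ha4
  have hb2' : κ.b₂ = a₁ ^ 2 + 4 * a₂ := rfl
  have hb8' : κ.b₈ = -a₄ ^ 2 := by
    show (W⁄K).b₈ = _
    rw [WeierstrassCurve.b₈, ha₃, ha₆]; ring
  have ha4' : v.Eq m a₄ := by
    rw [hb8'] at hb8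
    have h1 := hb8.neg
    rw [neg_neg] at h1
    have h0 : a₄ ≠ 0 := by rintro h0; rw [h0] at h1; exact h1.ne (by ring)
    refine ⟨h0, ?_⟩
    have h2 := h1.2
    rw [ord_pow h0] at h2
    push_cast at h2
    linarith
  set t := y / x with ht
  have hy : y = t * x := by rw [ht]; field_simp
  set τ := t ^ 2 + a₁ * t - a₂ with hτ
  have hτ' : τ = x + a₄ * x⁻¹ := by
    rw [hτ]
    rw [hy] at hE
    have hx2 : x ^ 2 * (t ^ 2 + a₁ * t - a₂) = x ^ 2 * (x + a₄ * x⁻¹) := by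
      have : x ^ 2 * (x + a₄ * x⁻¹) = x ^ 3 + a₄ * x := by field_simp
      rw [this]
      linear_combination hE
    exact mul_left_cancel₀ (pow_ne_zero 2 hx0) hx2
  have hτgt : v.Gt 0 τ := by
    rw [hτ']
    exact (hx.gt ha).add ((ha4'.mul hx.inv).gt (by linarith))
  have htint : v.Ge 0 t := by
    refine ge_of_quadratic (b := a₁) (c := a₂ + τ) hc.a₁ (hc.a₂.add hτgt.ge) ?_
    rw [hτ]; ring
  have hσt := hσ t htint
  set x' := σ x with hx'
  have hx'eq : v.Eq a x' := by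
    refine ⟨?_, ?_⟩
    · rw [hx']; exact (map_ne_zero σ).mpr hx0
    · rw [hx', hord]; exact hx.2
  have hy' : σ y = σ t * x' := by rw [hy, map_mul]
  set ζ := σ t - t with hζ
  have hst : σ t = t + ζ := by rw [hζ]; ring
  set u₀ := t * x' + (t + a₁) * x with hu₀
  set θ := ζ * x' with hθ
  have hθgt : v.Gt a θ := by
    rw [hθ]; have := hσt.mul_ge hx'eq.ge; rwa [zero_add] at this
  have hu₀ge : v.Ge a u₀ := by
    rw [hu₀]
    exact (htint.zero_mul hx'eq.ge).add ((htint.add hc.a₁).zero_mul hx.ge)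
  have hu : σ y + y + a₁ * x + (W⁄K).a₃ = u₀ + θ := by
    rw [ha₃, hy', hst, hu₀, hθ, hy]; ring
  -- the main quantity
  have hG : v.Eq (2 * a) ((u₀ + θ) ^ 2 + a₁ * (u₀ + θ) * (x' - x) -
      (a₂ + x' + x) * (x' - x) ^ 2) := by
    have e : (u₀ + θ) ^ 2 + a₁ * (u₀ + θ) * (x' - x) - (a₂ + x' + x) * (x' - x) ^ 2 =
        κ.b₂ * (x' * x) + ((x' ^ 2 + x ^ 2 + 2 * (x' * x)) * τ +
          (θ * (2 * u₀ + θ + a₁ * (x' - x)) - (x' + x) * (x' - x) ^ 2)) := by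
      rw [hb2', hu₀, hτ]; ring
    rw [e]
    have hxx : v.Eq (2 * a) (x' * x) := by rw [two_mul]; exact hx'eq.mul hx
    have g0 : v.Eq (2 * a) (κ.b₂ * (x' * x)) := by simpa using hb2.mul hxx
    have hdx : v.Ge a (x' - x) := hx'eq.ge.sub hx.ge
    refine g0.add_gt (Gt.add ?_ (Gt.sub ?_ ?_))
    · have g1 : v.Ge (2 * a) (x' ^ 2 + x ^ 2 + 2 * (x' * x)) :=
        (hx'eq.ge.pow_two.add hx.ge.pow_two).add ((ge_ofNat 2).zero_mul hxx.ge)
      have := g1.mul_gt hτgt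
      rwa [add_zero] at this
    · have g1 : v.Ge a (2 * u₀ + θ + a₁ * (x' - x)) :=
        (((ge_ofNat 2).zero_mul hu₀ge).add hθgt.ge).add (hc.a₁.zero_mul hdx)
      have := hθgt.mul_ge g1
      rwa [← two_mul] at this
    · have g1 : v.Ge a (x' + x) := hx'eq.ge.add hx.ge
      exact (g1.mul hdx.pow_two).gt (by linarith)
  by_cases hxx : x' = x
  · exfalso
    rcases Y_eq_of_X_eq h'.1 hxy.1 hxx with hYY | hYY
    · exact hne (by simp only [← hx', hxx, hYY])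
    · have e5 : u₀ + θ = 0 := by
        rw [← hu, hYY, negY]; ring
      rw [e5, hxx, sub_self] at hG
      exact hG.ne (by ring)
  · have hf := xN_sub_formula h' hxy hxx
    have hf2 : κ.N (Point.some x' (σ y) h' - Point.some x y hxy) * (x' - x) ^ 2 =
        (u₀ + θ) ^ 2 + a₁ * (u₀ + θ) * (x' - x) - (a₂ + x' + x) * (x' - x) ^ 2 := by
      rw [← hu]; exact hf
    rw [← hf2, mul_comm _ ((x' - x) ^ 2)] at hG
    have hδ0 : x' - x ≠ 0 := sub_ne_zero.mpr hxx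
    have hδ2 : v.Eq (2 * v.ord (x' - x)) ((x' - x) ^ 2) := (OrdFn.eq_self hδ0).pow_two
    have h7 := hG.of_mul_eq hδ2
    have h8 := h7.unique hQx
    have h9 : a ≤ v.ord (x' - x) := (ge_iff hδ0).mp (hx'eq.ge.sub hx.ge)
    linarith

/-- inertia acts unipotently on torsion at multiplicative places -/
theorem unipotent_two (hc : IntCoeff W v) (ha₃ : (W⁄K).a₃ = 0) (ha₆ : (W⁄K).a₆ = 0)
    {m : ℝ} (h : (KummerLine.ofCurve (W⁄K)).MultAt v m)
    {σ : K ≃ₐ[ℚ] K} (hσ : ∀ z, v.Ge 0 z → v.Gt 0 (σ z - z)) (hord : ∀ z, v.ord (σ z) = v.ord z)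
    {n : ℕ} (hn : v.Eq 0 (n : K)) (hodd : Odd n) {P : (W⁄K).Point} (hP : n • P = 0) :
    σ • (σ • P - P) = σ • P - P :=
  fixed_comp_zero hc h hσ hn hodd (KummerLine.sub_torsion (smul_torsion σ hP) hP)
    (comp_sub_eq_zero hc ha₃ ha₆ h hσ hord hn hodd hP)

end Main

end Fermat.Agent.ECRed
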