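import Fermat.Agent.ECRed.Newton
import Fermat.Agent.ECRed.Two
import Fermat.Agent.DivPoly.Card

set_option autoImplicit false
set_option linter.unusedSectionVars false

/-! # Not all `p`-torsion points lie in the kernel of reduction at `p` if there is a stable line -/

namespace Fermat.Agent.ECRed

open OrdFn Polynomial WeierstrassCurve WeierstrassCurve.Affine WeierstrassCurve.Affine.Point
open scoped Pointwise

section OrdAt

variable {K : Type*} [Field K] [Algebra ℚ K] [Algebra.IsAlgebraic ℚ K] (A : ValuationSubring K)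
  {q : ℕ}

lemma ordAt_q (hq : q.Prime) (hA : (q : K) ∈ A.nonunits) : (ordFnAt A hq hA).Eq 1 (q : K) := by
  have := charZero_of_alg K
  have h0 : (q : K) ≠ 0 := by exact_mod_cast hq.ne_zero
  refine ⟨h0, ?_⟩
  show ordAt A hq hA (q : K) = 1
  rw [ordAt_eq A hq hA h0 one_pos (f := 1) (by simp)]
  simp

lemma ordAt_rat (hq : q.Prime) (hA : (q : K) ∈ A.nonunits) {r : ℚ} (hr : r ≠ 0) :
    ∃ k : ℤ, (ordFnAt A hq hA).ord (algebraMap ℚ K r) = k := by
  obtain ⟨k, hk⟩ := val_rat (K := K) A hq hA hr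
  refine ⟨k, ?_⟩
  show ordAt A hq hA _ = _
  rw [ordAt_eq A hq hA ((_root_.map_ne_zero _).mpr hr) one_pos (f := k) (by simpa using hk)]
  simp

lemma ordAt_rat_disc (hq : q.Prime) (hA : (q : K) ∈ A.nonunits) (r : ℚ)
    (h : (ordFnAt A hq hA).Gt 0 (algebraMap ℚ K r)) :
    (ordFnAt A hq hA).Ge 1 (algebraMap ℚ K r) := by
  by_cases hr : r = 0
  · left; rw [hr, _root_.map_zero]
  obtain ⟨k, hk⟩ := ordAt_rat A hq hA hr
  have h0 : algebraMap ℚ K r ≠ 0 := (_root_.map_ne_zero _).mpr hr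
  rw [gt_iff h0, hk] at h
  rw [ge_iff h0, hk]
  have : 0 < k := by exact_mod_cast h
  exact_mod_cast this

/-- the decomposition group preserves the order -/
lemma ordAt_smul (hq : q.Prime) (hA : (q : K) ∈ A.nonunits) {σ : K ≃ₐ[ℚ] K}
    (hσ : σ ∈ A.decompositionSubgroup ℚ) (z : K) :
    (ordFnAt A hq hA).ord (σ z) = (ordFnAt A hq hA).ord z := by
  by_cases hz : z = 0
  · rw [hz, _root_.map_zero]
  have hσz : σ z ≠ 0 := (_root_.map_ne_zero σ).mpr hz
  obtain ⟨e, he, f, h⟩ := val_alg A hq hA hz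
  have hmem : ∀ w : K, w ∈ A → σ w ∈ A := by
    intro w hw
    have h1 : σ • A = A := hσ
    have h2 : σ • w ∈ σ • A := ValuationSubring.smul_mem_pointwise_smul _ _ _ hw
    rwa [h1] at h2
  have hq0 : (q : K) ≠ 0 := by
    have := charZero_of_alg K
    exact_mod_cast hq.ne_zero
  have hval : ∀ w : K, A.valuation w = 1 → A.valuation (σ w) = 1 := by
    intro w hw
    have hw0 : w ≠ 0 := by rintro rfl; rw [_root_.map_zero] at hw; exact zero_ne_one hw
    have h1 : A.valuation (σ w) ≤ 1 := by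
      rw [ValuationSubring.valuation_le_one_iff]
      exact hmem _ ((ValuationSubring.valuation_le_one_iff A w).mp hw.le)
    have h2 : A.valuation (σ w⁻¹) ≤ 1 := by
      rw [ValuationSubring.valuation_le_one_iff]
      refine hmem _ ((ValuationSubring.valuation_le_one_iff A _).mp ?_)
      rw [map_inv₀, hw, inv_one]
    refine le_antisymm h1 ?_
    rw [map_inv₀, map_inv₀] at h2
    have h3 : A.valuation (σ w) ≠ 0 := (Valuation.ne_zero_iff _).mpr ((_root_.map_ne_zero σ).mpr hw0)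
    rwa [inv_le_one₀ (zero_lt_iff.mpr h3)] at h2
  have h1 : A.valuation (z ^ e * ((q : K) ^ f)⁻¹) = 1 := by
    rw [map_mul, map_pow, h, map_inv₀, map_zpow₀, mul_inv_cancel₀]
    exact zpow_ne_zero _ (val_q_ne_zero A hq)
  have h2 := hval _ h1
  rw [map_mul, map_inv₀, map_zpow₀, map_natCast, map_pow, map_mul, map_inv₀, map_zpow₀,
    map_pow] at h2
  have h3 : A.valuation (σ z) ^ e = A.valuation (q : K) ^ f := by
    have h4 : A.valuation (q : K) ^ f ≠ 0 := zpow_ne_zero _ (val_q_ne_zero A hq)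
    field_simp at h2
    exact h2
  show ordAt A hq hA (σ z) = ordAt A hq hA z
  rw [ordAt_eq A hq hA hz he h, ordAt_eq A hq hA hσz he h3]

end OrdAt

section Curve

variable {K : Type*} [Field K] [DecidableEq K] [Algebra ℚ K] [Algebra.IsAlgebraic ℚ K]
  [IsAlgClosed K] (A : ValuationSubring K) {p : ℕ}

/-- the model over the valuation ring -/
def modelA (W : Affine ℚ) {v : OrdFn K} (hc : IntCoeff W v) (hv : ∀ x, v.Ge 0 x → x ∈ A) :
    WeierstrassCurve A where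
  a₁ := ⟨_, hv _ hc.a₁⟩
  a₂ := ⟨_, hv _ hc.a₂⟩
  a₃ := ⟨_, hv _ hc.a₃⟩
  a₄ := ⟨_, hv _ hc.a₄⟩
  a₆ := ⟨_, hv _ hc.a₆⟩

lemma modelA_map (W : Affine ℚ) {v : OrdFn K} (hc : IntCoeff W v) (hv : ∀ x, v.Ge 0 x → x ∈ A) :
    (modelA A W hc hv).map A.subtype = (W⁄K) := rfl

theorem all_E1_ord (hp : p.Prime) (hodd : Odd p) (hA : (p : K) ∈ A.nonunits) (W : Affine ℚ)
    (hc : IntCoeff W (ordFnAt A hp hA)) (hΔ : (W⁄K).Δ ≠ 0)
    (hT : ∃ x y : K, (ordFnAt A hp hA).Ge 0 x ∧ (ordFnAt A hp hA).Ge 0 y ∧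
      (W⁄K).Equation x y ∧ 2 * y + (W⁄K).a₁ * x + (W⁄K).a₃ = 0 ∧
      (ordFnAt A hp hA).Eq 0 (3 * x ^ 2 + 2 * (W⁄K).a₂ * x + (W⁄K).a₄ - (W⁄K).a₁ * y))
    (hall : ∀ P : (W⁄K).Point, P ≠ 0 → p • P = 0 →
      (KummerLine.ofCurve (W⁄K)).InE1 (ordFnAt A hp hA) P)
    {P : (W⁄K).Point} (hP0 : P ≠ 0) (hP : p • P = 0) :
    ((p : ℝ) ^ 2 - 1) * (ordFnAt A hp hA).ord (xN P) = -2 := by
  classical
  set v := ordFnAt A hp hA with hv
  have hcz := charZero_of_alg K
  have hmem : ∀ x, v.Ge 0 x → x ∈ A := fun x hx => (ordFnAt_ge A hp hA x).mp hx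
  set WA := modelA A W hc hmem with hWA
  have hmap : WA.map A.subtype = (W⁄K) := rfl
  set f := (W⁄K).preΨ' p with hf
  have hfA : f = (WA.preΨ' p).map A.subtype := by
    rw [hf, ← hmap, map_preΨ']
  have hfQ : f = (W.preΨ' p).map (algebraMap ℚ K) := by
    rw [hf, ← map_preΨ']; rfl
  have hpK : (p : K) ≠ 0 := by exact_mod_cast hp.ne_zero
  have hf0 : f ≠ 0 := (W⁄K).preΨ'_ne_zero hpK
  have hdeg : f.natDegree = (p ^ 2 - 1) / 2 := by
    rw [hf, natDegree_preΨ' _ hpK, if_neg (Nat.not_even_iff_odd.mpr hodd)]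
  have hlc : f.coeff f.natDegree = p := by
    have := leadingCoeff_preΨ' (W⁄K) hpK
    rw [if_neg (Nat.not_even_iff_odd.mpr hodd)] at this
    exact this
  have hp3 : 3 ≤ p := by
    have h2 := hp.two_le
    obtain ⟨k, hk⟩ := hodd
    omega
  have hpp : 9 ≤ p ^ 2 := by nlinarith
  -- roots
  have hroots : ∀ x, f.IsRoot x → ¬ v.Ge 0 x := by
    intro x hx
    obtain ⟨Q, hQ0, hQx⟩ := DivPoly.exists_point (W := (W⁄K)) hΔ x
    have hQ : p • Q = 0 := by
      rw [DivPoly.nsmul_eq_zero_iff_odd hQ0 hodd, hQx]; exact hx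
    have := (KummerLine.inE1_iff hQ0).mp (hall Q hQ0 hQ)
    rw [← hQx]; exact this
  have hxr : f.IsRoot (xN P) := (DivPoly.nsmul_eq_zero_iff_odd hP0 hodd).mp hP
  have hunit : ∃ i, v.Eq 0 (f.coeff i) := by
    obtain ⟨x, y, hx, hy, hE, h2, h3⟩ := hT
    set xA : A := ⟨x, hmem x hx⟩ with hxA
    set yA : A := ⟨y, hmem y hy⟩ with hyA
    have hEA : WA.toAffine.Equation xA yA := by
      rw [Affine.equation_iff] at hE ⊢
      exact Subtype.ext hE
    have h2A : 2 * yA + WA.a₁ * xA + WA.a₃ = 0 := Subtype.ext h2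
    have h3A : IsUnit (3 * xA ^ 2 + 2 * WA.a₂ * xA + WA.a₄ - WA.a₁ * yA) := by
      rw [ValuationSubring.valuation_eq_one_iff]
      have e : ((3 * xA ^ 2 + 2 * WA.a₂ * xA + WA.a₄ - WA.a₁ * yA : A) : K) =
          3 * x ^ 2 + 2 * (W⁄K).a₂ * x + (W⁄K).a₄ - (W⁄K).a₁ * y := rfl
      rw [e]
      have h4 : ¬ v.Gt 0 (3 * x ^ 2 + 2 * (W⁄K).a₂ * x + (W⁄K).a₄ - (W⁄K).a₁ * y) := h3.not_gt
      rw [hv, ordFnAt_gt, ValuationSubring.mem_nonunits_iff, not_lt] at h4
      refine le_antisymm ?_ h4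
      rw [ValuationSubring.valuation_le_one_iff]
      exact hmem _ h3.ge
    obtain ⟨i, hi⟩ := exists_unit_coeff A (eval_preΨ_unit A WA hEA h2A h3A hodd)
    refine ⟨i, ?_⟩
    rw [hfA, coeff_map]
    rw [ValuationSubring.valuation_eq_one_iff] at hi
    have h5 : v.Ge 0 (((WA.preΨ' p).coeff i : A) : K) := (ordFnAt_ge A hp hA _).mpr (Subtype.mem _)
    have h6 : ¬ v.Gt 0 (((WA.preΨ' p).coeff i : A) : K) := by
      rw [hv, ordFnAt_gt, ValuationSubring.mem_nonunits_iff, hi]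
      exact lt_irrefl _
    rw [not_gt_iff] at h6
    exact ⟨h6.1, le_antisymm h6.2 ((ge_iff h6.1).mp h5)⟩
  have key := newton (v := v) hf0 hroots
    (fun i => by rw [hfA, coeff_map]; exact (ordFnAt_ge A hp hA _).mpr (Subtype.mem _))
    hunit (fun i hi => by
      rw [hfQ, coeff_map] at hi ⊢
      exact ordAt_rat_disc A hp hA _ hi)
    (by rw [hlc]; exact ordAt_q A hp hA) (by rw [hdeg]; omega) hxr
  rw [hdeg] at key
  have h7 : (((p ^ 2 - 1) / 2 : ℕ) : ℝ) = ((p : ℝ) ^ 2 - 1) / 2 := by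
    obtain ⟨k, hk⟩ := hodd
    have h8 : p ^ 2 - 1 = 2 * (2 * k ^ 2 + 2 * k) := by
      rw [hk]; ring_nf; omega
    rw [h8, Nat.mul_div_cancel_left _ two_pos, hk]
    push_cast; ring
  rw [h7] at key
  linarith

/-- Key contradiction: a Galois stable subgroup of order `p` prevents all the `p`-torsion from
being in the kernel of reduction. -/
theorem not_all_E1 [IsGalois ℚ K] (hp : p.Prime) (hodd : Odd p) (hA : (p : K) ∈ A.nonunits)
    (W : Affine ℚ)
    (hc : IntCoeff W (ordFnAt A hp hA)) (hΔ : (W⁄K).Δ ≠ 0)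
    (hT : ∃ x y : K, (ordFnAt A hp hA).Ge 0 x ∧ (ordFnAt A hp hA).Ge 0 y ∧
      (W⁄K).Equation x y ∧ 2 * y + (W⁄K).a₁ * x + (W⁄K).a₃ = 0 ∧
      (ordFnAt A hp hA).Eq 0 (3 * x ^ 2 + 2 * (W⁄K).a₂ * x + (W⁄K).a₄ - (W⁄K).a₁ * y))
    (N : Finset (W⁄K).Point) (hN0 : 0 ∈ N) (hcard : N.card = p) (hNp : ∀ P ∈ N, p • P = 0)
    (hst : ∀ (σ : K ≃ₐ[ℚ] K), ∀ P ∈ N, σ • P ∈ N) :
    ∃ P : (W⁄K).Point, P ≠ 0 ∧ p • P = 0 ∧
      ¬ (KummerLine.ofCurve (W⁄K)).InE1 (ordFnAt A hp hA) P := by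
  classical
  by_contra hcon
  push Not at hcon
  set v := ordFnAt A hp hA with hv
  have hord : ∀ P : (W⁄K).Point, P ≠ 0 → p • P = 0 → ((p : ℝ) ^ 2 - 1) * v.ord (xN P) = -2 :=
    fun P h1 h2 => all_E1_ord A hp hodd hA W hc hΔ hT hcon h1 h2
  have hx0 : ∀ P ∈ N.erase 0, xN P ≠ 0 := by
    intro P hP
    rw [Finset.mem_erase] at hP
    have := (KummerLine.inE1_iff hP.1).mp (hcon P hP.1 (hNp P hP.2))
    intro h0
    apply this
    show v.Ge 0 (xN P)
    rw [h0]; exact Ge.zero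
  set R := ∏ P ∈ N.erase 0, xN P with hR
  have hσR : ∀ σ : K ≃ₐ[ℚ] K, σ R = R := by
    intro σ
    rw [hR, map_prod]
    have hinj : Function.Injective (fun P : (W⁄K).Point => σ • P) := by
      intro P Q h
      exact Affine.Point.map_injective (W' := W) σ.toAlgHom h
    have h1 : ∀ P ∈ N.erase 0, σ (xN P) = xN (σ • P) := by
      intro P _
      exact (N_smul σ P).symm
    rw [Finset.prod_congr rfl h1]
    have himg : (N.erase 0).image (fun P : (W⁄K).Point => σ • P) = N.erase 0 := by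
      apply Finset.eq_of_subset_of_card_le
      · intro Q hQ
        rw [Finset.mem_image] at hQ
        obtain ⟨P, hP, rfl⟩ := hQ
        rw [Finset.mem_erase] at hP ⊢
        exact ⟨smul_ne_zero' σ hP.1, hst σ P hP.2⟩
      · rw [Finset.card_image_of_injective _ hinj]
    conv_rhs => rw [← himg]
    rw [Finset.prod_image (fun P _ Q _ h => hinj h)]
  obtain ⟨r, hr⟩ := (InfiniteGalois.mem_range_algebraMap_iff_fixed R).mpr hσR
  have hR0 : R ≠ 0 := Finset.prod_ne_zero_iff.mpr hx0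
  have hr0 : r ≠ 0 := by rintro rfl; rw [_root_.map_zero] at hr; exact hR0 hr.symm
  obtain ⟨k, hk⟩ := ordAt_rat A hp hA hr0
  rw [hr] at hk
  have hordprod : ∀ s : Finset (W⁄K).Point, (∀ P ∈ s, xN P ≠ 0) →
      v.ord (∏ P ∈ s, xN P) = ∑ P ∈ s, v.ord (xN P) := by
    intro s
    induction s using Finset.induction with
    | empty => intro _; simp [ord_one]
    | insert P s hP ih =>
      intro h
      have h1 := h P (Finset.mem_insert_self P s)
      have h2 : ∀ Q ∈ s, xN Q ≠ 0 := fun Q hQ => h Q (Finset.mem_insert_of_mem hQ)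
      rw [Finset.prod_insert hP, Finset.sum_insert hP,
        ord_mul h1 (Finset.prod_ne_zero_iff.mpr h2), ih h2]
  have h3 : ((p : ℝ) ^ 2 - 1) * v.ord R = -2 * (p - 1) := by
    rw [hR, hordprod _ hx0, Finset.mul_sum]
    have : ∀ P ∈ N.erase 0, ((p : ℝ) ^ 2 - 1) * v.ord (xN P) = -2 := by
      intro P hP
      rw [Finset.mem_erase] at hP
      exact hord P hP.1 (hNp P hP.2)
    rw [Finset.sum_congr rfl this, Finset.sum_const, Finset.card_erase_of_mem hN0, hcard,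
      nsmul_eq_mul, Nat.cast_sub hp.one_lt.le]
    push_cast; ring
  rw [← hv] at hk
  rw [hk] at h3
  have h4 : ((p : ℤ) ^ 2 - 1) * k = -2 * (p - 1) := by exact_mod_cast h3
  have hp3 : 3 ≤ (p : ℤ) := by
    have h2 := hp.two_le
    obtain ⟨k, hk⟩ := hodd
    omega
  have h5 : ((p : ℤ) - 1) * ((p + 1) * k + 2) = 0 := by linear_combination h4
  have h6 : ((p : ℤ) + 1) * k = -2 := by
    rcases mul_eq_zero.mp h5 with h | h
    · omega
    · linarith
  have h7 : k < 0 := by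
    by_contra h
    push Not at h
    have : 0 ≤ ((p : ℤ) + 1) * k := by positivity
    omega
  nlinarith

end Curve

end Fermat.Agent.ECRed
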