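import Fermat.Agent.ECRed.Ord

set_option autoImplicit false
set_option linter.unusedSectionVars false

namespace Fermat.Agent.ECRed

open Polynomial

variable {K : Type*} [Field K] [Algebra ℚ K] [Algebra.IsAlgebraic ℚ K] (A : ValuationSubring K)
  {q : ℕ}

lemma val_int_le (n : ℤ) : A.valuation (n : K) ≤ 1 := by
  rw [ValuationSubring.valuation_le_one_iff]
  exact intCast_mem A n

lemma val_int_of_coprime (hq : q.Prime) (hA : (q : K) ∈ A.nonunits) {n : ℤ} (hn : ¬ (q : ℤ) ∣ n) :
    A.valuation (n : K) = 1 := by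
  have hco : IsCoprime (q : ℤ) n := by
    rw [Int.isCoprime_iff_gcd_eq_one]
    have := (Nat.prime_iff_prime_int.mp hq).coprime_iff_not_dvd.mpr hn
    rwa [Int.isCoprime_iff_gcd_eq_one] at this
  obtain ⟨a, b, hab⟩ := hco
  refine le_antisymm (val_int_le A n) ?_
  by_contra hlt
  push Not at hlt
  rw [ValuationSubring.mem_nonunits_iff] at hA
  have h1 : A.valuation ((a : K) * q + b * n) < 1 := by
    refine lt_of_le_of_lt (A.valuation.map_add _ _) (max_lt ?_ ?_)
    · rw [map_mul]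
      exact (mul_le_of_le_one_left' (val_int_le A a)).trans_lt hA
    · rw [map_mul]
      exact (mul_le_of_le_one_left' (val_int_le A b)).trans_lt hlt
  have h2 : (a : K) * q + b * n = 1 := by exact_mod_cast congrArg (Int.cast : ℤ → K) hab
  rw [h2, map_one] at h1
  exact h1.false

lemma charZero_of_alg (K : Type*) [Field K] [Algebra ℚ K] : CharZero K :=
  charZero_of_injective_algebraMap (algebraMap ℚ K).injective

lemma val_int (hq : q.Prime) (hA : (q : K) ∈ A.nonunits) {n : ℤ} (hn : n ≠ 0) :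
    ∃ k : ℕ, A.valuation (n : K) = A.valuation (q : K) ^ k := by
  obtain ⟨m, hm, hm'⟩ := (Int.finiteMultiplicity_iff.mpr
    ⟨by simpa using hq.one_lt.ne', hn⟩ : FiniteMultiplicity (q : ℤ) n).exists_eq_pow_mul_and_not_dvd
  refine ⟨multiplicity (q : ℤ) n, ?_⟩
  conv_lhs => rw [hm]
  push_cast
  rw [map_mul, map_pow, val_int_of_coprime A hq hA hm', mul_one]

lemma val_q_ne_zero (hq : q.Prime) : A.valuation (q : K) ≠ 0 := by
  have := charZero_of_alg K
  rw [Valuation.ne_zero_iff]
  exact_mod_cast hq.ne_zero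

lemma val_rat (hq : q.Prime) (hA : (q : K) ∈ A.nonunits) {r : ℚ} (hr : r ≠ 0) :
    ∃ k : ℤ, A.valuation (algebraMap ℚ K r) = A.valuation (q : K) ^ k := by
  have := charZero_of_alg K
  obtain ⟨a, ha⟩ := val_int A hq hA (n := r.num) (by simpa using hr)
  obtain ⟨b, hb⟩ := val_int A hq hA (n := r.den) (by exact_mod_cast r.den_ne_zero)
  refine ⟨a - b, ?_⟩
  have : algebraMap ℚ K r = (r.num : K) / (r.den : ℤ) := by
    rw [eq_ratCast, Rat.cast_def, Int.cast_natCast]
  rw [this, map_div₀, ha, hb, zpow_sub₀ (val_q_ne_zero A hq)]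
  simp

lemma val_alg (hq : q.Prime) (hA : (q : K) ∈ A.nonunits) {x : K} (hx : x ≠ 0) :
    ∃ e : ℕ, 0 < e ∧ ∃ f : ℤ, A.valuation x ^ e = A.valuation (q : K) ^ f := by
  classical
  obtain ⟨p, hp0, hp⟩ : IsAlgebraic ℚ x := Algebra.IsAlgebraic.isAlgebraic x
  set v := A.valuation with hv
  set f : ℕ → K := fun i => algebraMap ℚ K (p.coeff i) * x ^ i with hf
  have hsum : ∑ i ∈ p.support, f i = 0 := by
    rw [aeval_eq_sum_range] at hp
    rw [← hp]
    have : ∑ i ∈ p.support, f i = p.sum fun i a => algebraMap ℚ K a * x ^ i := rfl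
    rw [this, Polynomial.sum_over_range _ (by simp)]
    simp [Algebra.smul_def]
  have hne : p.support.Nonempty := by
    rw [nonempty_support_iff]; exact hp0
  obtain ⟨j, hj, hmax⟩ := Finset.exists_max_image p.support (fun i => v (f i)) hne
  have hfj : f j ≠ 0 := by
    rw [mem_support_iff] at hj
    simp only [hf]
    refine mul_ne_zero ?_ (pow_ne_zero _ hx)
    rwa [ne_eq, map_eq_zero]
  have hex : ∃ i ∈ p.support, i ≠ j ∧ v (f i) = v (f j) := by
    by_contra hcon
    push Not at hcon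
    have : v (∑ i ∈ p.support, f i) = v (f j) := by
      apply Valuation.map_sum_eq_of_lt v hj
      intro i hi
      rw [Finset.mem_sdiff, Finset.mem_singleton] at hi
      exact lt_of_le_of_ne (hmax i hi.1) (hcon i hi.1 hi.2)
    rw [hsum, map_zero] at this
    exact hfj ((Valuation.zero_iff v).mp this.symm)
  obtain ⟨i, hi, hij, hvv⟩ := hex
  rw [mem_support_iff] at hi hj
  obtain ⟨a, ha⟩ := val_rat (K := K) A hq hA hi
  obtain ⟨b, hb⟩ := val_rat (K := K) A hq hA hj
  simp only [hf, map_mul, map_pow, ← hv] at hvv ha hb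
  rw [ha, hb] at hvv
  have hq0 : v (q : K) ≠ 0 := val_q_ne_zero A hq
  have hx0 : v x ≠ 0 := (Valuation.ne_zero_iff v).mpr hx
  rcases lt_or_gt_of_ne hij with hlt | hlt
  · refine ⟨j - i, by omega, a - b, ?_⟩
    rw [zpow_sub₀ hq0, eq_div_iff (zpow_ne_zero _ hq0), pow_sub₀ _ hx0 hlt.le]
    rw [← mul_comm (v q ^ b), ← mul_assoc, ← hvv, mul_assoc, mul_inv_cancel₀ (pow_ne_zero _ hx0),
      mul_one]
  · refine ⟨i - j, by omega, b - a, ?_⟩
    rw [zpow_sub₀ hq0, eq_div_iff (zpow_ne_zero _ hq0), pow_sub₀ _ hx0 hlt.le]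
    rw [← mul_comm (v q ^ a), ← mul_assoc, hvv, mul_assoc, mul_inv_cancel₀ (pow_ne_zero _ hx0),
      mul_one]

open Classical in
/-- the `ℝ`-valued ord attached to `A` above `q`, normalised by `ord q = 1`. -/
noncomputable def ordAt (hq : q.Prime) (hA : (q : K) ∈ A.nonunits) (x : K) : ℝ :=
  if hx : x = 0 then 0 else
    ((val_alg A hq hA hx).choose_spec.2.choose : ℝ) / ((val_alg A hq hA hx).choose : ℝ)

lemma ordAt_eq (hq : q.Prime) (hA : (q : K) ∈ A.nonunits) {x : K} (hx : x ≠ 0) {e : ℕ} (he : 0 < e)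
    {f : ℤ} (h : A.valuation x ^ e = A.valuation (q : K) ^ f) :
    ordAt A hq hA x = f / e := by
  rw [ordAt, dif_neg hx]
  have he' := (val_alg A hq hA hx).choose_spec.1
  have h' := (val_alg A hq hA hx).choose_spec.2.choose_spec
  set e' := (val_alg A hq hA hx).choose
  set f' := (val_alg A hq hA hx).choose_spec.2.choose
  have hq0 : A.valuation (q : K) ≠ 0 := val_q_ne_zero A hq
  have hA' := hA
  rw [ValuationSubring.mem_nonunits_iff] at hA'
  have h1 : A.valuation (q : K) ^ (f * e') = A.valuation (q : K) ^ (f' * e) := by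
    rw [zpow_mul, zpow_mul, ← h, ← h']
    simp only [zpow_natCast]
    rw [← pow_mul, ← pow_mul, mul_comm]
  have h2 : f * e' = f' * e := by
    by_contra hne
    rcases lt_or_gt_of_ne hne with hlt | hlt
    · have := zpow_lt_zpow_right_of_lt_one₀ (zero_lt_iff.mpr hq0) hA' hlt
      rw [h1] at this; exact this.false
    · have := zpow_lt_zpow_right_of_lt_one₀ (zero_lt_iff.mpr hq0) hA' hlt
      rw [h1] at this; exact this.false
  have h3 : (e : ℝ) ≠ 0 := by exact_mod_cast he.ne'
  have h4 : (e' : ℝ) ≠ 0 := by exact_mod_cast he'.ne'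
  rw [div_eq_div_iff h4 h3]
  exact_mod_cast h2.symm

lemma ordAt_nonneg_iff (hq : q.Prime) (hA : (q : K) ∈ A.nonunits) {x : K} (hx : x ≠ 0) :
    0 ≤ ordAt A hq hA x ↔ x ∈ A := by
  obtain ⟨e, he, f, h⟩ := val_alg A hq hA hx
  rw [ordAt_eq A hq hA hx he h]
  have hA' := hA
  rw [ValuationSubring.mem_nonunits_iff] at hA'
  have hq0 : A.valuation (q : K) ≠ 0 := val_q_ne_zero A hq
  have he' : (0 : ℝ) < e := by exact_mod_cast he
  rw [← ValuationSubring.valuation_le_one_iff, ← pow_le_one_iff_of_nonneg zero_le he.ne', h]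
  rw [le_div_iff₀ he', zero_mul]
  constructor
  · intro hf
    have hf' : 0 ≤ f := by exact_mod_cast hf
    lift f to ℕ using hf'
    rw [zpow_natCast]
    exact pow_le_one₀ zero_le hA'.le
  · intro hf
    by_contra hneg
    push Not at hneg
    have hneg' : f < 0 := by exact_mod_cast hneg
    have := zpow_lt_zpow_right_of_lt_one₀ (zero_lt_iff.mpr hq0) hA' hneg'
    rw [zpow_zero] at this
    exact absurd hf (not_le.mpr this)

lemma ordAt_mul (hq : q.Prime) (hA : (q : K) ∈ A.nonunits) {x y : K} (hx : x ≠ 0) (hy : y ≠ 0) :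
    ordAt A hq hA (x * y) = ordAt A hq hA x + ordAt A hq hA y := by
  obtain ⟨e, he, f, h⟩ := val_alg A hq hA hx
  obtain ⟨e', he', f', h'⟩ := val_alg A hq hA hy
  have hq0 : A.valuation (q : K) ≠ 0 := val_q_ne_zero A hq
  have key : A.valuation (x * y) ^ (e * e') = A.valuation (q : K) ^ (f * e' + f' * e) := by
    rw [map_mul, mul_pow, pow_mul, h, mul_comm e e', pow_mul, h', zpow_add₀ hq0, zpow_mul, zpow_mul]
    simp
  rw [ordAt_eq A hq hA hx he h, ordAt_eq A hq hA hy he' h',
    ordAt_eq A hq hA (mul_ne_zero hx hy) (mul_pos he he') key]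
  have h3 : (e : ℝ) ≠ 0 := by exact_mod_cast he.ne'
  have h4 : (e' : ℝ) ≠ 0 := by exact_mod_cast he'.ne'
  push_cast
  field_simp

/-- the `OrdFn` attached to a valuation subring of `K` (algebraic over `ℚ`) lying over `q`. -/
noncomputable def ordFnAt (hq : q.Prime) (hA : (q : K) ∈ A.nonunits) : OrdFn K where
  ord := ordAt A hq hA
  ord_mul' x y hx hy := ordAt_mul A hq hA hx hy
  ord_add' := by
    have key : ∀ x y : K, x ≠ 0 → y ≠ 0 → x + y ≠ 0 → ordAt A hq hA x ≤ ordAt A hq hA y →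
        ordAt A hq hA x ≤ ordAt A hq hA (x + y) := by
      intro x y hx hy hxy hle
      have hxi : x⁻¹ ≠ 0 := inv_ne_zero hx
      have h1 : ordAt A hq hA x + ordAt A hq hA x⁻¹ = 0 := by
        have e1 := ordAt_mul A hq hA hx hxi
        have e2 := ordAt_mul A hq hA (one_ne_zero (α := K)) (one_ne_zero (α := K))
        rw [mul_inv_cancel₀ hx] at e1
        rw [mul_one] at e2
        linarith
      have h2 : y * x⁻¹ ∈ A := by
        rw [← ordAt_nonneg_iff A hq hA (mul_ne_zero hy hxi), ordAt_mul A hq hA hy hxi]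
        linarith
      have h3 : 1 + y * x⁻¹ ∈ A := A.add_mem _ _ A.one_mem h2
      have e3 : x + y = x * (1 + y * x⁻¹) := by field_simp
      have h4 : 1 + y * x⁻¹ ≠ 0 := by
        intro h0; rw [h0, mul_zero] at e3; exact hxy e3
      rw [e3, ordAt_mul A hq hA hx h4]
      have := (ordAt_nonneg_iff A hq hA h4).mpr h3
      linarith
    intro x y hx hy hxy
    rcases le_total (ordAt A hq hA x) (ordAt A hq hA y) with h | h
    · rw [min_eq_left h]; exact key x y hx hy hxy h
    · rw [min_eq_right h, add_comm]; exact key y x hy hx (by rwa [add_comm]) h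

lemma ordFnAt_ge (hq : q.Prime) (hA : (q : K) ∈ A.nonunits) (x : K) :
    (ordFnAt A hq hA).Ge 0 x ↔ x ∈ A := by
  by_cases hx : x = 0
  · subst hx; exact ⟨fun _ => A.zero_mem, fun _ => OrdFn.Ge.zero⟩
  · rw [OrdFn.ge_iff hx]; exact ordAt_nonneg_iff A hq hA hx

lemma ordFnAt_gt (hq : q.Prime) (hA : (q : K) ∈ A.nonunits) (x : K) :
    (ordFnAt A hq hA).Gt 0 x ↔ x ∈ A.nonunits := by
  by_cases hx : x = 0
  · subst hx
    refine ⟨fun _ => ?_, fun _ => OrdFn.Gt.zero⟩
    rw [ValuationSubring.mem_nonunits_iff, map_zero]; exact zero_lt_one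
  · rw [OrdFn.gt_iff hx, ValuationSubring.mem_nonunits_iff_or]
    have := ordFnAt_ge A hq hA x⁻¹
    rw [← this, OrdFn.not_ge_iff, OrdFn.ord_inv x hx]
    simp [hx]

end Fermat.Agent.ECRed
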