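import Fermat.Agent.ECRed.FreyTwo

set_option autoImplicit false
set_option linter.unusedSectionVars false

/-! # The Frey curve at `p` -/

namespace Fermat.Agent.ECRed.Frey

open WeierstrassCurve WeierstrassCurve.Affine OrdFn
open scoped Pointwise

variable {P : FreyPackage} {K : Type*} [Field K] [DecidableEq K] [Algebra ℚ K]
  [Algebra.IsAlgebraic ℚ K] [CharZero K] {A : ValuationSubring K}

lemma two_unit (hA : ((P.p : ℕ) : K) ∈ A.nonunits) : (ordFnAt A P.pp hA).Eq 0 (2 : K) := by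
  have := eq_zero_of_not_dvd (A := A) P.pp hA (n := 2) (by
    intro h
    have h1 : P.p ∣ 2 := by exact_mod_cast h
    have := Nat.le_of_dvd (by norm_num) h1
    have := P.hp5
    omega)
  simpa using this

/-- the subgroup generated by a `p`-torsion point outside the kernel of reduction -/
lemma tors_zmultiples {G : Type*} [AddCommGroup G] {κ : KummerLine G K} {v : OrdFn K}
    (hb : κ.Integral v) {p : ℕ} (hp : p.Prime) (hodd : Odd p) {Q : G} (hQ : p • Q = 0)
    (hE : ¬ κ.InE1 v Q) : κ.Tors v p (AddSubgroup.zmultiples Q) := by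
  refine ⟨hodd, ?_, ?_⟩
  · intro R hR
    obtain ⟨k, rfl⟩ := AddSubgroup.mem_zmultiples_iff.mp hR
    rw [smul_comm, hQ, smul_zero]
  · intro R hR hR0
    obtain ⟨k, rfl⟩ := AddSubgroup.mem_zmultiples_iff.mp hR
    by_contra h
    have h1 : κ.InE1 v (k • Q) := (KummerLine.inE1_iff hR0).mpr h
    have hQz : (p : ℤ) • Q = 0 := by rw [natCast_zsmul]; exact hQ
    have hk : ¬ (p : ℤ) ∣ k := by
      rintro ⟨j, rfl⟩
      apply hR0
      rw [mul_comm, mul_smul, hQz, smul_zero]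
    have hco : IsCoprime (p : ℤ) k :=
      (Nat.prime_iff_prime_int.mp hp).coprime_iff_not_dvd.mpr hk
    obtain ⟨a, b, hab⟩ := hco
    apply hE
    have h2 : Q = b • (k • Q) := by
      have : (1 : ℤ) • Q = b • (k • Q) := by
        rw [← hab, add_smul, mul_smul, hQz, smul_zero, zero_add, mul_smul]
      rwa [one_smul] at this
    rw [← KummerLine.mem_E1sub hb] at h1 ⊢
    rw [h2]
    exact (KummerLine.E1sub hb).zsmul_mem h1 b

theorem frey_star_p {A : ValuationSubring K} (hA : ((P.p : ℕ) : K) ∈ A.nonunits)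
    {σ : K ≃ₐ[ℚ] K} (hσI : σ ∈ A.inertiaSubgroupIn ℚ)
    {Q : ((P.freyCurve : Affine ℚ)⁄K).Point} (hQ : P.p • Q = 0)
    (hE : ¬ (kum P (K := K)).InE1 (ordFnAt A P.pp hA) Q) :
    (kum P (K := K)).InE1 (ordFnAt A P.pp hA) (σ • Q - Q) := by
  set v := ordFnAt A P.pp hA with hv
  have hσ : ∀ z, v.Ge 0 z → v.Gt 0 (σ z - z) := by
    intro z hz
    rw [hv, ordFnAt_gt]
    rw [hv, ordFnAt_ge] at hz
    exact inertia_sub A hσI hz
  have h2 : v.Eq 0 (2 : K) := two_unit hA
  have hu : ∀ n : ℤ, ¬ (P.p : ℤ) ∣ n → v.Eq 0 (n : K) := fun n hn =>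
    eq_zero_of_not_dvd (A := A) P.pp hA hn
  have hd : ∀ n : ℤ, (P.p : ℤ) ∣ n → v.Gt 0 (n : K) := fun n hn =>
    gt_zero_of_dvd (A := A) P.pp hA hn
  have hqI : Prime (P.p : ℤ) := Nat.prime_iff_prime_int.mp P.pp
  have hp0 := P.hp0
  have cop : ∀ {x y : ℤ}, gcd x y = 1 → (P.p : ℤ) ∣ x → ¬ (P.p : ℤ) ∣ y := by
    intro x y hxy hx hy
    have := dvd_gcd hx hy
    rw [hxy] at this
    exact hqI.not_isUnit (isUnit_of_dvd_one this)
  have hint : ∀ {x y : ℤ}, gcd x y = 1 → (P.p : ℤ) ∣ x →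
      v.Eq 0 ((y : K) ^ P.p - (x : K) ^ P.p) := by
    intro x y hxy hx
    have h1 := hu (y ^ P.p - x ^ P.p) (by
      intro h
      have h3 : (P.p : ℤ) ∣ y ^ P.p := by
        have := dvd_add h (dvd_pow hx hp0)
        simpa using this
      exact cop hxy hx (hqI.dvd_of_dvd_pow h3))
    simpa using h1
  have hne : ∀ {x : ℤ}, x ≠ 0 → (x : K) ≠ 0 := fun h => by exact_mod_cast h
  have r2 : ∀ {x y : ℤ}, x ≠ 0 → y ≠ 0 →
      v.Eq (2 * v.ord ((x : K) * y)) (((x * y : ℤ) : K) ^ 2) := by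
    intro x y hx hy
    have := (eq_self (v := v) (mul_ne_zero (hne hx) (hne hy))).pow_two
    push_cast
    exact this
  have σint : ∀ n : ℤ, σ ((n : K) ^ 2) = (n : K) ^ 2 := by
    intro n
    rw [map_pow, map_intCast]
  have main : ∀ (r : ℚ) (x y : ℤ) (ε : K), v.Eq 0 ε → x ≠ 0 → y ≠ 0 → (P.p : ℤ) ∣ x * y →
      v.Ge 0 (algebraMap ℚ K r) →
      v.Eq 0 ((kum P (K := K)).translate (algebraMap ℚ K r)).b₂ →
      ((kum P (K := K)).translate (algebraMap ℚ K r)).b₄ = ε * ((x : K) * y) ^ P.p / 8 →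
      ((kum P (K := K)).translate (algebraMap ℚ K r)).b₆ = 0 →
      ((kum P (K := K)).translate (algebraMap ℚ K r)).b₈ = -(((x : K) * y) ^ P.p) ^ 2 / 256 →
      (kum P (K := K)).InE1 v (σ • Q - Q) := by
    intro r x y ε hε hx hy hxy hr hb₂ hb₄ hb₆ hb₈
    have hg : v.Gt 0 ((x : K) * y) := by
      have := hd _ hxy
      push_cast at this
      exact this
    have hM := multAt_of (κ := (kum P (K := K)).translate (algebraMap ℚ K r)) h2 hε P.p hp0 hg
      (mul_ne_zero (hne hx) (hne hy)) hb₂ hb₄ hb₆ hb₈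
    have hE' : ¬ ((kum P (K := K)).translate (algebraMap ℚ K r)).InE1 v Q := by
      rwa [KummerLine.inE1_translate hr]
    have t := tors_zmultiples hM.integral P.pp P.hp_odd hQ hE'
    rw [← KummerLine.inE1_translate hr]
    exact star_mult (κ := (kum P (K := K)).translate (algebraMap ℚ K r)) rfl hσ h2 hM t
      (σint (x * y)) (r2 hx hy) (by ring) (AddSubgroup.mem_zmultiples Q)
  have alg4 : (algebraMap ℚ K (((P.a : ℚ)) ^ P.p / 4)) = (P.a : K) ^ P.p / 4 := by simp
  have h4inv : v.Eq 0 ((4 : K)⁻¹) := by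
    have := (h2.pow 2).inv
    norm_num at this
    simpa using this
  by_cases hc : (P.p : ℤ) ∣ P.c
  · have hca : gcd P.c P.a = 1 := by rw [gcd_comm]; exact P.hgcdac
    refine main (((P.a : ℚ)) ^ P.p / 4) P.a P.c 1 eq_one P.ha0 P.hc0 (dvd_mul_of_dvd_right hc _)
      ?_ ?_ ?_ ?_ ?_
    · rw [alg4, div_eq_mul_inv]
      have := (ge_intCast (v := v) (P.a ^ P.p)).mul h4inv.ge
      push_cast at this
      simpa using this
    · rw [alg4, trans_b₂]
      have h1 := hu (P.a ^ P.p + P.c ^ P.p) (by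
        intro h
        have h3 : (P.p : ℤ) ∣ P.a ^ P.p := by
          have := dvd_sub h (dvd_pow hc hp0)
          simpa using this
        exact cop hca hc (hqI.dvd_of_dvd_pow h3))
      simpa using h1
    · rw [alg4, trans_b₄, one_mul]
    · rw [alg4, trans_b₆]
    · rw [alg4, trans_b₈]
  by_cases hab : (P.p : ℤ) ∣ P.a * P.b
  · have ht : (kum P (K := K)).translate (algebraMap ℚ K 0) = kum P (K := K) := by
      simp [KummerLine.translate]
    refine main 0 P.a P.b (-1) eq_one.neg P.ha0 P.hb0 hab ?_ ?_ ?_ ?_ ?_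
    · rw [_root_.map_zero]; exact Ge.zero
    · rw [ht, kum_b₂]
      rcases hqI.dvd_or_dvd hab with h | h
      · exact hint P.hgcdab h
      · have := hint (x := P.b) (y := P.a) (by rw [gcd_comm]; exact P.hgcdab) h
        have := this.neg
        rw [neg_sub] at this
        exact this
    · rw [ht, kum_b₄]; ring
    · rw [ht, kum_b₆]
    · rw [ht, kum_b₈]
  · -- good reduction
    have h8 : v.Eq 0 ((8 : K)⁻¹) := by
      have := (h2.pow 3).inv
      norm_num at this
      simpa using this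
    have h256 : v.Eq 0 ((256 : K)⁻¹) := by
      have := (h2.pow 8).inv
      norm_num at this
      simpa using this
    have gi : ∀ n : ℤ, v.Ge 0 (n : K) := fun n => ge_intCast n
    have hκ0 : kum P (K := K) = (kum P (K := K)).translate (algebraMap ℚ K 0) := by
      simp [KummerLine.translate]
    have hbI : (kum P (K := K)).Integral v := by
      refine ⟨?_, ?_, ?_, ?_⟩
      · rw [kum_b₂]
        have := gi (P.b ^ P.p - P.a ^ P.p)
        simpa using this
      · rw [kum_b₄]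
        have := (gi (-(P.a * P.b) ^ P.p)).mul h8.ge
        push_cast at this
        rw [div_eq_mul_inv]
        simpa using this
      · rw [kum_b₆]; exact Ge.zero
      · rw [kum_b₈]
        have := (gi (-((P.a * P.b) ^ P.p) ^ 2)).mul h256.ge
        push_cast at this
        rw [div_eq_mul_inv]
        simpa using this
    refine star_good hκ0 hσ h2 hbI ?_ P.hp_odd hQ hE
    rw [kum_disc]
    have habc : ¬ (P.p : ℤ) ∣ ((P.a * P.b * P.c) ^ P.p) ^ 2 := by
      intro h
      have := hqI.dvd_of_dvd_pow (hqI.dvd_of_dvd_pow h)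
      rcases hqI.dvd_or_dvd this with h | h
      · exact hab h
      · exact hc h
    have := (hu _ habc).mul h256
    push_cast at this
    rw [div_eq_mul_inv]
    simpa using this

lemma four_unit (hA : ((P.p : ℕ) : K) ∈ A.nonunits) : (ordFnAt A P.pp hA).Eq 0 ((4 : K)⁻¹) := by
  have := ((two_unit hA).pow 2).inv
  norm_num at this
  simpa using this

lemma intCoeff_p (hA : ((P.p : ℕ) : K) ∈ A.nonunits) :
    IntCoeff (P.freyCurve : Affine ℚ) (ordFnAt A P.pp hA) := intCoeff_two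

lemma frey_Δ_ne : (((P.freyCurve : Affine ℚ)⁄K) : Affine K).Δ ≠ 0 := by
  have h1 : (((P.freyCurve : Affine ℚ)⁄K) : Affine K).Δ = (kum P (K := K)).disc := by
    show (((P.freyCurve : Affine ℚ)⁄K) : Affine K).Δ = _
    rw [WeierstrassCurve.Δ]; rfl
  rw [h1, kum_disc]
  have h := P.habc0
  have h2 : ((P.a : K) * P.b * P.c) ≠ 0 := by exact_mod_cast h
  exact div_ne_zero (pow_ne_zero _ (pow_ne_zero _ h2)) (by norm_num)

/-- existence of a nonsingular point of order two modulo `p` -/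
lemma frey_hT (hA : ((P.p : ℕ) : K) ∈ A.nonunits) :
    ∃ x y : K, (ordFnAt A P.pp hA).Ge 0 x ∧ (ordFnAt A P.pp hA).Ge 0 y ∧
      ((P.freyCurve : Affine ℚ)⁄K).Equation x y ∧
      2 * y + ((P.freyCurve : Affine ℚ)⁄K).a₁ * x + ((P.freyCurve : Affine ℚ)⁄K).a₃ = 0 ∧
      (ordFnAt A P.pp hA).Eq 0 (3 * x ^ 2 + 2 * ((P.freyCurve : Affine ℚ)⁄K).a₂ * x +
        ((P.freyCurve : Affine ℚ)⁄K).a₄ - ((P.freyCurve : Affine ℚ)⁄K).a₁ * y) := by
  set v := ordFnAt A P.pp hA with hv
  have hu : ∀ n : ℤ, ¬ (P.p : ℤ) ∣ n → v.Eq 0 (n : K) := fun n hn =>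
    eq_zero_of_not_dvd (A := A) P.pp hA hn
  have h2 : v.Eq 0 (2 : K) := two_unit hA
  have h4 : v.Eq 0 ((4 : K)⁻¹) := four_unit hA
  have h2i : v.Eq 0 ((2 : K)⁻¹) := by simpa using h2.inv
  have h16 : v.Eq 0 ((16 : K)⁻¹) := by
    have := (h2.pow 4).inv
    norm_num at this
    simpa using this
  have hqI : Prime (P.p : ℤ) := Nat.prime_iff_prime_int.mp P.pp
  have hp0 := P.hp0
  have cop : ∀ {x y : ℤ}, gcd x y = 1 → (P.p : ℤ) ∣ x → ¬ (P.p : ℤ) ∣ y := by
    intro x y hxy hx hy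
    have := dvd_gcd hx hy
    rw [hxy] at this
    exact hqI.not_isUnit (isUnit_of_dvd_one this)
  have hF := hFLT_K P (K := K)
  have hu2 : ∀ x y : ℤ, ¬ (P.p : ℤ) ∣ x → ¬ (P.p : ℤ) ∣ y →
      v.Eq 0 ((x : K) ^ P.p * (y : K) ^ P.p * (16 : K)⁻¹) := by
    intro x y hx hy
    have := ((((hu x hx).pow P.p).mul ((hu y hy).pow P.p))).mul h16
    simpa using this
  have hge : ∀ x : ℤ, v.Ge 0 ((x : K) ^ P.p * (4 : K)⁻¹) := by
    intro x
    have := (ge_intCast (v := v) (x ^ P.p)).mul h4.ge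
    push_cast at this
    simpa using this
  simp only [equation_iff, frey_a₁, frey_a₂, frey_a₃, frey_a₄, frey_a₆, mul_pow]
  by_cases ha : (P.p : ℤ) ∣ P.a
  · -- `x = -b^p/4`
    have hb := cop P.hgcdab ha
    have hc := cop P.hgcdac ha
    refine ⟨-((P.b : K) ^ P.p * (4 : K)⁻¹), (P.b : K) ^ P.p * (4 : K)⁻¹ * (2 : K)⁻¹,
      (hge P.b).neg, by simpa using (hge P.b).mul h2i.ge, ?_, ?_, ?_⟩
    · field_simp; ring
    · field_simp; ring
    · have := hu2 P.b P.c hb hc
      rw [← hF] at this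
      convert this using 1
      field_simp; ring
  by_cases hb : (P.p : ℤ) ∣ P.b
  · -- `x = a^p/4`
    have hc := cop P.hgcdbc hb
    refine ⟨((P.a : K) ^ P.p * (4 : K)⁻¹), -((P.a : K) ^ P.p * (4 : K)⁻¹ * (2 : K)⁻¹),
      (hge P.a), by simpa using ((hge P.a).mul h2i.ge).neg, ?_, ?_, ?_⟩
    · field_simp; ring
    · field_simp; ring
    · have := hu2 P.a P.c ha hc
      rw [← hF] at this
      convert this using 1
      field_simp; ring
  · refine ⟨0, 0, Ge.zero, Ge.zero, ?_, ?_, ?_⟩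
    · ring
    · ring
    · have := (hu2 P.a P.b ha hb).neg
      convert this using 1
      field_simp; ring

end Fermat.Agent.ECRed.Frey
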