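import Fermat.Agent.ECRed.Comp2
import Fermat.Agent.ECRed.OrdQbar
import Fermat.Prelude.Def_FLTPrelim_GaloisRep
import Fermat.Prelude.Def_FLTPrelim_Ramification

set_option autoImplicit false
set_option linter.unusedSectionVars false

namespace Fermat.Agent.ECRed

open WeierstrassCurve WeierstrassCurve.Affine WeierstrassCurve.Affine.Point

section Inertia

variable {K : Type*} [Field K] [Algebra ℚ K]

lemma inertia_sub (A : ValuationSubring K) {σ : K ≃ₐ[ℚ] K}
    (hσ : σ ∈ A.inertiaSubgroupIn ℚ) {z : K} (hz : z ∈ A) : σ z - z ∈ A.nonunits := by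
  obtain ⟨τ, hτ, rfl⟩ := hσ
  have h1 : τ • (IsLocalRing.residue A ⟨z, hz⟩) = IsLocalRing.residue A ⟨z, hz⟩ := by
    have := DFunLike.congr_fun (MonoidHom.mem_ker.mp hτ) (IsLocalRing.residue A ⟨z, hz⟩)
    exact this
  rw [← IsLocalRing.ResidueField.residue_smul, ← sub_eq_zero, ← map_sub,
    IsLocalRing.residue_eq_zero_iff] at h1
  rw [ValuationSubring.mem_nonunits_iff_exists_mem_maximalIdeal]
  exact ⟨_, h1⟩

end Inertia

section Main

variable {K : Type*} [Field K] [DecidableEq K] [Algebra ℚ K] {W : Affine ℚ} {v : OrdFn K}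

/-- `2y+a₁x+a₃` -/
noncomputable def eta {W : Affine K} : W.Point → K
  | 0 => 0
  | .some x y _ => y - W.negY x y

lemma eta_sq {W : Affine K} {P : W.Point} (hP : P ≠ 0) :
    eta P ^ 2 = (KummerLine.ofCurve W).psi ((KummerLine.ofCurve W).N P) := by
  rcases P with _ | ⟨x, y, h⟩
  · exact absurd rfl hP
  · rw [KummerLine.psi]
    exact psi_eq h.1

lemma eta_neg {W : Affine K} (P : W.Point) : eta (-P) = - eta P := by
  rcases P with _ | ⟨x, y, h⟩
  · show (0 : K) = -0; rw [_root_.neg_zero]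
  · rw [neg_some]
    simp only [eta, negY_negY]; ring

lemma psi_translate {G : Type*} [AddCommGroup G] (κ : KummerLine G K) (r x : K) :
    (κ.translate r).psi (x - r) = κ.psi x := by
  simp only [KummerLine.psi, KummerLine.translate]; ring

lemma smul_eq_map (σ : K ≃ₐ[ℚ] K) (P : (W⁄K).Point) : σ • P = Point.map σ.toAlgHom P := rfl

lemma eta_smul (σ : K ≃ₐ[ℚ] K) (P : (W⁄K).Point) : eta (σ • P) = σ (eta P) := by
  rw [smul_eq_map]
  rcases P with _ | ⟨x, y, h⟩
  · show (0 : K) = σ 0; rw [_root_.map_zero]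
  · rw [map_some]
    simp only [eta]
    have := baseChange_negY (W' := W) σ.toAlgHom x y
    rw [this, map_sub]; rfl

lemma N_smul (σ : K ≃ₐ[ℚ] K) (P : (W⁄K).Point) :
    (KummerLine.ofCurve (W⁄K)).N (σ • P) = σ ((KummerLine.ofCurve (W⁄K)).N P) := by
  rw [smul_eq_map]
  rcases P with _ | ⟨x, y, h⟩
  · show (1 : K) = σ 1; rw [map_one]
  · rw [map_some]; rfl

lemma D_smul (σ : K ≃ₐ[ℚ] K) (P : (W⁄K).Point) :
    (KummerLine.ofCurve (W⁄K)).D (σ • P) = σ ((KummerLine.ofCurve (W⁄K)).D P) := by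
  rw [smul_eq_map]
  rcases P with _ | ⟨x, y, h⟩
  · show (0 : K) = σ 0; rw [_root_.map_zero]
  · rw [map_some]; show (1 : K) = σ 1; rw [map_one]

open OrdFn

/-- σ acts trivially modulo higher order on elements whose order is attained by a fixed element. -/
lemma gt_sub_of_fixed {σ : K ≃ₐ[ℚ] K} (hσ : ∀ z, v.Ge 0 z → v.Gt 0 (σ z - z)) {a : ℝ} {r : K}
    (hr : σ r = r) (hra : v.Eq a r) {z : K} (hz : v.Ge a z) : v.Gt a (σ z - z) := by
  have h1 : v.Ge 0 (r⁻¹ * z) := by simpa using hra.inv.ge.mul hz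
  have h2 := hra.ge.mul_gt (hσ _ h1)
  rw [add_zero, map_mul, map_inv₀, hr] at h2
  have : r * (r⁻¹ * σ z - r⁻¹ * z) = σ z - z := by
    have := hra.ne
    field_simp
  rwa [this] at h2

theorem fixed_of_criteria (κ : KummerLine (W⁄K).Point K) {r : ℚ}
    (hκ : κ = (KummerLine.ofCurve (W⁄K)).translate (algebraMap ℚ K r))
    {σ : K ≃ₐ[ℚ] K} (hσ : ∀ z, v.Ge 0 z → v.Gt 0 (σ z - z)) (h2 : v.Eq 0 (2 : K))
    {P : (W⁄K).Point} (hP0 : P ≠ 0) {a : ℝ} (hN : v.Ge a (κ.N P))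
    (hpsi : v.Eq (2 * a) (κ.psi (κ.N P))) (hr : ∃ r₀ : K, σ r₀ = r₀ ∧ v.Eq a r₀)
    (hcong : v.Gt a (κ.N P - κ.N (σ • P)) → P = σ • P ∨ P = - (σ • P)) : σ • P = P := by
  obtain ⟨r₀, hr1, hr2⟩ := hr
  have hfix : ∀ {z : K}, v.Ge a z → v.Gt a (σ z - z) := fun hz => gt_sub_of_fixed hσ hr1 hr2 hz
  have hNσ : κ.N (σ • P) = σ (κ.N P) := by
    rw [hκ]
    simp only [KummerLine.translate]
    rw [N_smul, D_smul, map_sub, map_mul]
    congr 2
    exact (σ.commutes r).symm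
  have h3 : v.Gt a (κ.N P - κ.N (σ • P)) := by
    rw [hNσ, ← neg_sub]
    exact (hfix hN).neg
  rcases hcong h3 with h4 | h4
  · exact h4.symm
  · exfalso
    have e1 : eta P ^ 2 = κ.psi (κ.N P) := by
      rw [eta_sq hP0, hκ, ← psi_translate _ (algebraMap ℚ K r)]
      congr 1
      simp only [KummerLine.translate]
      rw [(KummerLine.ofCurve (W⁄K)).D_ne P hP0, mul_one]
    have e2 : σ (eta P) = - eta P := by
      rw [← eta_smul, ← eta_neg]
      congr 1
      rw [h4, neg_neg]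
      congr 1
      exact h4.symm
    have e3 : v.Eq a (eta P) := by
      have h0 : eta P ≠ 0 := by
        intro h0
        rw [h0] at e1
        exact hpsi.ne (by rw [← e1]; ring)
      refine ⟨h0, ?_⟩
      have := hpsi.2
      rw [← e1, ord_pow h0] at this
      push_cast at this
      linarith
    have e4 := hfix e3.ge
    rw [e2] at e4
    have e5 : - eta P - eta P = -(2 * eta P) := by ring
    rw [e5] at e4
    have e6 := (h2.mul e3).neg
    rw [zero_add] at e6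
    exact e6.not_gt e4

lemma smul_torsion {n : ℕ} (σ : K ≃ₐ[ℚ] K) {P : (W⁄K).Point} (hP : n • P = 0) :
    n • (σ • P) = 0 := by
  rw [smul_eq_map, ← map_nsmul, hP, _root_.map_zero]

lemma gal_smul_zero (σ : K ≃ₐ[ℚ] K) : σ • (0 : (W⁄K).Point) = 0 := by
  rw [smul_eq_map, _root_.map_zero]

lemma smul_ne_zero' (σ : K ≃ₐ[ℚ] K) {P : (W⁄K).Point} (hP : P ≠ 0) : σ • P ≠ 0 := by
  intro h
  apply hP
  rw [smul_eq_map] at h
  exact map_injective (W' := W) σ.toAlgHom (h.trans (_root_.map_zero _).symm)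

theorem fixed_of_good (hb : (KummerLine.ofCurve (W⁄K)).Integral v)
    (hΔ : v.Eq 0 (KummerLine.ofCurve (W⁄K)).disc)
    {σ : K ≃ₐ[ℚ] K} (hσ : ∀ z, v.Ge 0 z → v.Gt 0 (σ z - z)) (h2 : v.Eq 0 (2 : K))
    {n : ℕ} (hn : v.Eq 0 (n : K)) (hodd : Odd n) {P : (W⁄K).Point} (hP : n • P = 0) :
    σ • P = P := by
  by_cases hP0 : P = 0
  · rw [hP0, gal_smul_zero]
  have hκ : KummerLine.ofCurve (W⁄K) = (KummerLine.ofCurve (W⁄K)).translate (algebraMap ℚ K 0) := by
    simp [KummerLine.translate]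
  have hint := KummerLine.integral_of_torsion hb hn hP0 hP
  have h2P := KummerLine.two_ne hodd hP0 hP
  have hpsi := KummerLine.good_psi hb hn hΔ hP0 h2P hP
  refine fixed_of_criteria (v := v) (KummerLine.ofCurve (W⁄K)) hκ hσ h2 hP0 (a := 0) hint ?_
    ⟨1, map_one σ, eq_one⟩ ?_
  · rw [mul_zero]
    have h3 := eta_sq hP0
    have h4 : v.Ge 0 ((KummerLine.ofCurve (W⁄K)).psi ((KummerLine.ofCurve (W⁄K)).N P)) := by
      have hn : ∀ (k : ℕ) [k.AtLeastTwo], v.Ge 0 (OfNat.ofNat k : K) := fun k _ => ge_ofNat k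
      set κ := KummerLine.ofCurve (W⁄K)
      have hx3 : v.Ge 0 (κ.N P ^ 3) := by
        have : κ.N P ^ 3 = κ.N P * (κ.N P * κ.N P) := by ring
        rw [this]; exact hint.zero_mul (hint.zero_mul hint)
      have hx2 : v.Ge 0 (κ.N P ^ 2) := by
        have : κ.N P ^ 2 = (κ.N P * κ.N P) := by ring
        rw [this]; exact (hint.zero_mul hint)
      rw [KummerLine.psi]
      exact ((((hn 4).zero_mul hx3).add (hb.b₂.zero_mul hx2)).add
        (((hn 2).zero_mul hb.b₄).zero_mul hint)).add hb.b₆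
    rw [not_gt_iff] at hpsi
    exact ⟨hpsi.1, le_antisymm hpsi.2 ((ge_iff hpsi.1).mp h4)⟩
  · intro hcong
    exact KummerLine.good_eq_or_neg hb hn hΔ hP0 (smul_ne_zero' σ hP0) hP (smul_torsion σ hP) hcong

theorem fixed_of_mult (r : ℚ) {m : ℝ}
    (h : ((KummerLine.ofCurve (W⁄K)).translate (algebraMap ℚ K r)).MultAt v m)
    {σ : K ≃ₐ[ℚ] K} (hσ : ∀ z, v.Ge 0 z → v.Gt 0 (σ z - z)) (h2 : v.Eq 0 (2 : K))
    {n : ℕ} (hn : v.Eq 0 (n : K)) (hodd : Odd n) {r₁ : K} {ρ : ℝ} (hr₁ : σ r₁ = r₁)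
    (hρ : v.Eq ρ r₁) (hnρ : n * ρ = 2 * m) {P : (W⁄K).Point} (hP : n • P = 0) :
    σ • P = P := by
  by_cases hP0 : P = 0
  · rw [hP0, gal_smul_zero]
  set κ := (KummerLine.ofCurve (W⁄K)).translate (algebraMap ℚ K r) with hκ
  have hn0 : (n : ℝ) ≠ 0 := by exact_mod_cast hodd.pos.ne'
  obtain ⟨j, hj⟩ := KummerLine.comp_torsion h hn hodd hP
  have hcomp : κ.comp v P = j * ρ := by
    apply mul_left_cancel₀ hn0
    rw [hj, ← hnρ]; ring
  obtain ⟨ha0, ham⟩ := KummerLine.comp_range h hn hodd hP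
  have hx := KummerLine.comp_eq h hn hodd hP0 hP
  have hmpos := h.pos
  have hpsi : v.Eq (2 * κ.comp v P) (κ.psi (κ.N P)) := by
    rcases ha0.eq_or_lt with ha | ha
    · rw [← ha] at hx ⊢
      rw [mul_zero]
      have h2P := KummerLine.two_ne hodd hP0 hP
      obtain ⟨e0, e⟩ := κ.dup hP0 h2P
      have h2u := KummerLine.unit_double h hn hodd hP0 hP hx
      have hphi : v.Eq 0 (κ.phi (κ.N P)) := by
        rw [KummerLine.phi_eq_F2]
        have := KummerLine.F2_lt h hx hx le_rfl le_rfl (by linarith)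
        simpa using this
      rw [← e, mul_comm] at hphi
      simpa using hphi.of_mul_eq h2u
    · rw [KummerLine.psi_eq_F1, two_mul]
      exact KummerLine.F1_eq h hx hx ha ha ham ham
  refine fixed_of_criteria (v := v) κ hκ hσ h2 hP0 (a := κ.comp v P) hx.ge hpsi
    ⟨r₁ ^ j, by rw [map_zpow₀, hr₁], ?_⟩ ?_
  · rw [hcomp]
    exact ⟨zpow_ne_zero _ hρ.ne, by rw [ord_zpow hρ.ne, hρ.2]⟩
  · intro hcong
    by_contra hcon
    push Not at hcon
    obtain ⟨g1, g2⟩ := KummerLine.F_gt_of_congr h.integral hn hP0 (smul_ne_zero' σ hP0) hP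
      (smul_torsion σ hP) hcon.1 hcon.2 hcong
    have hy : v.Eq (κ.comp v P) (κ.N (σ • P)) := by
      have : κ.N (σ • P) = κ.N P - (κ.N P - κ.N (σ • P)) := by ring
      rw [this]
      exact hx.sub_gt hcong
    rcases ha0.eq_or_lt with ha | ha
    · rw [← ha] at hx hy g2
      have := KummerLine.F2_lt h hx hy le_rfl le_rfl (by linarith)
      rw [add_zero, mul_zero] at this
      rw [add_zero] at g2
      exact this.not_gt g2
    · exact (KummerLine.F1_eq h hx hy ha ha ham ham).not_gt g1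

end Main

end Fermat.Agent.ECRed
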