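import Fermat.Agent.ECRed.FreyP
import Fermat.Agent.Mink.Minkowski
import Fermat.Prelude.Def_FLTPrelim_CofixedLine

set_option autoImplicit false
set_option linter.unusedSectionVars false

/-! # Reducible implies cofixed line -/

namespace Fermat.Agent.ECRed

open WeierstrassCurve WeierstrassCurve.Affine OrdFn
open scoped Pointwise

section LinAlg

variable {k V : Type*} [Field k] [AddCommGroup V] [Module k V]

/-- a stable line for an operator of square zero on a plane -/
theorem square_zero (hV : Module.finrank k V = 2) {N : Submodule k V} (hN : Module.finrank k N = 1)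
    (f : V →ₗ[k] V) (hf : ∀ x, f (f x) = 0) (hst : ∀ x ∈ N, f x ∈ N) :
    (∀ x ∈ N, f x = 0) ∧ ∀ x, f x ∈ N := by
  have hfin : FiniteDimensional k V := FiniteDimensional.of_finrank_pos (by omega)
  obtain ⟨⟨n0, hn0⟩, hne, hspan⟩ := finrank_eq_one_iff'.mp hN
  have hn0' : n0 ≠ 0 := fun h => hne (Subtype.ext h)
  have h1 : f n0 = 0 := by
    obtain ⟨c, hc⟩ := hspan ⟨f n0, hst n0 hn0⟩
    have hc' : c • n0 = f n0 := congrArg Subtype.val hc
    by_cases hc0 : c = 0
    · rw [← hc', hc0, zero_smul]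
    · have h2 := hf n0
      rw [← hc', map_smul, ← hc', smul_smul] at h2
      exact absurd h2 (smul_ne_zero (mul_ne_zero hc0 hc0) hn0')
  have h2 : ∀ x ∈ N, f x = 0 := by
    intro x hx
    obtain ⟨c, hc⟩ := hspan ⟨x, hx⟩
    have hc' : c • n0 = x := congrArg Subtype.val hc
    rw [← hc', map_smul, h1, smul_zero]
  refine ⟨h2, ?_⟩
  have hq : Module.finrank k (V ⧸ N) = 1 := by
    have := Submodule.finrank_quotient_add_finrank N
    omega
  obtain ⟨v, hv, hspan'⟩ := finrank_eq_one_iff'.mp hq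
  obtain ⟨v0, rfl⟩ := Submodule.Quotient.mk_surjective N v
  have hdec : ∀ x, ∃ c : k, x - c • v0 ∈ N := by
    intro x
    obtain ⟨c, hc⟩ := hspan' (Submodule.Quotient.mk x)
    refine ⟨c, ?_⟩
    rw [← Submodule.Quotient.eq, ← hc]
    rfl
  have hfx : ∀ x, ∃ c : k, f x = c • f v0 := by
    intro x
    obtain ⟨c, hc⟩ := hdec x
    refine ⟨c, ?_⟩
    have := h2 _ hc
    rw [map_sub, map_smul, sub_eq_zero] at this
    exact this
  have hv0 : f v0 ∈ N := by
    obtain ⟨c, hc⟩ := hdec (f v0)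
    have h3 := h2 _ hc
    rw [map_sub, map_smul, hf, zero_sub, neg_eq_zero] at h3
    by_cases hc0 : c = 0
    · rw [hc0, zero_smul, sub_zero] at hc; exact hc
    · have : f v0 = 0 := (smul_eq_zero.mp h3).resolve_left hc0
      rw [this]; exact N.zero_mem
  intro x
  obtain ⟨c, hc⟩ := hfx x
  rw [hc]; exact N.smul_mem _ hv0

end LinAlg

namespace Frey

variable {P : FreyPackage} {K : Type} [Field K] [DecidableEq K] [Algebra ℚ K]
  [Algebra.IsAlgebraic ℚ K] [CharZero K] [IsAlgClosed K] [IsGalois ℚ K]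

/-- the `p`-torsion -/
abbrev Tp (P : FreyPackage) (K : Type) [Field K] [DecidableEq K] [Algebra ℚ K] : Type :=
  Submodule.torsionBy ℤ ((P.freyCurve : Affine ℚ)⁄K).Point P.p

instance : Fact P.p.Prime := ⟨P.pp⟩

lemma tor (x : Tp P K) : P.p • (x : ((P.freyCurve : Affine ℚ)⁄K).Point) = 0 := by
  have := (Submodule.mem_torsionBy_iff _ _).mp x.2
  rwa [natCast_zsmul] at this

lemma coe_smul (σ : K ≃ₐ[ℚ] K) (x : Tp P K) : ((σ • x : Tp P K) :
    ((P.freyCurve : Affine ℚ)⁄K).Point) = σ • (x : ((P.freyCurve : Affine ℚ)⁄K).Point) := rfl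

lemma t_one (x : Tp P K) : (1 : K ≃ₐ[ℚ] K) • x = x :=
  (WeierstrassCurve.Affine.Point.instDistribMulActionTorsionBy (K := K) (S := ℚ)
    (W' := (P.freyCurve : Affine ℚ)) P.p).one_smul x

lemma t_mul (σ τ : K ≃ₐ[ℚ] K) (x : Tp P K) : (σ * τ) • x = σ • (τ • x) :=
  (WeierstrassCurve.Affine.Point.instDistribMulActionTorsionBy (K := K) (S := ℚ)
    (W' := (P.freyCurve : Affine ℚ)) P.p).mul_smul σ τ x

lemma t_zero (σ : K ≃ₐ[ℚ] K) : σ • (0 : Tp P K) = 0 :=
  (WeierstrassCurve.Affine.Point.instDistribMulActionTorsionBy (K := K) (S := ℚ)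
    (W' := (P.freyCurve : Affine ℚ)) P.p).smul_zero σ

lemma t_add (σ : K ≃ₐ[ℚ] K) (x y : Tp P K) : σ • (x + y) = σ • x + σ • y :=
  (WeierstrassCurve.Affine.Point.instDistribMulActionTorsionBy (K := K) (S := ℚ)
    (W' := (P.freyCurve : Affine ℚ)) P.p).smul_add σ x y

lemma t_sub (σ : K ≃ₐ[ℚ] K) (x y : Tp P K) : σ • (x - y) = σ • x - σ • y := by
  rw [eq_sub_iff_add_eq, ← t_add, sub_add_cancel]

lemma t_inv_smul (σ : K ≃ₐ[ℚ] K) (x : Tp P K) : σ⁻¹ • (σ • x) = x := by
  rw [← t_mul, inv_mul_cancel, t_one]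

lemma t_smul_inv (σ : K ≃ₐ[ℚ] K) (x : Tp P K) : σ • (σ⁻¹ • x) = x := by
  rw [← t_mul, mul_inv_cancel, t_one]

lemma card_Tp : Nat.card (Tp P K) = P.p ^ 2 :=
  DivPoly.card_torsionBy frey_Δ_ne (by exact_mod_cast P.hp0)

instance : Finite (Tp P K) := Nat.finite_of_card_ne_zero (by
  rw [card_Tp]; exact pow_ne_zero _ P.hp0)

lemma finrank_Tp : Module.finrank (ZMod P.p) (Tp P K) = 2 := by
  have h := Module.natCard_eq_pow_finrank (K := ZMod P.p) (V := Tp P K)
  rw [card_Tp, Nat.card_zmod] at h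
  exact (Nat.pow_right_injective P.pp.two_le h).symm

instance : Module.Finite (ZMod P.p) (Tp P K) :=
  Module.finite_of_finrank_pos (by rw [finrank_Tp]; norm_num)

/-- `σ - 1` as a linear map -/
noncomputable def subOne (σ : K ≃ₐ[ℚ] K) : Tp P K →ₗ[ZMod P.p] Tp P K :=
  AddMonoidHom.toZModLinearMap P.p
    { toFun := fun x => σ • x - x
      map_zero' := by rw [t_zero, sub_zero]
      map_add' := fun x y => by rw [t_add]; abel }

lemma subOne_apply (σ : K ≃ₐ[ℚ] K) (x : Tp P K) : subOne σ x = σ • x - x := rfl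

section Line

variable {N : Submodule (ZMod P.p) (Tp P K)}

lemma finrank_line (h1 : N ≠ ⊥) (h2 : N ≠ ⊤) : Module.finrank (ZMod P.p) N = 1 := by
  have h3 : Module.finrank (ZMod P.p) N < 2 := by
    rw [← finrank_Tp (P := P) (K := K)]
    exact Submodule.finrank_lt h2
  have h4 : Module.finrank (ZMod P.p) N ≠ 0 := by
    rw [Ne, Submodule.finrank_eq_zero]; exact h1
  omega

/-- the subgroup acting trivially on `V / N` -/
def H1 (hst : ∀ (σ : K ≃ₐ[ℚ] K), ∀ x ∈ N, σ • x ∈ N) : Subgroup (K ≃ₐ[ℚ] K) where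
  carrier := {σ | ∀ x : Tp P K, σ • x - x ∈ N}
  one_mem' := fun x => by rw [t_one, sub_self]; exact N.zero_mem
  mul_mem' := by
    intro σ τ hσ hτ x
    have e : (σ * τ) • x - x = (σ • (τ • x - x)) + (σ • x - x) := by
      rw [t_mul, t_sub]; abel
    rw [e]
    exact N.add_mem (hst σ _ (hτ x)) (hσ x)
  inv_mem' := by
    intro σ hσ x
    have e : σ⁻¹ • x - x = -(σ⁻¹ • (σ • x - x)) := by
      rw [t_sub, t_inv_smul]; abel
    rw [e]
    exact N.neg_mem (hst σ⁻¹ _ (hσ x))

/-- the subgroup acting trivially on `N` -/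
def H2 (N : Submodule (ZMod P.p) (Tp P K)) : Subgroup (K ≃ₐ[ℚ] K) where
  carrier := {σ | ∀ x ∈ N, σ • x = x}
  one_mem' := fun x _ => t_one x
  mul_mem' := by
    intro σ τ hσ hτ x hx
    show (σ * τ) • x = x
    rw [t_mul, hτ x hx, hσ x hx]
  inv_mem' := by
    intro σ hσ x hx
    show σ⁻¹ • x = x
    have h1 : σ⁻¹ • (σ • x) = x := t_inv_smul σ x
    rwa [hσ x hx] at h1

lemma isOpen_of_fixing (H : Subgroup (K ≃ₐ[ℚ] K)) (h : ∀ σ : K ≃ₐ[ℚ] K,
    (∀ x : Tp P K, σ • x = x) → σ ∈ H) : IsOpen (H : Set (K ≃ₐ[ℚ] K)) := by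
  classical
  have hst : ∀ Q : ((P.freyCurve : Affine ℚ)⁄K).Point, ∃ U : Subgroup (K ≃ₐ[ℚ] K),
      IsOpen (U : Set (K ≃ₐ[ℚ] K)) ∧ ∀ σ ∈ U, σ • Q = Q := by
    intro Q
    rcases Q with _ | ⟨x, y, hxy⟩
    · exact ⟨⊤, isOpen_univ, fun σ _ => gal_smul_zero σ⟩
    · refine ⟨MulAction.stabilizer (K ≃ₐ[ℚ] K) x ⊓ MulAction.stabilizer (K ≃ₐ[ℚ] K) y,
        (stabilizer_isOpen_of_isIntegral (K := ℚ) (L := K) x).inter
          (stabilizer_isOpen_of_isIntegral (K := ℚ) (L := K) y), ?_⟩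
      rintro σ ⟨h1, h2⟩
      have h1' : σ x = x := h1
      have h2' : σ y = y := h2
      obtain ⟨h', hs⟩ := smul_some σ hxy
      rw [hs]
      simp only [h1', h2']
  choose U hU1 hU2 using hst
  have hopen : IsOpen (((⨅ x : Tp P K, U (x : ((P.freyCurve : Affine ℚ)⁄K).Point)) :
      Subgroup (K ≃ₐ[ℚ] K)) : Set (K ≃ₐ[ℚ] K)) := by
    rw [Subgroup.coe_iInf]
    exact isOpen_iInter_of_finite fun x => hU1 _
  refine Subgroup.isOpen_mono ?_ hopen
  intro σ hσ
  apply h
  intro x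
  rw [Subgroup.mem_iInf] at hσ
  exact Subtype.ext (hU2 _ σ (hσ x))

/-- kernel of reduction in the `p`-torsion as a submodule -/
noncomputable def E1V {v : OrdFn K} (hb : (kum P (K := K)).Integral v) :
    Submodule (ZMod P.p) (Tp P K) :=
  AddSubgroup.toZModSubmodule P.p
    ((KummerLine.E1sub hb).comap (Submodule.subtype _ : Tp P K →ₗ[ℤ] _).toAddMonoidHom)

lemma mem_E1V {v : OrdFn K} (hb : (kum P (K := K)).Integral v) (x : Tp P K) :
    x ∈ E1V hb ↔ (kum P (K := K)).InE1 v (x : ((P.freyCurve : Affine ℚ)⁄K).Point) := Iff.rfl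

lemma integral_p {A : ValuationSubring K} (hA : ((P.p : ℕ) : K) ∈ A.nonunits) :
    (kum P (K := K)).Integral (ordFnAt A P.pp hA) := by
  set v := ordFnAt A P.pp hA with hv
  have h2 : v.Eq 0 (2 : K) := two_unit hA
  have h8 : v.Eq 0 ((8 : K)⁻¹) := by
    have := (h2.pow 3).inv
    norm_num at this
    simpa using this
  have h256 : v.Eq 0 ((256 : K)⁻¹) := by
    have := (h2.pow 8).inv
    norm_num at this
    simpa using this
  have gi : ∀ n : ℤ, v.Ge 0 (n : K) := fun n => ge_intCast n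
  refine ⟨?_, ?_, ?_, ?_⟩
  · rw [kum_b₂]
    have := gi (P.b ^ P.p - P.a ^ P.p)
    simpa using this
  · rw [kum_b₄]
    have := (gi (-(P.a * P.b) ^ P.p)).mul h8.ge
    push_cast at this
    rw [div_eq_mul_inv]
    simpa using this
  · rw [kum_b₆]; exact Ge.zero
  · rw [kum_b₈]
    have := (gi (-((P.a * P.b) ^ P.p) ^ 2)).mul h256.ge
    push_cast at this
    rw [div_eq_mul_inv]
    simpa using this

variable (hst : ∀ (σ : K ≃ₐ[ℚ] K), ∀ x ∈ N, σ • x ∈ N) (hN1 : N ≠ ⊥) (hN2 : N ≠ ⊤)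

include hst hN1 hN2

/-- inertia away from `p` acts trivially on `N` and `V / N`. -/
lemma away {q : ℕ} (hq : q.Prime) (hqp : q ≠ P.p) {A : ValuationSubring K}
    (hA : A.LiesOverPrime q) {σ : K ≃ₐ[ℚ] K} (hσ : σ ∈ A.inertiaSubgroupIn ℚ) :
    σ ∈ H1 hst ∧ σ ∈ H2 N := by
  by_cases hq2 : q = 2
  · subst hq2
    have hfin := finrank_line hN1 hN2
    have := square_zero (finrank_Tp (P := P) (K := K)) hfin (subOne σ) (by
      intro x
      rw [subOne_apply, subOne_apply]
      apply Subtype.ext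
      have h1 := frey_unipotent_two (P := P) hA hσ (tor x)
      show σ • (σ • (x : ((P.freyCurve : Affine ℚ)⁄K).Point) - x) - (σ • _ - _) = 0
      rw [h1, sub_self]) (by
      intro x hx
      rw [subOne_apply]
      exact N.sub_mem (hst σ x hx) hx)
    refine ⟨this.2, fun x hx => ?_⟩
    have h2 := this.1 x hx
    rw [subOne_apply, sub_eq_zero] at h2
    exact h2
  · have h := frey_unram P (K := K) hq hq2 hqp A hA σ hσ
    refine ⟨fun x => ?_, fun x _ => h x⟩
    rw [h x, sub_self]; exact N.zero_mem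

omit hN1 hN2 in
lemma H1_normal : (H1 hst).Normal := by
  refine ⟨fun σ hσ g x => ?_⟩
  have e : (g * σ * g⁻¹) • x - x = g • (σ • (g⁻¹ • x) - g⁻¹ • x) := by
    rw [t_sub, t_smul_inv, t_mul, t_mul]
  rw [e]
  exact hst g _ (hσ _)

omit hN1 hN2 in
lemma H2_normal : (H2 N).Normal := by
  refine ⟨fun σ hσ g x hx => ?_⟩
  show (g * σ * g⁻¹) • x = x
  rw [t_mul, t_mul, hσ _ (hst g⁻¹ x hx), t_smul_inv]

omit hst hN1 hN2 in
/-- it suffices to check one place above a prime -/
lemma all_places (H : Subgroup (K ≃ₐ[ℚ] K)) (hH : H.Normal) {q : ℕ} (hq : q.Prime)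
    {A : ValuationSubring K} (hA : A.LiesOverPrime q) (h : A.inertiaSubgroupIn ℚ ≤ H)
    {A' : ValuationSubring K} (hA' : A'.LiesOverPrime q) : A'.inertiaSubgroupIn ℚ ≤ H := by
  obtain ⟨g, rfl⟩ := Frob.exists_eq_smul A A' hq hA hA'
  intro σ hσ
  have h1 := Mink.conj_mem_inertia (g • A) g⁻¹ σ hσ
  rw [inv_smul_smul, inv_inv] at h1
  have h2 := hH.conj_mem _ (h h1) g
  have e : g * (g⁻¹ * σ * g) * g⁻¹ = σ := by group
  rwa [e] at h2

omit hst hN1 hN2 in
theorem eq_top_of_all (H : Subgroup (K ≃ₐ[ℚ] K)) (hH : H.Normal)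
    (hfix : ∀ σ : K ≃ₐ[ℚ] K, (∀ x : Tp P K, σ • x = x) → σ ∈ H)
    (haway : ∀ q : ℕ, q.Prime → q ≠ P.p → ∀ A : ValuationSubring K, A.LiesOverPrime q →
      A.inertiaSubgroupIn ℚ ≤ H)
    {A : ValuationSubring K} (hA : A.LiesOverPrime P.p) (hp : A.inertiaSubgroupIn ℚ ≤ H) :
    H = ⊤ := by
  refine Mink.eq_top_of_inertia_le H (isOpen_of_fixing H hfix) ?_
  intro q hq A' hA'
  by_cases hqp : q = P.p
  · subst hqp
    exact all_places H hH hq hA hp hA'
  · exact haway q hq hqp A' hA'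

theorem cofixed_of_stable : ∀ (σ : K ≃ₐ[ℚ] K) (x : Tp P K), σ • x - x ∈ N := by
  classical
  obtain ⟨A, hA⟩ := Frob.exists_liesOverPrime K P.pp
  have hA' : ((P.p : ℕ) : K) ∈ A.nonunits := hA
  have hb := integral_p (P := P) hA'
  set v := ordFnAt A P.pp hA' with hv
  have hfin := finrank_line hN1 hN2
  by_cases hcase : N ≤ E1V hb
  · -- case 1
    -- the finset of points of `N`
    have hNfin : (Set.range fun x : N => (((x : Tp P K)) :
        ((P.freyCurve : Affine ℚ)⁄K).Point)).Finite := Set.finite_range _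
    set F := hNfin.toFinset with hF
    have hcardN : Nat.card N = P.p := by
      have h := Module.natCard_eq_pow_finrank (K := ZMod P.p) (V := N)
      rw [hfin, Nat.card_zmod, pow_one] at h
      exact h
    have hFcard : F.card = P.p := by
      have hinj : Function.Injective fun x : N => (((x : Tp P K)) :
          ((P.freyCurve : Affine ℚ)⁄K).Point) :=
        fun x y h => Subtype.ext (Subtype.ext h)
      rw [hF, ← Set.ncard_eq_toFinset_card _ hNfin, ← Set.image_univ,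
        Set.ncard_image_of_injective _ hinj, Set.ncard_univ, hcardN]
    obtain ⟨Q, hQ0, hQp, hQE⟩ := not_all_E1 A P.pp P.hp_odd hA' (P.freyCurve : Affine ℚ)
      (intCoeff_p hA') frey_Δ_ne (frey_hT hA') F
      (by rw [hF, Set.Finite.mem_toFinset]; exact ⟨0, rfl⟩) hFcard
      (by
        intro R hR
        rw [hF, Set.Finite.mem_toFinset] at hR
        obtain ⟨x, rfl⟩ := hR
        exact tor _)
      (by
        intro σ R hR
        rw [hF, Set.Finite.mem_toFinset] at hR ⊢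
        obtain ⟨x, rfl⟩ := hR
        exact ⟨⟨σ • (x : Tp P K), hst σ _ x.2⟩, rfl⟩)
    have hE1top : E1V hb ≠ ⊤ := by
      intro h
      apply hQE
      have hQmem : Q ∈ Submodule.torsionBy ℤ ((P.freyCurve : Affine ℚ)⁄K).Point (P.p : ℤ) := by
        rw [Submodule.mem_torsionBy_iff, natCast_zsmul]; exact hQp
      have : (⟨Q, hQmem⟩ : Tp P K) ∈ E1V hb := by rw [h]; trivial
      exact (mem_E1V hb _).mp this
    have hE1eq : N = E1V hb := by
      apply Submodule.eq_of_le_of_finrank_le hcase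
      have h3 : Module.finrank (ZMod P.p) (E1V hb) < 2 := by
        rw [← finrank_Tp (P := P) (K := K)]
        exact Submodule.finrank_lt hE1top
      omega
    have htop := eq_top_of_all (P := P) (H1 hst) (H1_normal hst)
      (fun σ hσ x => by rw [hσ x, sub_self]; exact N.zero_mem)
      (fun q hq hqp A' hA'' σ hσ => (away hst hN1 hN2 hq hqp hA'' hσ).1) hA (by
        intro σ hσ x
        by_cases hx : x ∈ E1V hb
        · rw [← hE1eq] at hx
          exact N.sub_mem (hst σ x hx) hx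
        · rw [hE1eq, mem_E1V]
          rw [mem_E1V] at hx
          exact frey_star_p hA' hσ (tor x) hx)
    intro σ x
    have : σ ∈ H1 hst := by rw [htop]; trivial
    exact this x
  · -- case 2
    exfalso
    have hinf : N ⊓ E1V hb = ⊥ := by
      by_contra hne
      apply hcase
      have h1 : N ⊓ E1V hb = N := by
        apply Submodule.eq_of_le_of_finrank_le inf_le_left
        rw [hfin]
        by_contra hlt
        push Not at hlt
        apply hne
        rw [← Submodule.finrank_eq_zero (R := ZMod P.p)]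
        omega
      rw [← h1]; exact inf_le_right
    have htop := eq_top_of_all (P := P) (H2 N) (H2_normal hst)
      (fun σ hσ x _ => hσ x)
      (fun q hq hqp A' hA'' σ hσ => (away hst hN1 hN2 hq hqp hA'' hσ).2) hA (by
        intro σ hσ x hxN
        by_cases hx : x ∈ E1V hb
        · have : x ∈ N ⊓ E1V hb := ⟨hxN, hx⟩
          rw [hinf, Submodule.mem_bot] at this
          rw [this, t_zero]
        · have h2 : σ • x - x ∈ E1V hb := by
            rw [mem_E1V] at hx ⊢
            exact frey_star_p hA' hσ (tor x) hx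
          have h3 : σ • x - x ∈ N ⊓ E1V hb := ⟨N.sub_mem (hst σ x hxN) hxN, h2⟩
          rw [hinf, Submodule.mem_bot, sub_eq_zero] at h3
          exact h3)
    obtain ⟨x, hxN, hx0⟩ := Submodule.exists_mem_ne_zero_of_ne_bot hN1
    obtain ⟨A2, hA2⟩ := Frob.exists_liesOverPrime K Nat.prime_two
    refine no_rational_torsion (P := P) A2 hA2 (Q := (x : ((P.freyCurve : Affine ℚ)⁄K).Point))
      (fun h => hx0 (Subtype.ext h)) (tor x) ?_
    intro σ
    have h4 : σ ∈ H2 N := by rw [htop]; trivial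
    exact congrArg Subtype.val (h4 x hxN)

end Line

/-- **S13**, for an abstract algebraic closure. -/
theorem frey_cofixed
    (hred : ¬ WeierstrassCurve.Affine.Point.GaloisRepIsIrreducible (K := K) ℚ
      (P.freyCurve : Affine ℚ) P.p) :
    WeierstrassCurve.Affine.Point.HasGaloisStableCofixedLine (K := K) ℚ
      (P.freyCurve : Affine ℚ) P.p := by
  have hnt : Nontrivial (Tp P K) := by
    rw [← Finite.one_lt_card_iff_nontrivial, card_Tp]
    exact Nat.one_lt_pow two_ne_zero P.pp.one_lt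
  have h2 : ¬ ∀ N : Submodule (ZMod P.p) (Tp P K),
      WeierstrassCurve.Affine.Point.IsGaloisStable ℚ N → N = ⊥ ∨ N = ⊤ := fun h => hred ⟨hnt, h⟩
  push Not at h2
  obtain ⟨N, hst, hN1, hN2⟩ := h2
  exact ⟨N, hst, hN1, hN2, cofixed_of_stable hst hN1 hN2⟩

end Frey

end Fermat.Agent.ECRed
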