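import Fermat.Agent.ECRed.Mult

set_option autoImplicit false
set_option linter.unusedSectionVars false

namespace Fermat.Agent.ECRed

namespace KummerLine

open OrdFn

variable {G : Type*} [AddCommGroup G] {K : Type*} [Field K] (κ : KummerLine G K) (v : OrdFn K)

open Classical in
/-- (absolute value of) the component, as an element of `[0, m]`. -/
noncomputable def comp (Q : G) : ℝ := if Q = 0 then 0 else v.ord (κ.N Q)

variable {κ v} {m : ℝ}

lemma comp_zero : κ.comp v 0 = 0 := by simp [comp]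
lemma comp_ne {Q : G} (hQ : Q ≠ 0) : κ.comp v Q = v.ord (κ.N Q) := by simp [comp, hQ]
lemma comp_neg (Q : G) : κ.comp v (-Q) = κ.comp v Q := by
  by_cases h : Q = 0
  · simp [h]
  · rw [comp_ne h, comp_ne (neg_ne_zero.mpr h), κ.N_neg]

lemma comp_range (h : κ.MultAt v m) {n : ℕ} (hn : v.Eq 0 (n : K)) (hodd : Odd n) {Q : G}
    (hQ : n • Q = 0) : 0 ≤ κ.comp v Q ∧ κ.comp v Q < m := by
  by_cases h0 : Q = 0
  · rw [h0, comp_zero]; exact ⟨le_rfl, h.pos⟩
  · rw [comp_ne h0]
    obtain ⟨h1, h2⟩ := not_ge h hn hodd h0 hQ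
    exact ⟨(ge_iff h1).mp (integral_of_torsion h.integral hn h0 hQ), h2⟩

lemma comp_eq (h : κ.MultAt v m) {n : ℕ} (hn : v.Eq 0 (n : K)) (hodd : Odd n) {Q : G}
    (h0 : Q ≠ 0) (hQ : n • Q = 0) : v.Eq (κ.comp v Q) (κ.N Q) := by
  rw [comp_ne h0]
  exact OrdFn.eq_self (not_ge h hn hodd h0 hQ).1

/-- ultrametric facts for sums -/
lemma sum_facts {c₁ c₂ : ℝ} {x y : K} (h1 : v.Eq c₁ x) (h2 : v.Eq c₂ y) {s : ℝ}
    (hs : v.Eq s (x + y)) : min c₁ c₂ ≤ s ∧ (c₁ ≠ c₂ → min c₁ c₂ = s) := by
  constructor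
  · have := (h1.ge.mono (min_le_left c₁ c₂)).add (h2.ge.mono (min_le_right c₁ c₂))
    exact hs.2 ▸ (ge_iff hs.1).mp this
  · intro hne
    rcases lt_or_gt_of_ne hne with hlt | hlt
    · rw [min_eq_left hlt.le]
      exact (h1.add_gt (h2.gt hlt)).unique hs
    · rw [min_eq_right hlt.le]
      exact ((h1.gt hlt).add_eq h2).unique hs

lemma comp_double (h : κ.MultAt v m) {n : ℕ} (hn : v.Eq 0 (n : K)) (hodd : Odd n) {P : G}
    (hP : n • P = 0) (ha : 0 < κ.comp v P) :
    κ.comp v (P + P) = min (κ.comp v P + κ.comp v P) (2 * m - (κ.comp v P + κ.comp v P)) := by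
  have hP0 : P ≠ 0 := by rintro rfl; rw [comp_zero] at ha; exact ha.false
  have h2 := two_ne hodd hP0 hP
  obtain ⟨-, e⟩ := κ.dup hP0 h2
  have hx := comp_eq h hn hodd hP0 hP
  obtain ⟨-, ham⟩ := comp_range h hn hodd hP
  have hz := comp_eq h hn hodd h2 (add_torsion hP hP)
  obtain ⟨-, hzm⟩ := comp_range h hn hodd (add_torsion hP hP)
  set a := κ.comp v P
  set c := κ.comp v (P + P)
  rw [psi_eq_F1, phi_eq_F2] at e
  have e1 := (F1_eq h hx hx ha ha ham ham).mul hz
  rw [e] at e1
  rcases lt_trichotomy (a + a) m with hlt | heq | hgt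
  · have e2 := F2_lt h hx hx ha.le ha.le hlt
    have := e1.unique e2
    rw [min_eq_left (by linarith)]
    linarith
  · have e2 := F2_eq h hx hx ha.le ha.le heq
    have := (ge_iff e1.1).mp e2
    rw [e1.2] at this
    exfalso; linarith
  · have e2 := F2_gt h hx hx ha ha hgt
    have := e1.unique e2
    rw [min_eq_right (by linarith)]
    linarith

theorem comp_rel (h : κ.MultAt v m) {n : ℕ} (hn : v.Eq 0 (n : K)) (hodd : Odd n) {P Q : G}
    (hP : n • P = 0) (hQ : n • Q = 0) (ha : 0 < κ.comp v P) :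
    (κ.comp v (P + Q) = |κ.comp v P - κ.comp v Q| ∧
      κ.comp v (P - Q) = min (κ.comp v P + κ.comp v Q) (2 * m - (κ.comp v P + κ.comp v Q))) ∨
    (κ.comp v (P - Q) = |κ.comp v P - κ.comp v Q| ∧
      κ.comp v (P + Q) = min (κ.comp v P + κ.comp v Q) (2 * m - (κ.comp v P + κ.comp v Q))) := by
  have hP0 : P ≠ 0 := by rintro rfl; rw [comp_zero] at ha; exact ha.false
  obtain ⟨-, ham⟩ := comp_range h hn hodd hP
  obtain ⟨hb0, hbm⟩ := comp_range h hn hodd hQ
  by_cases hQ0 : Q = 0
  · subst hQ0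
    left
    rw [comp_zero, add_zero, sub_zero, sub_zero, add_zero, abs_of_pos ha,
      min_eq_left (by linarith)]
    exact ⟨rfl, rfl⟩
  by_cases h1 : P = Q
  · subst h1
    right
    rw [sub_self, comp_zero, sub_self, abs_zero]
    exact ⟨rfl, comp_double h hn hodd hP ha⟩
  by_cases h2 : P = -Q
  · have hc : κ.comp v Q = κ.comp v P := by rw [h2, comp_neg]
    have e2 : P - Q = P + P := by rw [sub_eq_add_neg, ← h2]
    have e1 : P + Q = 0 := by rw [h2, neg_add_cancel]
    left
    rw [hc, e1, e2, comp_zero, sub_self, abs_zero]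
    exact ⟨rfl, comp_double h hn hodd hP ha⟩
  have hs0 : P - Q ≠ 0 := sub_ne_zero.mpr h1
  have ha0 : P + Q ≠ 0 := fun h => h2 (eq_neg_of_add_eq_zero_left h)
  have hx := comp_eq h hn hodd hP0 hP
  have hy := comp_eq h hn hodd hQ0 hQ
  have hS := comp_eq h hn hodd ha0 (add_torsion hP hQ)
  have hM := comp_eq h hn hodd hs0 (sub_torsion hP hQ)
  obtain ⟨hS0, hSm⟩ := comp_range h hn hodd (add_torsion hP hQ)
  obtain ⟨hM0, hMm⟩ := comp_range h hn hodd (sub_torsion hP hQ)
  obtain ⟨hne, e1, e2⟩ := κ.add_sub_ne' hP0 hQ0 h1 h2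
  have hδ := (OrdFn.eq_self (v := v) (sub_ne_zero.mpr hne)).pow_two
  set a := κ.comp v P
  set b := κ.comp v Q
  set c₁ := κ.comp v (P + Q)
  set c₂ := κ.comp v (P - Q)
  set δ := v.ord (κ.N P - κ.N Q)
  have hprod := hδ.mul (hS.mul hM)
  rw [e2] at hprod
  rcases hb0.eq_or_lt with hb0 | hb0
  · -- b = 0
    rw [← hb0] at hy
    have hδ0 : δ = 0 := by
      have : v.Eq 0 (κ.N P - κ.N Q) := by
        rw [sub_eq_add_neg]
        exact (hx.gt ha).add_eq hy.neg
      exact this.2
    rw [hδ0] at hδ hprod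
    have f2 := F2_lt h hx hy ha.le le_rfl (by linarith)
    have s2 := hprod.unique f2
    have f1 := F1_ge h hx hy ha ham
    rw [← e1] at f1
    have f1' := f1.of_mul_eq hδ
    have hc : c₁ = c₂ := by
      by_contra hc
      rcases lt_or_gt_of_ne hc with hlt | hlt
      · have := hS.add_gt (hM.gt hlt)
        have := (ge_iff this.1).mp f1'
        linarith [(hS.add_gt (hM.gt hlt)).2]
      · have := (hS.gt hlt).add_eq hM
        have := (ge_iff this.1).mp f1'
        linarith [((hS.gt hlt).add_eq hM).2]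
    left
    rw [← hb0, sub_zero, add_zero, abs_of_pos ha, min_eq_left (by linarith)]
    constructor <;> linarith
  · -- b > 0
    have f1 := F1_eq h hx hy ha hb0 ham hbm
    rw [← e1] at f1
    have hs := f1.of_mul_eq hδ
    obtain ⟨m1, m2⟩ := sum_facts hS hM hs
    -- compute δ
    have hδM : δ = min a b := by
      rcases lt_trichotomy a b with hlt | heq | hgt
      · rw [min_eq_left hlt.le]
        exact (hx.sub_gt (hy.gt hlt)).2
      · rw [min_eq_left heq.le]
        have hge : a ≤ δ := by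
          have := hx.ge.sub (heq ▸ hy.ge)
          exact (ge_iff (sub_ne_zero.mpr hne)).mp this
        have : 0 ≤ min c₁ c₂ := le_min hS0 hM0
        linarith
      · rw [min_eq_right hgt.le]
        have : v.Eq b (κ.N P - κ.N Q) := by
          rw [sub_eq_add_neg]
          exact (hx.gt hgt).add_eq hy.neg
        exact this.2
    rw [hδM] at m1 m2 hprod
    have hT : (a + b < m ∧ 2 * min a b + (c₁ + c₂) = 2 * (a + b)) ∨
        (m < a + b ∧ 2 * min a b + (c₁ + c₂) = 2 * m) ∨
        (a + b = m ∧ 2 * m ≤ 2 * min a b + (c₁ + c₂)) := by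
      rcases lt_trichotomy (a + b) m with hlt | heq | hgt
      · left; exact ⟨hlt, hprod.unique (F2_lt h hx hy ha.le hb0.le hlt)⟩
      · right; right; refine ⟨heq, ?_⟩
        have := (ge_iff hprod.1).mp (F2_eq h hx hy ha.le hb0.le heq)
        rw [hprod.2] at this; exact this
      · right; left; exact ⟨hgt, hprod.unique (F2_gt h hx hy ha hb0 hgt)⟩
    clear hprod hs f1 hδ
    have habs : |a - b| = a + b - 2 * min a b := by
      rcases le_total a b with hab | hab
      · rw [min_eq_left hab, abs_of_nonpos (by linarith)]; ring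
      · rw [min_eq_right hab, abs_of_nonneg (by linarith)]; ring
    have hmin : 0 < min a b := lt_min ha hb0
    have hmax : a + b - min a b < m := by
      rcases le_total a b with hab | hab
      · rw [min_eq_left hab]; linarith
      · rw [min_eq_right hab]; linarith
    rw [habs]
    set μ := min a b
    by_cases hc : c₁ = c₂
    · exfalso
      rw [hc, min_self] at m1
      rw [hc] at hT
      rcases hT with ⟨h1, h2⟩ | ⟨h1, h2⟩ | ⟨h1, h2⟩ <;> linarith
    · have m3 := m2 hc
      rcases lt_or_gt_of_ne hc with hlt | hlt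
      · rw [min_eq_left hlt.le] at m3
        left
        rcases hT with ⟨h1, h2⟩ | ⟨h1, h2⟩ | ⟨h1, h2⟩
        · rw [min_eq_left (by linarith)]; constructor <;> linarith
        · rw [min_eq_right (by linarith)]; constructor <;> linarith
        · exfalso; linarith
      · rw [min_eq_right hlt.le] at m3
        right
        rcases hT with ⟨h1, h2⟩ | ⟨h1, h2⟩ | ⟨h1, h2⟩
        · rw [min_eq_left (by linarith)]; constructor <;> linarith
        · rw [min_eq_right (by linarith)]; constructor <;> linarith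
        · exfalso; linarith

end KummerLine

end Fermat.Agent.ECRed
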