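import Fermat.Agent.ECRed.Comp

set_option autoImplicit false
set_option linter.unusedSectionVars false

namespace Fermat.Agent.ECRed

/-- congruence up to sign modulo `M`. -/
def Sim (M s t : ℝ) : Prop := (∃ j : ℤ, s - t = M * j) ∨ (∃ j : ℤ, s + t = M * j)

lemma Sim.refl (M s : ℝ) : Sim M s s := Or.inl ⟨0, by simp⟩

lemma Sim.symm {M s t : ℝ} (h : Sim M s t) : Sim M t s := by
  rcases h with ⟨j, h⟩ | ⟨j, h⟩
  · left; exact ⟨-j, by push_cast; linarith⟩
  · right; exact ⟨j, by linarith⟩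

lemma Sim.trans {M s t u : ℝ} (h : Sim M s t) (h' : Sim M t u) : Sim M s u := by
  rcases h with ⟨j, h⟩ | ⟨j, h⟩ <;> rcases h' with ⟨i, h'⟩ | ⟨i, h'⟩
  · left; exact ⟨j + i, by push_cast; linarith⟩
  · right; exact ⟨j + i, by push_cast; linarith⟩
  · right; exact ⟨j - i, by push_cast; linarith⟩
  · left; exact ⟨j - i, by push_cast; linarith⟩

lemma Sim.abs (M s : ℝ) : Sim M |s| s := by
  rcases abs_choice s with h | h <;> rw [h]
  · exact Sim.refl _ _
  · right; exact ⟨0, by simp⟩

lemma Sim.min (M s : ℝ) : Sim M (min s (M - s)) s := by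
  rcases min_choice s (M - s) with h | h <;> rw [h]
  · exact Sim.refl _ _
  · right; exact ⟨1, by push_cast; ring⟩

namespace KummerLine

open OrdFn

variable {G : Type*} [AddCommGroup G] {K : Type*} [Field K] {κ : KummerLine G K} {v : OrdFn K}
  {m : ℝ}

lemma comp_nsmul (h : κ.MultAt v m) {n : ℕ} (hn : v.Eq 0 (n : K)) (hodd : Odd n) {P : G}
    (hP : n • P = 0) (ha : 0 < κ.comp v P) (k : ℕ) :
    Sim (2 * m) (κ.comp v (k • P)) (k * κ.comp v P) := by
  suffices H : Sim (2 * m) (κ.comp v (k • P)) (k * κ.comp v P) ∧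
      Sim (2 * m) (κ.comp v ((k + 1) • P)) ((k + 1 : ℕ) * κ.comp v P) from H.1
  induction k with
  | zero =>
    constructor
    · simp only [zero_smul, comp_zero, Nat.cast_zero, zero_mul]; exact Sim.refl _ _
    · simp only [zero_add, one_smul, Nat.cast_one, one_mul]; exact Sim.refl _ _
  | succ k ih =>
    obtain ⟨ih0, ih1⟩ := ih
    refine ⟨ih1, ?_⟩
    have hQ : n • ((k + 1) • P) = 0 := by rw [smul_smul, mul_comm, mul_smul, hP, smul_zero]
    have key := comp_rel h hn hodd hP hQ ha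
    have eS : P + (k + 1) • P = (k + 1 + 1) • P := by rw [succ_nsmul _ (k + 1), add_comm]
    have eM : P - (k + 1) • P = -(k • P) := by rw [succ_nsmul]; abel
    rw [eS, eM, comp_neg] at key
    set a := κ.comp v P
    set b := κ.comp v ((k + 1) • P)
    set c := κ.comp v ((k + 1 + 1) • P)
    set d := κ.comp v (k • P)
    -- b ~ ± (k+1) a
    have hab : (Sim (2 * m) (a - b) ((k + 2 : ℝ) * a) ∧ Sim (2 * m) (a + b) ((k : ℝ) * a)) ∨
        (Sim (2 * m) (a - b) ((k : ℝ) * a) ∧ Sim (2 * m) (a + b) ((k + 2 : ℝ) * a)) := by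
      rcases ih1 with ⟨j, hj⟩ | ⟨j, hj⟩
      · right
        push_cast at hj
        constructor
        · right; exact ⟨-j, by push_cast; linarith⟩
        · left; exact ⟨j, by linarith⟩
      · left
        push_cast at hj
        constructor
        · left; exact ⟨-j, by push_cast; linarith⟩
        · right; exact ⟨j, by linarith⟩
    push_cast
    rw [show ((k : ℝ) + 1 + 1) = k + 2 by ring]
    rcases key with ⟨k1, k2⟩ | ⟨k1, k2⟩
    · -- c = |a-b|, d = min
      have s1 : Sim (2 * m) c (a - b) := k1 ▸ Sim.abs _ _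
      have s2 : Sim (2 * m) d (a + b) := k2 ▸ Sim.min _ _
      rcases hab with ⟨u1, u2⟩ | ⟨u1, u2⟩
      · exact s1.trans u1
      · -- c ~ k a, d ~ (k+2) a, d ~ k a
        exact (s1.trans u1).trans ((ih0.symm.trans s2).trans u2)
    · have s1 : Sim (2 * m) d (a - b) := k1 ▸ Sim.abs _ _
      have s2 : Sim (2 * m) c (a + b) := k2 ▸ Sim.min _ _
      rcases hab with ⟨u1, u2⟩ | ⟨u1, u2⟩
      · exact (s2.trans u2).trans ((ih0.symm.trans s1).trans u1)
      · exact s2.trans u2

/-- the component of a torsion point of order `n` is an integral multiple of `2 * m / n`. -/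
theorem comp_torsion (h : κ.MultAt v m) {n : ℕ} (hn : v.Eq 0 (n : K)) (hodd : Odd n) {P : G}
    (hP : n • P = 0) : ∃ j : ℤ, n * κ.comp v P = 2 * m * j := by
  obtain ⟨ha, -⟩ := comp_range h hn hodd hP
  rcases ha.eq_or_lt with ha | ha
  · exact ⟨0, by rw [← ha]; simp⟩
  · have := comp_nsmul h hn hodd hP ha n
    rw [hP, comp_zero] at this
    rcases this with ⟨j, hj⟩ | ⟨j, hj⟩
    · exact ⟨-j, by push_cast; linarith⟩
    · exact ⟨j, by linarith⟩

end KummerLine

end Fermat.Agent.ECRed
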