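import Fermat.Agent.ECRed.Comp2

set_option autoImplicit false
set_option linter.unusedSectionVars false

/-!
# The component map on a subgroup of torsion points meeting the kernel of reduction trivially

Generalisation of `Mult`/`Comp`/`Comp2`: instead of torsion of order prime to the residue
characteristic, consider a subgroup `S` of `n`-torsion points, `n` odd, all of whose nonzero
elements have integral `x`-coordinate.
-/

namespace Fermat.Agent.ECRed

namespace KummerLine

open OrdFn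

variable {G : Type*} [AddCommGroup G] {K : Type*} [Field K] (κ : KummerLine G K) (v : OrdFn K)

/-- `S` is a subgroup of `n`-torsion points, `n` odd, not meeting the kernel of reduction. -/
structure Tors (n : ℕ) (S : AddSubgroup G) : Prop where
  odd : Odd n
  tor : ∀ Q ∈ S, n • Q = 0
  int : ∀ Q ∈ S, Q ≠ 0 → v.Ge 0 (κ.N Q)

/-- torsion prime to the residue characteristic is fine -/
lemma tors_of_unit {κ : KummerLine G K} {v : OrdFn K} (hb : κ.Integral v) {n : ℕ}
    (hn : v.Eq 0 (n : K)) (hodd : Odd n) (S : AddSubgroup G) (hS : ∀ Q ∈ S, n • Q = 0) :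
    κ.Tors v n S :=
  ⟨hodd, hS, fun Q hQ h0 => integral_of_torsion hb hn h0 (hS Q hQ)⟩

namespace Sub

variable {κ v} {m : ℝ} {n : ℕ} {S : AddSubgroup G}

/-- doubling a torsion point with nonsingular nonzero-component... stays there -/
lemma unit_double (h : κ.MultAt v m) (t : κ.Tors v n S) {P : G}
    (hP0 : P ≠ 0) (hP : P ∈ S) (hx : v.Eq 0 (κ.N P)) :
    v.Eq 0 (κ.N (P + P)) := by
  have h2 := two_ne t.odd hP0 (t.tor _ hP)
  obtain ⟨e0, e⟩ := κ.dup hP0 h2
  have hi := t.int _ (S.add_mem hP hP) h2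
  have hphi : v.Eq 0 (κ.phi (κ.N P)) := by
    rw [phi_eq_F2]
    have := F2_lt h hx hx le_rfl le_rfl (by linarith [h.pos])
    simpa using this
  have hpsi : v.Ge 0 (κ.psi (κ.N P)) := by
    have hn : ∀ (k : ℕ) [k.AtLeastTwo], v.Ge 0 (OfNat.ofNat k : K) := fun k _ => ge_ofNat k
    have hx3 : v.Ge 0 (κ.N P ^ 3) := by
      have : κ.N P ^ 3 = κ.N P * (κ.N P * κ.N P) := by ring
      rw [this]; exact hx.ge.zero_mul (hx.ge.zero_mul hx.ge)
    have hx2 : v.Ge 0 (κ.N P ^ 2) := by
      have : κ.N P ^ 2 = (κ.N P * κ.N P) := by ring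
      rw [this]; exact (hx.ge.zero_mul hx.ge)
    have hb := h.integral
    rw [psi]
    exact ((((hn 4).zero_mul hx3).add (hb.b₂.zero_mul hx2)).add
      (((hn 2).zero_mul hb.b₄).zero_mul hx.ge)).add hb.b₆
  have h2N : κ.N (P + P) ≠ 0 := by
    intro h0; rw [h0, mul_zero] at e; exact hphi.ne e.symm
  refine ⟨h2N, le_antisymm ?_ ((ge_iff h2N).mp hi)⟩
  have := hphi.2
  rw [← e, ord_mul e0 h2N] at this
  have := (ge_iff e0).mp hpsi
  linarith

/-- torsion points of odd order do not lie close to the node -/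
lemma not_ge (h : κ.MultAt v m) (t : κ.Tors v n S) {P : G}
    (hP0 : P ≠ 0) (hP : P ∈ S) : κ.N P ≠ 0 ∧ v.ord (κ.N P) < m := by
  rw [← not_ge_iff]
  intro hx
  have hm := h.pos
  have h2 := two_ne t.odd hP0 (t.tor _ hP)
  obtain ⟨e0, e⟩ := κ.dup hP0 h2
  have hi := t.int _ (S.add_mem hP hP) h2
  -- 2P is a unit
  have hphi : v.Eq (2 * m) (κ.phi (κ.N P)) := by
    have e : κ.phi (κ.N P) = - κ.b₈ + (κ.N P ^ 2 * κ.N P ^ 2 - κ.b₄ * κ.N P ^ 2 - 2 * κ.b₆ * κ.N P) := by
      rw [phi]; ring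
    rw [e]
    refine h.b₈.neg.add_gt ((Gt.sub ?_ ?_).sub ?_)
    · exact (hx.pow_two.mul hx.pow_two).gt (by linarith)
    · exact (h.b₄.mul hx.pow_two).gt (by linarith)
    · exact (((ge_ofNat 2).mul h.b₆).mul hx).gt (by linarith)
  have hpsi : v.Ge (2 * m) (κ.psi (κ.N P)) := by
    have e : κ.psi (κ.N P) = 4 * κ.N P * κ.N P ^ 2 + κ.b₂ * κ.N P ^ 2 + 2 * κ.b₄ * κ.N P + κ.b₆ := by
      rw [psi]; ring
    rw [e]
    refine (((((ge_ofNat 4).mul hx).mul hx.pow_two).mono (by linarith)).add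
      ((h.b₂.ge.mul hx.pow_two).mono (by linarith))).add
      ((((ge_ofNat 2).mul h.b₄).mul hx).mono (by linarith)) |>.add h.b₆
  have h2N : κ.N (P + P) ≠ 0 := by
    intro h0; rw [h0, mul_zero] at e; exact hphi.ne e.symm
  have h2u : v.Eq 0 (κ.N (P + P)) := by
    refine ⟨h2N, le_antisymm ?_ ((ge_iff h2N).mp hi)⟩
    have := hphi.2
    rw [← e, ord_mul e0 h2N] at this
    have := (ge_iff e0).mp hpsi
    linarith
  have hall : ∀ j : ℕ, v.Eq 0 (κ.N (2 ^ (j + 1) • P)) := by
    intro j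
    induction j with
    | zero => rw [zero_add, pow_one, two_smul]; exact h2u
    | succ j ih =>
      have : 2 ^ (j + 1 + 1) • P = 2 ^ (j + 1) • P + 2 ^ (j + 1) • P := by
        rw [pow_succ 2 (j + 1), mul_comm, mul_smul, two_smul]
      rw [this]
      exact unit_double h t (two_pow_smul_ne t.odd hP0 (t.tor _ hP) _) (S.nsmul_mem hP _) ih
  have hpos : 0 < n.totient := Nat.totient_pos.mpr t.odd.pos
  obtain ⟨j, hj⟩ := Nat.exists_eq_succ_of_ne_zero hpos.ne'
  have := hall j
  rw [← Nat.succ_eq_add_one, ← hj, two_pow_totient_smul t.odd (t.tor _ hP)] at this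
  exact this.not_gt (hx.gt hm)

lemma comp_range (h : κ.MultAt v m) (t : κ.Tors v n S) {Q : G}
    (hQ : Q ∈ S) : 0 ≤ κ.comp v Q ∧ κ.comp v Q < m := by
  by_cases h0 : Q = 0
  · rw [h0, comp_zero]; exact ⟨le_rfl, h.pos⟩
  · rw [comp_ne h0]
    obtain ⟨h1, h2⟩ := not_ge h t h0 hQ
    exact ⟨(ge_iff h1).mp (t.int _ hQ h0), h2⟩

lemma comp_eq (h : κ.MultAt v m) (t : κ.Tors v n S) {Q : G}
    (h0 : Q ≠ 0) (hQ : Q ∈ S) : v.Eq (κ.comp v Q) (κ.N Q) := by
  rw [comp_ne h0]
  exact OrdFn.eq_self (not_ge h t h0 hQ).1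

lemma comp_double (h : κ.MultAt v m) (t : κ.Tors v n S) {P : G}
    (hP : P ∈ S) (ha : 0 < κ.comp v P) :
    κ.comp v (P + P) = min (κ.comp v P + κ.comp v P) (2 * m - (κ.comp v P + κ.comp v P)) := by
  have hP0 : P ≠ 0 := by rintro rfl; rw [comp_zero] at ha; exact ha.false
  have h2 := two_ne t.odd hP0 (t.tor _ hP)
  obtain ⟨-, e⟩ := κ.dup hP0 h2
  have hx := comp_eq h t hP0 hP
  obtain ⟨-, ham⟩ := comp_range h t hP
  have hz := comp_eq h t h2 (S.add_mem hP hP)
  obtain ⟨-, hzm⟩ := comp_range h t (S.add_mem hP hP)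
  set a := κ.comp v P
  set c := κ.comp v (P + P)
  rw [psi_eq_F1, phi_eq_F2] at e
  have e1 := (F1_eq h hx hx ha ha ham ham).mul hz
  rw [e] at e1
  rcases lt_trichotomy (a + a) m with hlt | heq | hgt
  · have e2 := F2_lt h hx hx ha.le ha.le hlt
    have := e1.unique e2
    rw [min_eq_left (by linarith)]
    linarith
  · have e2 := F2_eq h hx hx ha.le ha.le heq
    have := (ge_iff e1.1).mp e2
    rw [e1.2] at this
    exfalso; linarith
  · have e2 := F2_gt h hx hx ha ha hgt
    have := e1.unique e2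
    rw [min_eq_right (by linarith)]
    linarith

theorem comp_rel (h : κ.MultAt v m) (t : κ.Tors v n S) {P Q : G}
    (hP : P ∈ S) (hQ : Q ∈ S) (ha : 0 < κ.comp v P) :
    (κ.comp v (P + Q) = |κ.comp v P - κ.comp v Q| ∧
      κ.comp v (P - Q) = min (κ.comp v P + κ.comp v Q) (2 * m - (κ.comp v P + κ.comp v Q))) ∨
    (κ.comp v (P - Q) = |κ.comp v P - κ.comp v Q| ∧
      κ.comp v (P + Q) = min (κ.comp v P + κ.comp v Q) (2 * m - (κ.comp v P + κ.comp v Q))) := by
  have hP0 : P ≠ 0 := by rintro rfl; rw [comp_zero] at ha; exact ha.false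
  obtain ⟨-, ham⟩ := comp_range h t hP
  obtain ⟨hb0, hbm⟩ := comp_range h t hQ
  by_cases hQ0 : Q = 0
  · subst hQ0
    left
    rw [comp_zero, add_zero, sub_zero, sub_zero, add_zero, abs_of_pos ha,
      min_eq_left (by linarith)]
    exact ⟨rfl, rfl⟩
  by_cases h1 : P = Q
  · subst h1
    right
    rw [sub_self, comp_zero, sub_self, abs_zero]
    exact ⟨rfl, comp_double h t hP ha⟩
  by_cases h2 : P = -Q
  · have hc : κ.comp v Q = κ.comp v P := by rw [h2, comp_neg]
    have e2 : P - Q = P + P := by rw [sub_eq_add_neg, ← h2]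
    have e1 : P + Q = 0 := by rw [h2, neg_add_cancel]
    left
    rw [hc, e1, e2, comp_zero, sub_self, abs_zero]
    exact ⟨rfl, comp_double h t hP ha⟩
  have hs0 : P - Q ≠ 0 := sub_ne_zero.mpr h1
  have ha0 : P + Q ≠ 0 := fun h => h2 (eq_neg_of_add_eq_zero_left h)
  have hx := comp_eq h t hP0 hP
  have hy := comp_eq h t hQ0 hQ
  have hS := comp_eq h t ha0 (S.add_mem hP hQ)
  have hM := comp_eq h t hs0 (S.sub_mem hP hQ)
  obtain ⟨hS0, hSm⟩ := comp_range h t (S.add_mem hP hQ)
  obtain ⟨hM0, hMm⟩ := comp_range h t (S.sub_mem hP hQ)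
  obtain ⟨hne, e1, e2⟩ := κ.add_sub_ne' hP0 hQ0 h1 h2
  have hδ := (OrdFn.eq_self (v := v) (sub_ne_zero.mpr hne)).pow_two
  set a := κ.comp v P
  set b := κ.comp v Q
  set c₁ := κ.comp v (P + Q)
  set c₂ := κ.comp v (P - Q)
  set δ := v.ord (κ.N P - κ.N Q)
  have hprod := hδ.mul (hS.mul hM)
  rw [e2] at hprod
  rcases hb0.eq_or_lt with hb0 | hb0
  · -- b = 0
    rw [← hb0] at hy
    have hδ0 : δ = 0 := by
      have : v.Eq 0 (κ.N P - κ.N Q) := by
        rw [sub_eq_add_neg]
        exact (hx.gt ha).add_eq hy.neg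
      exact this.2
    rw [hδ0] at hδ hprod
    have f2 := F2_lt h hx hy ha.le le_rfl (by linarith)
    have s2 := hprod.unique f2
    have f1 := F1_ge h hx hy ha ham
    rw [← e1] at f1
    have f1' := f1.of_mul_eq hδ
    have hc : c₁ = c₂ := by
      by_contra hc
      rcases lt_or_gt_of_ne hc with hlt | hlt
      · have := hS.add_gt (hM.gt hlt)
        have := (ge_iff this.1).mp f1'
        linarith [(hS.add_gt (hM.gt hlt)).2]
      · have := (hS.gt hlt).add_eq hM
        have := (ge_iff this.1).mp f1'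
        linarith [((hS.gt hlt).add_eq hM).2]
    left
    rw [← hb0, sub_zero, add_zero, abs_of_pos ha, min_eq_left (by linarith)]
    constructor <;> linarith
  · -- b > 0
    have f1 := F1_eq h hx hy ha hb0 ham hbm
    rw [← e1] at f1
    have hs := f1.of_mul_eq hδ
    obtain ⟨m1, m2⟩ := sum_facts hS hM hs
    -- compute δ
    have hδM : δ = min a b := by
      rcases lt_trichotomy a b with hlt | heq | hgt
      · rw [min_eq_left hlt.le]
        exact (hx.sub_gt (hy.gt hlt)).2
      · rw [min_eq_left heq.le]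
        have hge : a ≤ δ := by
          have := hx.ge.sub (heq ▸ hy.ge)
          exact (ge_iff (sub_ne_zero.mpr hne)).mp this
        have : 0 ≤ min c₁ c₂ := le_min hS0 hM0
        linarith
      · rw [min_eq_right hgt.le]
        have : v.Eq b (κ.N P - κ.N Q) := by
          rw [sub_eq_add_neg]
          exact (hx.gt hgt).add_eq hy.neg
        exact this.2
    rw [hδM] at m1 m2 hprod
    have hT : (a + b < m ∧ 2 * min a b + (c₁ + c₂) = 2 * (a + b)) ∨
        (m < a + b ∧ 2 * min a b + (c₁ + c₂) = 2 * m) ∨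
        (a + b = m ∧ 2 * m ≤ 2 * min a b + (c₁ + c₂)) := by
      rcases lt_trichotomy (a + b) m with hlt | heq | hgt
      · left; exact ⟨hlt, hprod.unique (F2_lt h hx hy ha.le hb0.le hlt)⟩
      · right; right; refine ⟨heq, ?_⟩
        have := (ge_iff hprod.1).mp (F2_eq h hx hy ha.le hb0.le heq)
        rw [hprod.2] at this; exact this
      · right; left; exact ⟨hgt, hprod.unique (F2_gt h hx hy ha hb0 hgt)⟩
    clear hprod hs f1 hδ
    have habs : |a - b| = a + b - 2 * min a b := by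
      rcases le_total a b with hab | hab
      · rw [min_eq_left hab, abs_of_nonpos (by linarith)]; ring
      · rw [min_eq_right hab, abs_of_nonneg (by linarith)]; ring
    have hmin : 0 < min a b := lt_min ha hb0
    have hmax : a + b - min a b < m := by
      rcases le_total a b with hab | hab
      · rw [min_eq_left hab]; linarith
      · rw [min_eq_right hab]; linarith
    rw [habs]
    set μ := min a b
    by_cases hc : c₁ = c₂
    · exfalso
      rw [hc, min_self] at m1
      rw [hc] at hT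
      rcases hT with ⟨h1, h2⟩ | ⟨h1, h2⟩ | ⟨h1, h2⟩ <;> linarith
    · have m3 := m2 hc
      rcases lt_or_gt_of_ne hc with hlt | hlt
      · rw [min_eq_left hlt.le] at m3
        left
        rcases hT with ⟨h1, h2⟩ | ⟨h1, h2⟩ | ⟨h1, h2⟩
        · rw [min_eq_left (by linarith)]; constructor <;> linarith
        · rw [min_eq_right (by linarith)]; constructor <;> linarith
        · exfalso; linarith
      · rw [min_eq_right hlt.le] at m3
        right
        rcases hT with ⟨h1, h2⟩ | ⟨h1, h2⟩ | ⟨h1, h2⟩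
        · rw [min_eq_left (by linarith)]; constructor <;> linarith
        · rw [min_eq_right (by linarith)]; constructor <;> linarith
        · exfalso; linarith

lemma comp_nsmul (h : κ.MultAt v m) (t : κ.Tors v n S) {P : G}
    (hP : P ∈ S) (ha : 0 < κ.comp v P) (k : ℕ) :
    Sim (2 * m) (κ.comp v (k • P)) (k * κ.comp v P) := by
  suffices H : Sim (2 * m) (κ.comp v (k • P)) (k * κ.comp v P) ∧
      Sim (2 * m) (κ.comp v ((k + 1) • P)) ((k + 1 : ℕ) * κ.comp v P) from H.1
  induction k with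
  | zero =>
    constructor
    · simp only [zero_smul, comp_zero, Nat.cast_zero, zero_mul]; exact Sim.refl _ _
    · simp only [zero_add, one_smul, Nat.cast_one, one_mul]; exact Sim.refl _ _
  | succ k ih =>
    obtain ⟨ih0, ih1⟩ := ih
    refine ⟨ih1, ?_⟩
    have hQ : (k + 1) • P ∈ S := S.nsmul_mem hP _
    have key := comp_rel h t hP hQ ha
    have eS : P + (k + 1) • P = (k + 1 + 1) • P := by rw [succ_nsmul _ (k + 1), add_comm]
    have eM : P - (k + 1) • P = -(k • P) := by rw [succ_nsmul]; abel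
    rw [eS, eM, comp_neg] at key
    set a := κ.comp v P
    set b := κ.comp v ((k + 1) • P)
    set c := κ.comp v ((k + 1 + 1) • P)
    set d := κ.comp v (k • P)
    -- b ~ ± (k+1) a
    have hab : (Sim (2 * m) (a - b) ((k + 2 : ℝ) * a) ∧ Sim (2 * m) (a + b) ((k : ℝ) * a)) ∨
        (Sim (2 * m) (a - b) ((k : ℝ) * a) ∧ Sim (2 * m) (a + b) ((k + 2 : ℝ) * a)) := by
      rcases ih1 with ⟨j, hj⟩ | ⟨j, hj⟩
      · right
        push_cast at hj
        constructor
        · right; exact ⟨-j, by push_cast; linarith⟩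
        · left; exact ⟨j, by linarith⟩
      · left
        push_cast at hj
        constructor
        · left; exact ⟨-j, by push_cast; linarith⟩
        · right; exact ⟨j, by linarith⟩
    push_cast
    rw [show ((k : ℝ) + 1 + 1) = k + 2 by ring]
    rcases key with ⟨k1, k2⟩ | ⟨k1, k2⟩
    · -- c = |a-b|, d = min
      have s1 : Sim (2 * m) c (a - b) := k1 ▸ Sim.abs _ _
      have s2 : Sim (2 * m) d (a + b) := k2 ▸ Sim.min _ _
      rcases hab with ⟨u1, u2⟩ | ⟨u1, u2⟩
      · exact s1.trans u1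
      · -- c ~ k a, d ~ (k+2) a, d ~ k a
        exact (s1.trans u1).trans ((ih0.symm.trans s2).trans u2)
    · have s1 : Sim (2 * m) d (a - b) := k1 ▸ Sim.abs _ _
      have s2 : Sim (2 * m) c (a + b) := k2 ▸ Sim.min _ _
      rcases hab with ⟨u1, u2⟩ | ⟨u1, u2⟩
      · exact (s2.trans u2).trans ((ih0.symm.trans s1).trans u1)
      · exact s2.trans u2

/-- the component of a torsion point of order `n` is an integral multiple of `2 * m / n`. -/
theorem comp_torsion (h : κ.MultAt v m) (t : κ.Tors v n S) {P : G}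
    (hP : P ∈ S) : ∃ j : ℤ, n * κ.comp v P = 2 * m * j := by
  obtain ⟨ha, -⟩ := comp_range h t hP
  rcases ha.eq_or_lt with ha | ha
  · exact ⟨0, by rw [← ha]; simp⟩
  · have := comp_nsmul h t hP ha n
    rw [t.tor _ hP, comp_zero] at this
    rcases this with ⟨j, hj⟩ | ⟨j, hj⟩
    · exact ⟨-j, by push_cast; linarith⟩
    · exact ⟨j, by linarith⟩

end Sub

end KummerLine

end Fermat.Agent.ECRed
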