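import Fermat.Agent.ECRed.Unram
import Fermat.Prelude.Def_FLTPrelim_FreyPackage

set_option autoImplicit false
set_option linter.unusedSectionVars false

namespace Fermat.Agent.ECRed.Frey

open WeierstrassCurve WeierstrassCurve.Affine OrdFn

variable (P : FreyPackage)

lemma frey_b₂ : P.freyCurve.b₂ = (P.b : ℚ) ^ P.p - (P.a : ℚ) ^ P.p := by
  simp only [WeierstrassCurve.b₂, FreyPackage.freyCurve]; ring

lemma frey_b₄ : P.freyCurve.b₄ = -((P.a : ℚ) * P.b) ^ P.p / 8 := by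
  simp only [WeierstrassCurve.b₄, FreyPackage.freyCurve]; rw [mul_pow]; ring

lemma frey_b₆ : P.freyCurve.b₆ = 0 := by
  simp only [WeierstrassCurve.b₆, FreyPackage.freyCurve]; ring

lemma frey_b₈ : P.freyCurve.b₈ = -(((P.a : ℚ) * P.b) ^ P.p) ^ 2 / 256 := by
  simp only [WeierstrassCurve.b₈, FreyPackage.freyCurve]; rw [mul_pow]; ring

variable {K : Type*} [Field K] [DecidableEq K] [Algebra ℚ K] [CharZero K]

/-- the Kummer line of the Frey curve -/
noncomputable abbrev kum : KummerLine ((P.freyCurve : Affine ℚ)⁄K).Point K :=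
  KummerLine.ofCurve ((P.freyCurve : Affine ℚ)⁄K)

lemma kum_b₂ : (kum P (K := K)).b₂ = (P.b : K) ^ P.p - (P.a : K) ^ P.p := by
  show (P.freyCurve.map (algebraMap ℚ K)).b₂ = _
  rw [map_b₂, frey_b₂]; simp

lemma kum_b₄ : (kum P (K := K)).b₄ = -((P.a : K) * P.b) ^ P.p / 8 := by
  show (P.freyCurve.map (algebraMap ℚ K)).b₄ = _
  rw [map_b₄, frey_b₄]; simp

lemma kum_b₆ : (kum P (K := K)).b₆ = 0 := by
  show (P.freyCurve.map (algebraMap ℚ K)).b₆ = _
  rw [map_b₆, frey_b₆]; simp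

lemma kum_b₈ : (kum P (K := K)).b₈ = -(((P.a : K) * P.b) ^ P.p) ^ 2 / 256 := by
  show (P.freyCurve.map (algebraMap ℚ K)).b₈ = _
  rw [map_b₈, frey_b₈]; simp

lemma hFLT_K : (P.a : K) ^ P.p + (P.b : K) ^ P.p = (P.c : K) ^ P.p := by
  exact_mod_cast congrArg (Int.cast : ℤ → K) P.hFLT

section Trans

/-- translation by `a^p/4` -/
lemma trans_b₂ : ((kum P (K := K)).translate ((P.a : K) ^ P.p / 4)).b₂ =
    (P.a : K) ^ P.p + (P.c : K) ^ P.p := by
  show (kum P (K := K)).b₂ + 12 * ((P.a : K) ^ P.p / 4) = _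
  rw [kum_b₂, ← hFLT_K]; ring

lemma trans_b₄ : ((kum P (K := K)).translate ((P.a : K) ^ P.p / 4)).b₄ =
    ((P.a : K) * P.c) ^ P.p / 8 := by
  show (kum P (K := K)).b₄ + ((P.a : K) ^ P.p / 4) * (kum P (K := K)).b₂ +
    6 * ((P.a : K) ^ P.p / 4) ^ 2 = _
  rw [kum_b₂, kum_b₄, mul_pow, mul_pow, ← hFLT_K]; ring

lemma trans_b₆ : ((kum P (K := K)).translate ((P.a : K) ^ P.p / 4)).b₆ = 0 := by
  show (kum P (K := K)).b₆ + 2 * ((P.a : K) ^ P.p / 4) * (kum P (K := K)).b₄ +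
    ((P.a : K) ^ P.p / 4) ^ 2 * (kum P (K := K)).b₂ + 4 * ((P.a : K) ^ P.p / 4) ^ 3 = _
  rw [kum_b₂, kum_b₄, kum_b₆, mul_pow]; ring

lemma trans_b₈ : ((kum P (K := K)).translate ((P.a : K) ^ P.p / 4)).b₈ =
    -(((P.a : K) * P.c) ^ P.p) ^ 2 / 256 := by
  show (kum P (K := K)).b₈ + 3 * ((P.a : K) ^ P.p / 4) * (kum P (K := K)).b₆ +
    3 * ((P.a : K) ^ P.p / 4) ^ 2 * (kum P (K := K)).b₄ +
    ((P.a : K) ^ P.p / 4) ^ 3 * (kum P (K := K)).b₂ + 3 * ((P.a : K) ^ P.p / 4) ^ 4 = _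
  rw [kum_b₂, kum_b₄, kum_b₆, kum_b₈]; simp only [mul_pow _ _ P.p]; rw [← hFLT_K]; ring

lemma kum_disc : (kum P (K := K)).disc =
    (((P.a : K) * P.b * P.c) ^ P.p) ^ 2 / 256 := by
  rw [KummerLine.disc, kum_b₂, kum_b₄, kum_b₆, kum_b₈]; simp only [mul_pow _ _ P.p]; rw [← hFLT_K]; ring

end Trans

section Fixed

variable {P} {v : OrdFn K} {q : ℕ}

lemma multAt_of {κ : KummerLine ((P.freyCurve : Affine ℚ)⁄K).Point K}
    (h2 : v.Eq 0 (2 : K)) {x y : K} {ε : K} (hε : v.Eq 0 ε) (n : ℕ) (hn : n ≠ 0)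
    (hxy : v.Gt 0 (x * y)) (hxy0 : x * y ≠ 0) (hb₂ : v.Eq 0 κ.b₂)
    (hb₄ : κ.b₄ = ε * (x * y) ^ n / 8) (hb₆ : κ.b₆ = 0)
    (hb₈ : κ.b₈ = -((x * y) ^ n) ^ 2 / 256) : κ.MultAt v (n * v.ord (x * y)) := by
  have hpos := (gt_iff hxy0).mp hxy
  have h0 : v.Eq (v.ord (x * y)) (x * y) := eq_self hxy0
  have h8 : v.Eq 0 ((8 : K)⁻¹) := by
    have := (h2.pow 3).inv
    norm_num at this
    simpa using this
  have h256 : v.Eq 0 ((256 : K)⁻¹) := by
    have := (h2.pow 8).inv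
    norm_num at this
    simpa using this
  refine ⟨?_, hb₂, ?_, ?_, ?_⟩
  · have : (0 : ℝ) < n := by exact_mod_cast Nat.pos_of_ne_zero hn
    positivity
  · rw [hb₄, div_eq_mul_inv]
    have := ((hε.mul (h0.pow n)).mul h8).ge
    simpa using this
  · rw [hb₆]; exact Ge.zero
  · rw [hb₈, div_eq_mul_inv]
    have := (((h0.pow n).pow_two).neg).mul h256
    simpa using this

theorem frey_fixed (hq : q.Prime) (hq2 : q ≠ 2) (hqp : q ≠ P.p)
    (hu : ∀ n : ℤ, ¬ (q : ℤ) ∣ n → v.Eq 0 (n : K)) (hd : ∀ n : ℤ, (q : ℤ) ∣ n → v.Gt 0 (n : K))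
    {σ : K ≃ₐ[ℚ] K} (hσ : ∀ z, v.Ge 0 z → v.Gt 0 (σ z - z))
    {Q : ((P.freyCurve : Affine ℚ)⁄K).Point} (hQ : P.p • Q = 0) : σ • Q = Q := by
  have hqI : Prime (q : ℤ) := Nat.prime_iff_prime_int.mp hq
  have hpp := P.pp
  have hp0 := P.hp0
  have h2 : v.Eq 0 (2 : K) := by
    have := hu 2 (by
      intro h
      have h' : q ∣ 2 := by exact_mod_cast h
      exact hq2 ((Nat.prime_dvd_prime_iff_eq hq Nat.prime_two).mp h'))
    simpa using this
  have hp : v.Eq 0 (P.p : K) := by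
    have := hu P.p (by
      intro h
      have h' : q ∣ P.p := by exact_mod_cast h
      exact hqp ((Nat.prime_dvd_prime_iff_eq hq hpp).mp h'))
    simpa using this
  have cop : ∀ {x y : ℤ}, gcd x y = 1 → (q : ℤ) ∣ x → ¬ (q : ℤ) ∣ y := by
    intro x y hxy hx hy
    have := dvd_gcd hx hy
    rw [hxy] at this
    exact hqI.not_isUnit (isUnit_of_dvd_one this)
  have hint : ∀ {x y : ℤ}, gcd x y = 1 → (q : ℤ) ∣ x → v.Eq 0 ((y : K) ^ P.p - (x : K) ^ P.p) := by
    intro x y hxy hx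
    have h1 := hu (y ^ P.p - x ^ P.p) (by
      intro h
      have h3 : (q : ℤ) ∣ y ^ P.p := by
        have := dvd_add h (dvd_pow hx hp0)
        simpa using this
      exact cop hxy hx (hqI.dvd_of_dvd_pow h3))
    simpa using h1
  have hne : ∀ {x : ℤ}, x ≠ 0 → (x : K) ≠ 0 := fun h => by exact_mod_cast h
  have r2 : ∀ {x y : ℤ}, x ≠ 0 → y ≠ 0 →
      v.Eq (2 * v.ord ((x : K) * y)) (((x * y : ℤ) : K) ^ 2) := by
    intro x y hx hy
    have := (eq_self (v := v) (mul_ne_zero (hne hx) (hne hy))).pow_two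
    push_cast
    exact this
  have σint : ∀ n : ℤ, σ ((n : K) ^ 2) = (n : K) ^ 2 := by
    intro n
    rw [map_pow, map_intCast]
  have main : ∀ (r : ℚ) (x y : ℤ) (ε : K), v.Eq 0 ε → x ≠ 0 → y ≠ 0 → (q : ℤ) ∣ x * y →
      v.Eq 0 ((kum P (K := K)).translate (algebraMap ℚ K r)).b₂ →
      ((kum P (K := K)).translate (algebraMap ℚ K r)).b₄ = ε * ((x : K) * y) ^ P.p / 8 →
      ((kum P (K := K)).translate (algebraMap ℚ K r)).b₆ = 0 →
      ((kum P (K := K)).translate (algebraMap ℚ K r)).b₈ = -(((x : K) * y) ^ P.p) ^ 2 / 256 →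
      σ • Q = Q := by
    intro r x y ε hε hx hy hxy hb₂ hb₄ hb₆ hb₈
    have hg : v.Gt 0 ((x : K) * y) := by
      have := hd _ hxy
      push_cast at this
      exact this
    have hM := multAt_of (κ := (kum P (K := K)).translate (algebraMap ℚ K r)) h2 hε P.p hp0 hg
      (mul_ne_zero (hne hx) (hne hy)) hb₂ hb₄ hb₆ hb₈
    refine fixed_of_mult (n := P.p) r hM hσ h2 hp P.hp_odd (σint (x * y)) (r2 hx hy) ?_ hQ
    ring
  have alg4 : (algebraMap ℚ K (((P.a : ℚ)) ^ P.p / 4)) = (P.a : K) ^ P.p / 4 := by simp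
  by_cases hc : (q : ℤ) ∣ P.c
  · -- node at `x = a^p/4`
    have hca : gcd P.c P.a = 1 := by rw [gcd_comm]; exact P.hgcdac
    refine main (((P.a : ℚ)) ^ P.p / 4) P.a P.c 1 eq_one P.ha0 P.hc0 (dvd_mul_of_dvd_right hc _)
      ?_ ?_ ?_ ?_
    · rw [alg4, trans_b₂]
      have h1 := hu (P.a ^ P.p + P.c ^ P.p) (by
        intro h
        have h3 : (q : ℤ) ∣ P.a ^ P.p := by
          have := dvd_sub h (dvd_pow hc hp0)
          simpa using this
        exact cop hca hc (hqI.dvd_of_dvd_pow h3))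
      simpa using h1
    · rw [alg4, trans_b₄, one_mul]
    · rw [alg4, trans_b₆]
    · rw [alg4, trans_b₈]
  by_cases hab : (q : ℤ) ∣ P.a * P.b
  · have ht : (kum P (K := K)).translate (algebraMap ℚ K 0) = kum P (K := K) := by
      simp [KummerLine.translate]
    refine main 0 P.a P.b (-1) eq_one.neg P.ha0 P.hb0 hab ?_ ?_ ?_ ?_
    · rw [ht, kum_b₂]
      rcases hqI.dvd_or_dvd hab with h | h
      · exact hint P.hgcdab h
      · have := hint (x := P.b) (y := P.a) (by rw [gcd_comm]; exact P.hgcdab) h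
        have := this.neg
        rw [neg_sub] at this
        exact this
    · rw [ht, kum_b₄]; ring
    · rw [ht, kum_b₆]
    · rw [ht, kum_b₈]
  · -- good reduction
    have h8 : v.Eq 0 ((8 : K)⁻¹) := by
      have := (h2.pow 3).inv
      norm_num at this
      simpa using this
    have h256 : v.Eq 0 ((256 : K)⁻¹) := by
      have := (h2.pow 8).inv
      norm_num at this
      simpa using this
    have gi : ∀ n : ℤ, v.Ge 0 (n : K) := fun n => ge_intCast n
    refine fixed_of_good (n := P.p) ⟨?_, ?_, ?_, ?_⟩ ?_ hσ h2 hp P.hp_odd hQ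
    · rw [kum_b₂]
      have := gi (P.b ^ P.p - P.a ^ P.p)
      simpa using this
    · rw [kum_b₄]
      have := (gi (-(P.a * P.b) ^ P.p)).mul h8.ge
      push_cast at this
      rw [div_eq_mul_inv]
      simpa using this
    · rw [kum_b₆]; exact Ge.zero
    · rw [kum_b₈]
      have := (gi (-((P.a * P.b) ^ P.p) ^ 2)).mul h256.ge
      push_cast at this
      rw [div_eq_mul_inv]
      simpa using this
    · rw [kum_disc]
      have habc : ¬ (q : ℤ) ∣ ((P.a * P.b * P.c) ^ P.p) ^ 2 := by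
        intro h
        have := hqI.dvd_of_dvd_pow (hqI.dvd_of_dvd_pow h)
        rcases hqI.dvd_or_dvd this with h | h
        · exact hab h
        · exact hc h
      have := (hu _ habc).mul h256
      push_cast at this
      rw [div_eq_mul_inv]
      simpa using this

end Fixed

/-- The mod `p` representation of the Frey curve is unramified at `q ≠ 2, p`
(for any field `K` algebraic over `ℚ`). -/
theorem frey_unram [Algebra.IsAlgebraic ℚ K] {q : ℕ} (hq : q.Prime) (hq2 : q ≠ 2)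
    (hqp : q ≠ P.p) :
    WeierstrassCurve.Affine.Point.GaloisRepUnramifiedAt (K := K) ℚ (P.freyCurve : Affine ℚ) P.p q := by
  intro A hA σ hσ x
  apply Subtype.ext
  have hA' : (q : K) ∈ A.nonunits := hA
  obtain ⟨Q, hQ⟩ := x
  have hx : P.p • Q = 0 := by
    have := (Submodule.mem_torsionBy_iff _ _).mp hQ
    rwa [natCast_zsmul] at this
  show σ • Q = Q
  refine frey_fixed (v := ordFnAt A hq hA') hq hq2 hqp ?_ ?_ ?_ hx
  · intro n hn
    have h1 := val_int_of_coprime A hq hA' hn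
    have h2 : (ordFnAt A hq hA').Ge 0 (n : K) := by
      rw [ordFnAt_ge, ← ValuationSubring.valuation_le_one_iff, h1]
    have h3 : ¬ (ordFnAt A hq hA').Gt 0 (n : K) := by
      rw [ordFnAt_gt, ValuationSubring.mem_nonunits_iff, h1]
      exact lt_irrefl _
    rw [not_gt_iff] at h3
    exact ⟨h3.1, le_antisymm h3.2 ((ge_iff h3.1).mp h2)⟩
  · rintro _ ⟨m, rfl⟩
    have h1 : (ordFnAt A hq hA').Gt 0 (q : K) := by
      rw [ordFnAt_gt]; exact hA'
    have h2 := h1.mul_ge (ge_intCast m)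
    push_cast
    simpa using h2
  · intro z hz
    rw [ordFnAt_gt]
    rw [ordFnAt_ge] at hz
    exact inertia_sub A hσ hz

end Fermat.Agent.ECRed.Frey
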