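import Fermat.Agent.ECRed.AtP
import Fermat.Agent.ECRed.Frey

set_option autoImplicit false
set_option linter.unusedSectionVars false

/-! # The Frey curve at `2` -/

namespace Fermat.Agent.ECRed.Frey

open WeierstrassCurve WeierstrassCurve.Affine OrdFn
open scoped Pointwise

variable (P : FreyPackage)

lemma b_even : (2 : ℤ) ∣ P.b := (ZMod.intCast_zmod_eq_zero_iff_dvd P.b 2).1 P.hb2

lemma a_mod4 : (4 : ℤ) ∣ P.a + 1 := by
  have h := P.ha4
  refine (ZMod.intCast_zmod_eq_zero_iff_dvd (P.a + 1) 4).1 ?_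
  push_cast
  rw [h]
  decide

lemma a_odd : ¬ (2 : ℤ) ∣ P.a := by
  have h := a_mod4 P
  intro h2
  omega

lemma four_dvd : (4 : ℤ) ∣ P.b ^ P.p - 1 - P.a ^ P.p := by
  have hp5 := P.hp5
  have h1 : (4 : ℤ) ∣ P.b ^ P.p := by
    have h2 : (2 : ℤ) ^ 2 ∣ P.b ^ 2 := pow_dvd_pow_of_dvd (b_even P) 2
    have h3 : P.b ^ 2 ∣ P.b ^ P.p := pow_dvd_pow _ (by omega)
    exact (show (4 : ℤ) = 2 ^ 2 by norm_num) ▸ h2.trans h3
  have h2 : (4 : ℤ) ∣ 1 + P.a ^ P.p := by
    have h3 : P.a + 1 ∣ P.a ^ P.p + 1 ^ P.p := P.hp_odd.add_dvd_pow_add_pow P.a 1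
    rw [one_pow] at h3
    have := (a_mod4 P).trans h3
    rwa [add_comm] at this
  have := dvd_sub h1 h2
  have e : P.b ^ P.p - 1 - P.a ^ P.p = P.b ^ P.p - (1 + P.a ^ P.p) := by ring
  rwa [e]

lemma sixteen_dvd : (16 : ℤ) ∣ (P.a * P.b) ^ P.p := by
  have hp5 := P.hp5
  have h2 : (2 : ℤ) ^ 4 ∣ P.b ^ 4 := pow_dvd_pow_of_dvd (b_even P) 4
  have h3 : P.b ^ 4 ∣ P.b ^ P.p := pow_dvd_pow _ (by omega)
  rw [mul_pow]
  exact Dvd.dvd.mul_left ((show (16 : ℤ) = 2 ^ 4 by norm_num) ▸ h2.trans h3) _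

section Two

variable {K : Type*} [Field K] [DecidableEq K] [Algebra ℚ K] [Algebra.IsAlgebraic ℚ K]
  [CharZero K] (A : ValuationSubring K)

variable {A} {q : ℕ} in
lemma eq_zero_of_not_dvd (hq : q.Prime) (hA : (q : K) ∈ A.nonunits) {n : ℤ} (hn : ¬ (q : ℤ) ∣ n) :
    (ordFnAt A hq hA).Eq 0 (n : K) := by
  have h1 := val_int_of_coprime A hq hA hn
  have h2 : (ordFnAt A hq hA).Ge 0 (n : K) := by
    rw [ordFnAt_ge, ← ValuationSubring.valuation_le_one_iff, h1]
  have h3 : ¬ (ordFnAt A hq hA).Gt 0 (n : K) := by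
    rw [ordFnAt_gt, ValuationSubring.mem_nonunits_iff, h1]
    exact lt_irrefl _
  rw [not_gt_iff] at h3
  exact ⟨h3.1, le_antisymm h3.2 ((ge_iff h3.1).mp h2)⟩

variable {A} {q : ℕ} in
lemma gt_zero_of_dvd (hq : q.Prime) (hA : (q : K) ∈ A.nonunits) {n : ℤ} (hn : (q : ℤ) ∣ n) :
    (ordFnAt A hq hA).Gt 0 (n : K) := by
  obtain ⟨m, rfl⟩ := hn
  have h1 : (ordFnAt A hq hA).Gt 0 (q : K) := by
    rw [ordFnAt_gt]; exact hA
  have h2 := h1.mul_ge (ge_intCast m)
  push_cast
  simpa using h2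

lemma rat_unit_congr (hA : ((2 : ℕ) : K) ∈ A.nonunits) {r : ℚ}
    (h : (ordFnAt A Nat.prime_two hA).Eq 0 (algebraMap ℚ K r)) :
    (ordFnAt A Nat.prime_two hA).Gt 0 (algebraMap ℚ K r - 1) := by
  set v := ordFnAt A Nat.prime_two hA
  have hr : algebraMap ℚ K r = (r.num : K) / ((r.den : ℤ) : K) := by
    rw [eq_ratCast, Rat.cast_def, Int.cast_natCast]
  have hden0 : (((r.den : ℤ) : ℤ) : K) ≠ 0 := by
    exact_mod_cast r.den_ne_zero
  have hmul : algebraMap ℚ K r * ((r.den : ℤ) : K) = (r.num : K) := by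
    rw [hr]; field_simp
  have hden : ¬ (2 : ℤ) ∣ (r.den : ℤ) := by
    intro hd
    have hnum : ¬ (2 : ℤ) ∣ r.num := by
      intro hn
      have h1 := r.reduced
      have h2 : 2 ∣ r.num.natAbs := Int.natCast_dvd.mp (by exact_mod_cast hn)
      have h3 : 2 ∣ r.den := by exact_mod_cast hd
      have := Nat.dvd_gcd h2 h3
      rw [Nat.Coprime] at h1
      rw [h1] at this
      omega
    have h1 : v.Eq 0 (r.num : K) := eq_zero_of_not_dvd Nat.prime_two hA (by exact_mod_cast hnum)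
    have h2 : v.Gt 0 ((r.den : ℤ) : K) := gt_zero_of_dvd Nat.prime_two hA (by exact_mod_cast hd)
    have h3 := h.ge.mul_gt h2
    rw [hmul, add_zero] at h3
    exact h1.not_gt h3
  have h1 : v.Eq 0 ((r.den : ℤ) : K) := eq_zero_of_not_dvd Nat.prime_two hA (by exact_mod_cast hden)
  have h2 : v.Eq 0 (r.num : K) := by
    have := h.mul h1
    rw [hmul] at this
    simpa using this
  have hnum : ¬ (2 : ℤ) ∣ r.num := by
    intro hn
    exact h2.not_gt (gt_zero_of_dvd Nat.prime_two hA (by exact_mod_cast hn))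
  have h3 : (2 : ℤ) ∣ r.num - r.den := by omega
  have h4 : v.Gt 0 ((r.num - (r.den : ℤ) : ℤ) : K) :=
    gt_zero_of_dvd Nat.prime_two hA (by exact_mod_cast h3)
  have h5 : ((r.den : ℤ) : K) * (algebraMap ℚ K r - 1) = ((r.num - (r.den : ℤ) : ℤ) : K) := by
    push_cast at hmul ⊢
    linear_combination hmul
  rw [← h5] at h4
  simpa using h4.of_mul_eq h1

variable {P} in
lemma frey_a₁ : ((P.freyCurve : Affine ℚ)⁄K).a₁ = 1 := by
  show algebraMap ℚ K P.freyCurve.a₁ = 1
  simp [FreyPackage.freyCurve]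

variable {P} in
lemma frey_a₂ : ((P.freyCurve : Affine ℚ)⁄K).a₂ = ((P.b : K) ^ P.p - 1 - (P.a : K) ^ P.p) / 4 := by
  show algebraMap ℚ K P.freyCurve.a₂ = _
  simp [FreyPackage.freyCurve]

variable {P} in
lemma frey_a₃ : ((P.freyCurve : Affine ℚ)⁄K).a₃ = 0 := by
  show algebraMap ℚ K P.freyCurve.a₃ = _
  simp [FreyPackage.freyCurve]

variable {P} in
lemma frey_a₄ : ((P.freyCurve : Affine ℚ)⁄K).a₄ = -((P.a : K) * P.b) ^ P.p / 16 := by
  show algebraMap ℚ K P.freyCurve.a₄ = _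
  simp [FreyPackage.freyCurve, mul_pow]

variable {P} in
lemma frey_a₆ : ((P.freyCurve : Affine ℚ)⁄K).a₆ = 0 := by
  show algebraMap ℚ K P.freyCurve.a₆ = _
  simp [FreyPackage.freyCurve]

variable {P} {v : OrdFn K}

lemma intCoeff_two : IntCoeff (P.freyCurve : Affine ℚ) v := by
  obtain ⟨k, hk⟩ := four_dvd P
  obtain ⟨l, hl⟩ := sixteen_dvd P
  refine ⟨?_, ?_, ?_, ?_, ?_⟩
  · rw [frey_a₁]; exact eq_one.ge
  · have : ((P.freyCurve : Affine ℚ)⁄K).a₂ = (k : K) := by
      rw [frey_a₂, div_eq_iff (by norm_num)]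
      have := congrArg (Int.cast : ℤ → K) hk
      push_cast at this
      rw [this]; ring
    rw [this]; exact ge_intCast k
  · rw [frey_a₃]; exact Ge.zero
  · have : ((P.freyCurve : Affine ℚ)⁄K).a₄ = ((-l : ℤ) : K) := by
      rw [frey_a₄, div_eq_iff (by norm_num)]
      have := congrArg (Int.cast : ℤ → K) hl
      push_cast at this
      rw [this]; push_cast; ring
    rw [this]; exact ge_intCast _
  · rw [frey_a₆]; exact Ge.zero

/-- Multiplicative reduction at `2`. -/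
lemma multAt_two (hA : ((2 : ℕ) : K) ∈ A.nonunits) :
    ∃ k : ℤ, 1 ≤ k ∧ (kum P (K := K)).MultAt (ordFnAt A Nat.prime_two hA) (P.p * k - 4) := by
  set v := ordFnAt A Nat.prime_two hA with hv
  have h2 : v.Eq 1 (2 : K) := by
    have := ordAt_q A Nat.prime_two hA
    simpa using this
  have hab0 : ((P.a : ℚ) * P.b) ≠ 0 := by
    have h1 := P.ha0
    have h2 := P.hb0
    exact mul_ne_zero (by exact_mod_cast h1) (by exact_mod_cast h2)
  obtain ⟨k, hk⟩ := ordAt_rat A Nat.prime_two hA hab0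
  have hcast : algebraMap ℚ K ((P.a : ℚ) * P.b) = (P.a : K) * P.b := by simp
  rw [hcast] at hk
  have hab : (P.a : K) * P.b ≠ 0 := by
    rw [← hcast]; exact (_root_.map_ne_zero _).mpr hab0
  have hkpos : 1 ≤ k := by
    have h3 : v.Gt 0 ((P.a * P.b : ℤ) : K) :=
      gt_zero_of_dvd Nat.prime_two hA (Dvd.dvd.mul_left (by exact_mod_cast b_even P) _)
    push_cast at h3
    rw [gt_iff hab, hv, hk] at h3
    have : 0 < k := by exact_mod_cast h3
    omega
  refine ⟨k, hkpos, ?_⟩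
  have hEq : v.Eq (P.p * k) (((P.a : K) * P.b) ^ P.p) := by
    have h3 : v.Eq k ((P.a : K) * P.b) := ⟨hab, hk⟩
    exact h3.pow P.p
  have h8 : v.Eq (-3) ((8 : K)⁻¹) := by
    have := (h2.pow 3).inv
    norm_num at this
    simpa using this
  have h256 : v.Eq (-8) ((256 : K)⁻¹) := by
    have := (h2.pow 8).inv
    norm_num at this
    simpa using this
  have hp5 : (5 : ℝ) ≤ P.p := by exact_mod_cast P.hp5
  have hk1 : (1 : ℝ) ≤ k := by exact_mod_cast hkpos
  have hprod : (5 : ℝ) ≤ P.p * k := by nlinarith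
  refine ⟨by linarith, ?_, ?_, ?_, ?_⟩
  · rw [kum_b₂]
    have hnd : ¬ (2 : ℤ) ∣ P.b ^ P.p - P.a ^ P.p := by
      intro h
      have h3 : (2 : ℤ) ∣ P.b ^ P.p := dvd_pow (b_even P) P.hp0
      have h4 : (2 : ℤ) ∣ P.a ^ P.p := by
        have := dvd_sub h3 h
        simpa using this
      exact a_odd P (Int.prime_two.dvd_of_dvd_pow h4)
    have := eq_zero_of_not_dvd (A := A) Nat.prime_two hA (n := P.b ^ P.p - P.a ^ P.p)
      (by exact_mod_cast hnd)
    push_cast at this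
    exact this
  · rw [kum_b₄, div_eq_mul_inv]
    have := (hEq.neg.mul h8).ge
    exact this.mono (by linarith)
  · rw [kum_b₆]; exact Ge.zero
  · rw [kum_b₈, div_eq_mul_inv]
    have := (hEq.pow_two.neg.mul h256)
    rwa [show 2 * ((P.p : ℝ) * k) + -8 = 2 * (P.p * k - 4) by ring] at this

/-- The Frey curve has no rational point of order `p`. -/
theorem no_rational_torsion [IsGalois ℚ K] (hA : ((2 : ℕ) : K) ∈ A.nonunits)
    {Q : ((P.freyCurve : Affine ℚ)⁄K).Point} (hQ0 : Q ≠ 0) (hQ : P.p • Q = 0)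
    (hfix : ∀ σ : K ≃ₐ[ℚ] K, σ • Q = Q) : False := by
  set v := ordFnAt A Nat.prime_two hA with hv
  obtain ⟨k, hk, hM⟩ := multAt_two (P := P) A hA
  rw [← hv] at hM
  set κ := kum P (K := K) with hκ
  have hodd := P.hp_odd
  have hp5 := P.hp5
  have hpn : v.Eq 0 ((P.p : ℕ) : K) := by
    have := eq_zero_of_not_dvd (A := A) Nat.prime_two hA (n := (P.p : ℤ)) (by
      intro h
      have h1 : 2 ∣ P.p := by exact_mod_cast h
      have := P.hp_odd
      rw [← Nat.not_even_iff_odd] at this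
      exact this (even_iff_two_dvd.mpr h1))
    simpa using this
  have hrat : ∀ R : ((P.freyCurve : Affine ℚ)⁄K).Point, (∀ σ : K ≃ₐ[ℚ] K, σ • R = R) →
      ∃ r : ℚ, algebraMap ℚ K r = κ.N R := by
    intro R hR
    apply (InfiniteGalois.mem_range_algebraMap_iff_fixed _).mpr
    intro σ
    rw [← N_smul, hR σ]
  obtain ⟨ha0, ham⟩ := KummerLine.comp_range hM hpn hodd hQ
  have hx := KummerLine.comp_eq hM hpn hodd hQ0 hQ
  rcases ha0.eq_or_lt with ha | ha
  · -- component zero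
    rw [← ha] at hx
    have h2Q := KummerLine.two_ne hodd hQ0 hQ
    have h2u := KummerLine.unit_double hM hpn hodd hQ0 hQ hx
    have hfix2 : ∀ σ : K ≃ₐ[ℚ] K, σ • (Q + Q) = Q + Q := by
      intro σ
      have : σ • (Q + Q) = σ • Q + σ • Q := by
        rw [smul_eq_map, smul_eq_map, _root_.map_add]
      rw [this, hfix σ]
    obtain ⟨r, hr⟩ := hrat Q hfix
    obtain ⟨s, hs⟩ := hrat (Q + Q) hfix2
    have c1 : v.Gt 0 (κ.N Q - 1) := by
      rw [← hr] at hx ⊢
      exact rat_unit_congr A hA hx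
    have c2 : v.Gt 0 (κ.N (Q + Q) - 1) := by
      rw [← hs] at h2u ⊢
      exact rat_unit_congr A hA h2u
    have hcong : v.Gt 0 (κ.N Q - κ.N (Q + Q)) := by
      have := c1.sub c2
      rwa [sub_sub_sub_cancel_right] at this
    have n1 : Q ≠ Q + Q := by
      intro h
      apply hQ0
      have := congrArg (fun z => z - Q) h
      simpa using this.symm
    have n2 : Q ≠ -(Q + Q) := by
      intro h
      have h3 : (3 : ℕ) • Q = 0 := by
        have : (3 : ℕ) • Q = Q + (Q + Q) := by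
          rw [show (3 : ℕ) = 1 + 2 from rfl, add_nsmul, one_nsmul, two_nsmul]
        rw [this]
        nth_rewrite 1 [h]
        exact neg_add_cancel _
      have h4 : addOrderOf Q ∣ 3 := addOrderOf_dvd_of_nsmul_eq_zero h3
      have h5 : addOrderOf Q ∣ P.p := addOrderOf_dvd_of_nsmul_eq_zero hQ
      have h6 : addOrderOf Q = P.p := by
        rcases (Nat.dvd_prime P.pp).mp h5 with h | h
        · rw [AddMonoid.addOrderOf_eq_one_iff] at h; exact absurd h hQ0
        · exact h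
      rw [h6] at h4
      have := Nat.le_of_dvd (by norm_num) h4
      omega
    obtain ⟨-, g2⟩ := KummerLine.F_gt_of_congr hM.integral hpn hQ0 h2Q hQ
      (KummerLine.add_torsion hQ hQ) n1 n2 hcong
    have := KummerLine.F2_lt hM hx h2u le_rfl le_rfl (by linarith [hM.pos])
    rw [add_zero, mul_zero] at this
    rw [add_zero] at g2
    exact this.not_gt g2
  · -- nonzero component
    obtain ⟨j, hj⟩ := KummerLine.comp_torsion hM hpn hodd hQ
    obtain ⟨r, hr⟩ := hrat Q hfix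
    have hr0 : r ≠ 0 := by
      rintro rfl
      rw [_root_.map_zero] at hr
      exact hx.ne hr.symm
    obtain ⟨l, hl⟩ := ordAt_rat A Nat.prime_two hA hr0
    rw [hr, ← hv] at hl
    have hcl : κ.comp v Q = l := by rw [← hx.2]; exact hl
    rw [hcl] at hj ha ham
    have h1 : (P.p : ℤ) * l = 2 * (P.p * k - 4) * j := by exact_mod_cast hj
    have h2 : (P.p : ℤ) ∣ 8 * j := ⟨2 * k * j - l, by linear_combination h1⟩
    have hpI : Prime (P.p : ℤ) := Nat.prime_iff_prime_int.mp P.pp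
    have h3 : (P.p : ℤ) ∣ j := by
      rcases hpI.dvd_or_dvd h2 with h | h
      · exfalso
        have h4 : P.p ∣ 2 ^ 3 := by exact_mod_cast h
        have h5 := P.pp.dvd_of_dvd_pow h4
        have := Nat.le_of_dvd (by norm_num) h5
        omega
      · exact h
    obtain ⟨i, rfl⟩ := h3
    have hp0 : (P.p : ℤ) ≠ 0 := by exact_mod_cast P.hp0
    have h4 : l = 2 * (P.p * k - 4) * i := by
      apply mul_left_cancel₀ hp0
      linear_combination h1
    have h5 : 0 < l := by exact_mod_cast ha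
    have h6 : l < P.p * k - 4 := by exact_mod_cast ham
    have h7 : 0 < i := by
      by_contra hi
      push Not at hi
      have : 2 * (P.p * k - 4) * i ≤ 0 := mul_nonpos_of_nonneg_of_nonpos (by omega) hi
      omega
    nlinarith

/-- Inertia at `2` acts unipotently on the `p`-torsion. -/
theorem frey_unipotent_two {A : ValuationSubring K} (hA : ((2 : ℕ) : K) ∈ A.nonunits)
    {σ : K ≃ₐ[ℚ] K} (hσ : σ ∈ A.inertiaSubgroupIn ℚ)
    {Q : ((P.freyCurve : Affine ℚ)⁄K).Point} (hQ : P.p • Q = 0) :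
    σ • (σ • Q - Q) = σ • Q - Q := by
  set v := ordFnAt A Nat.prime_two hA with hv
  obtain ⟨k, hk, hM⟩ := multAt_two (P := P) A hA
  rw [← hv] at hM
  have hpn : v.Eq 0 ((P.p : ℕ) : K) := by
    have := eq_zero_of_not_dvd (A := A) Nat.prime_two hA (n := (P.p : ℤ)) (by
      intro h
      have h1 : 2 ∣ P.p := by exact_mod_cast h
      have := P.hp_odd
      rw [← Nat.not_even_iff_odd] at this
      exact this (even_iff_two_dvd.mpr h1))
    simpa using this
  have hdec : σ ∈ A.decompositionSubgroup ℚ := by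
    obtain ⟨⟨τ, hτ⟩, -, rfl⟩ := hσ
    exact hτ
  refine unipotent_two intCoeff_two frey_a₃ frey_a₆ hM ?_ (ordAt_smul A Nat.prime_two hA hdec) hpn
    P.hp_odd hQ
  intro z hz
  rw [hv, ordFnAt_gt]
  rw [hv, ordFnAt_ge] at hz
  exact inertia_sub A hσ hz

end Two

end Fermat.Agent.ECRed.Frey
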