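import Mathlib

set_option autoImplicit false
set_option linter.unusedSectionVars false

namespace Fermat.Agent.ECRed

open WeierstrassCurve WeierstrassCurve.Affine WeierstrassCurve.Affine.Point

section Point

variable {F : Type*} [Field F] [DecidableEq F] {W : Affine F}

/-- numerator of the x-coordinate -/
noncomputable def xN (P : W.Point) : F := P.xRep 0

/-- denominator of the x-coordinate -/
noncomputable def xD (P : W.Point) : F := P.xRep 1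

@[simp] lemma xN_zero : xN (0 : W.Point) = 1 := by simp [xN]
@[simp] lemma xD_zero : xD (0 : W.Point) = 0 := by simp [xD]
@[simp] lemma xN_some {x y : F} (h : W.Nonsingular x y) : xN (.some x y h) = x := by simp [xN]
@[simp] lemma xD_some {x y : F} (h : W.Nonsingular x y) : xD (.some x y h) = 1 := by simp [xD]
@[simp] lemma xN_neg (P : W.Point) : xN (-P) = xN P := by simp [xN]
@[simp] lemma xD_neg (P : W.Point) : xD (-P) = xD P := by simp [xD]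

/-- The relation between x-coordinates of `P+Q`, `P-Q`, `P`, `Q`. -/
def AddSubRel (b₂ b₄ b₆ b₈ : F) (nP dP nQ dQ nS dS nM dM : F) : Prop :=
  ∃ l : F, l ≠ 0 ∧
    l * (nS * nM) = (nP * nQ) ^ 2 - b₄ * (nP * nQ) * (dP * dQ) -
      b₆ * (nP * dQ + dP * nQ) * (dP * dQ) - b₈ * (dP * dQ) ^ 2 ∧
    l * (nS * dM + dS * nM) = 2 * (nP * dQ + dP * nQ) * (nP * nQ) + b₂ * (nP * nQ) * (dP * dQ) +
      b₄ * (nP * dQ + dP * nQ) * (dP * dQ) + b₆ * (dP * dQ) ^ 2 ∧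
    l * (dS * dM) = (nP * dQ + dP * nQ) ^ 2 - 4 * (nP * nQ) * (dP * dQ)

lemma nonsing_X_ne {x y : F} (h : W.Nonsingular x y) (hy : y = W.negY x y) :
    3 * x ^ 2 + 2 * W.a₂ * x + W.a₄ - W.a₁ * y ≠ 0 := by
  rw [nonsingular_iff'] at h
  rcases h.2 with h | h
  · intro h0
    apply h
    linear_combination -h0
  · exfalso
    apply h
    rw [negY] at hy
    linear_combination hy

/-- duplication -/
lemma dup_rel {x y : F} (h : W.Nonsingular x y) (hy : y ≠ W.negY x y) :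
    (y - W.negY x y) ^ 2 * W.addX x x (W.slope x x y y) =
      x ^ 4 - W.b₄ * x ^ 2 - 2 * W.b₆ * x - W.b₈ := by
  have hE := h.1
  rw [equation_iff] at hE
  rw [slope_of_Y_ne rfl hy]
  have hy' : y - W.negY x y ≠ 0 := sub_ne_zero.mpr hy
  simp only [addX]
  field_simp
  simp only [negY, b₄, b₆, b₈]
  linear_combination (-8*x - 4 * W.a₂ - W.a₁^2) * hE

lemma psi_eq {x y : F} (h : W.Equation x y) :
    (y - W.negY x y) ^ 2 = 4 * x ^ 3 + W.b₂ * x ^ 2 + 2 * W.b₄ * x + W.b₆ := by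
  rw [equation_iff] at h
  simp only [negY, b₂, b₄, b₆]
  linear_combination 4 * h

lemma phi_eq {x y : F} (h : W.Equation x y) (hy : y = W.negY x y) :
    (3 * x ^ 2 + 2 * W.a₂ * x + W.a₄ - W.a₁ * y) ^ 2 =
      x ^ 4 - W.b₄ * x ^ 2 - 2 * W.b₆ * x - W.b₈ := by
  rw [equation_iff] at h
  rw [negY] at hy
  simp only [b₄, b₆, b₈]
  linear_combination (-8*x - 4 * W.a₂ - W.a₁^2) * h
   + (-W.a₁ * (3 * x ^ 2 + 2 * W.a₂ * x + W.a₄ - W.a₁ * y) + 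
      (W.a₂ + 2 * x) * (y - (-y - W.a₁ * x - W.a₃))) * hy

lemma sum_rel {x₁ y₁ x₂ y₂ : F} (h₁ : W.Equation x₁ y₁) (h₂ : W.Equation x₂ y₂)
    (hx : x₁ ≠ x₂) :
    (x₁ - x₂) ^ 2 * (W.addX x₁ x₂ (W.slope x₁ x₂ y₁ y₂) +
      W.addX x₁ x₂ (W.slope x₁ x₂ y₁ (W.negY x₂ y₂))) =
      2 * (x₁ + x₂) * (x₁ * x₂) + W.b₂ * (x₁ * x₂) + W.b₄ * (x₁ + x₂) + W.b₆ := by
  rw [equation_iff] at h₁ h₂
  rw [slope_of_X_ne hx, slope_of_X_ne hx]
  have hx' : x₁ - x₂ ≠ 0 := sub_ne_zero.mpr hx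
  simp only [addX]
  field_simp
  simp only [negY, b₂, b₄, b₆]
  linear_combination 2 * h₁ + 2 * h₂

lemma prod_rel {x₁ y₁ x₂ y₂ : F} (h₁ : W.Equation x₁ y₁) (h₂ : W.Equation x₂ y₂)
    (hx : x₁ ≠ x₂) :
    (x₁ - x₂) ^ 2 * (W.addX x₁ x₂ (W.slope x₁ x₂ y₁ y₂) *
      W.addX x₁ x₂ (W.slope x₁ x₂ y₁ (W.negY x₂ y₂))) =
      (x₁ * x₂) ^ 2 - W.b₄ * (x₁ * x₂) - W.b₆ * (x₁ + x₂) - W.b₈ := by
  rw [equation_iff] at h₁ h₂
  rw [slope_of_X_ne hx, slope_of_X_ne hx]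
  have hx' : x₁ - x₂ ≠ 0 := sub_ne_zero.mpr hx
  have e1 : W.addX x₁ x₂ ((y₁ - y₂) / (x₁ - x₂)) = 
      ((y₁ - y₂) ^ 2 + W.a₁ * (y₁ - y₂) * (x₁ - x₂) - (W.a₂ + x₁ + x₂) * (x₁ - x₂) ^ 2) / (x₁ - x₂) ^ 2 := by
    simp only [addX]
    field_simp
    ring
  have e2 : W.addX x₁ x₂ ((y₁ - W.negY x₂ y₂) / (x₁ - x₂)) = 
      ((y₁ - W.negY x₂ y₂) ^ 2 + W.a₁ * (y₁ - W.negY x₂ y₂) * (x₁ - x₂) - (W.a₂ + x₁ + x₂) * (x₁ - x₂) ^ 2) / (x₁ - x₂) ^ 2 := by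
    simp only [addX]
    field_simp
    ring
  have key : ((y₁ - y₂) ^ 2 + W.a₁ * (y₁ - y₂) * (x₁ - x₂) - (W.a₂ + x₁ + x₂) * (x₁ - x₂) ^ 2) * 
    ((y₁ - W.negY x₂ y₂) ^ 2 + W.a₁ * (y₁ - W.negY x₂ y₂) * (x₁ - x₂) - (W.a₂ + x₁ + x₂) * (x₁ - x₂) ^ 2)
      = (x₁ - x₂) ^ 2 * ((x₁ * x₂) ^ 2 - W.b₄ * (x₁ * x₂) - W.b₆ * (x₁ + x₂) - W.b₈) := by
    simp only [negY, b₄, b₆, b₈]
    linear_combination (-x₂^2*W.a₁^2 + x₁*x₂*W.a₁^2 - x₂*W.a₁*W.a₃ - 2*x₂*y₂*W.a₁ - 2*x₂^2*W.a₂ - 2*x₂^3 + x₁*W.a₁*W.a₃ + 4*x₁*x₂*W.a₂ + 2*x₁*x₂^2 + x₁*y₁*W.a₁ - x₁^2*W.a₂ + 2*x₁^2*x₂ - x₁^3 - 2*y₂*W.a₃ - 2*y₂^2 + y₁*W.a₃ + y₁^2 + x₁*W.a₄ + W.a₆) * h₁ + (x₁*x₂*W.a₁^2 - x₁^2*W.a₁^2 + x₂*W.a₁*W.a₃ + x₂*y₂*W.a₁ - x₂^2*W.a₂ - x₂^3 - x₁*W.a₁*W.a₃ + 4*x₁*x₂*W.a₂ + 2*x₁*x₂^2 - 4*x₁^2*W.a₂ + 2*x₁^2*x₂ - 4*x₁^3 + y₂*W.a₃ + y₂^2 + x₂*W.a₄ - 2*x₁*W.a₄ - W.a₆) * h₂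
  rw [e1, e2, div_mul_div_comm, key]
  field_simp

theorem addSubRel (P Q : W.Point) :
    AddSubRel W.b₂ W.b₄ W.b₆ W.b₈ (xN P) (xD P) (xN Q) (xD Q)
      (xN (P + Q)) (xD (P + Q)) (xN (P - Q)) (xD (P - Q)) := by
  rcases P with _ | ⟨x₁, y₁, h₁⟩
  · rw [← zero_def]
    refine ⟨1, one_ne_zero, ?_, ?_, ?_⟩ <;> simp <;> ring
  rcases Q with _ | ⟨x₂, y₂, h₂⟩
  · rw [← zero_def]
    refine ⟨1, one_ne_zero, ?_, ?_, ?_⟩ <;> simp <;> ring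
  by_cases hx : x₁ = x₂
  · subst hx
    by_cases hy : y₁ = W.negY x₁ y₂
    · -- P = -Q
      have hPQ : Point.some x₁ y₁ h₁ + Point.some x₁ y₂ h₂ = 0 := add_of_Y_eq rfl hy
      have hQ : - Point.some x₁ y₂ h₂ = Point.some x₁ y₁ h₁ := by
        rw [eq_comm, ← add_eq_zero_iff_eq_neg, hPQ]
      have hy2 : y₂ = W.negY x₁ y₁ := by rw [hy, negY_negY]
      rw [hPQ, sub_eq_add_neg, hQ]
      by_cases hyy : y₁ = W.negY x₁ y₁
      · rw [add_self_of_Y_eq hyy]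
        refine ⟨_, pow_ne_zero 2 (nonsing_X_ne h₁ hyy), ?_, ?_, ?_⟩
        · rw [phi_eq h₁.1 hyy]; simp; ring
        · have := psi_eq h₁.1
          rw [sub_eq_zero.mpr hyy] at this
          simp
          linear_combination this
        · simp; ring
      · rw [add_self_of_Y_ne hyy]
        refine ⟨_, pow_ne_zero 2 (sub_ne_zero.mpr hyy), ?_, ?_, ?_⟩
        · simp only [xN_zero, xN_some, xD_some, one_mul]
          rw [dup_rel h₁ hyy]; ring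
        · have := psi_eq h₁.1
          simp only [xN_zero, xN_some, xD_some, xD_zero, one_mul]
          linear_combination this
        · simp; ring
    · have hyy : y₁ = y₂ := Y_eq_of_Y_ne h₁.1 h₂.1 rfl hy
      subst hyy
      rw [sub_self, add_self_of_Y_ne hy]
      refine ⟨_, pow_ne_zero 2 (sub_ne_zero.mpr hy), ?_, ?_, ?_⟩
      · simp only [xN_zero, xN_some, xD_some, one_mul, mul_one]
        rw [dup_rel h₁ hy]; ring
      · have := psi_eq h₁.1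
        simp only [xN_zero, xN_some, xD_some, xD_zero, one_mul]
        linear_combination this
      · simp; ring
  · rw [sub_eq_add_neg, neg_some, add_of_X_ne hx, add_of_X_ne hx]
    refine ⟨_, pow_ne_zero 2 (sub_ne_zero.mpr hx), ?_, ?_, ?_⟩
    · simp only [xN_some, xD_some]
      rw [prod_rel h₁.1 h₂.1 hx]
      ring
    · simp only [xN_some, xD_some]
      have := sum_rel h₁.1 h₂.1 hx
      linear_combination this
    · simp only [xN_some, xD_some]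
      ring

end Point

end Fermat.Agent.ECRed
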