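import Mathlib

set_option autoImplicit false
set_option linter.unusedSectionVars false

namespace Fermat.Agent.ECRed

/-- A real valued (additive) valuation on a field, with junk value at `0`. -/
structure OrdFn (K : Type*) [Field K] where
  ord : K → ℝ
  ord_mul' : ∀ x y, x ≠ 0 → y ≠ 0 → ord (x * y) = ord x + ord y
  ord_add' : ∀ x y, x ≠ 0 → y ≠ 0 → x + y ≠ 0 → min (ord x) (ord y) ≤ ord (x + y)

namespace OrdFn

variable {K : Type*} [Field K] (v : OrdFn K)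

/-- `ord x ≥ c` -/
def Ge (c : ℝ) (x : K) : Prop := x = 0 ∨ c ≤ v.ord x
/-- `ord x > c` -/
def Gt (c : ℝ) (x : K) : Prop := x = 0 ∨ c < v.ord x
/-- `ord x = c` -/
def Eq (c : ℝ) (x : K) : Prop := x ≠ 0 ∧ v.ord x = c

variable {v} {c d : ℝ} {x y z : K}

lemma ord_mul (hx : x ≠ 0) (hy : y ≠ 0) : v.ord (x * y) = v.ord x + v.ord y :=
  v.ord_mul' x y hx hy

lemma ord_one : v.ord 1 = 0 := by
  have := v.ord_mul' 1 1 one_ne_zero one_ne_zero
  rw [mul_one] at this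
  linarith

lemma ord_neg_one : v.ord (-1) = 0 := by
  have := v.ord_mul' (-1) (-1) (neg_ne_zero.mpr one_ne_zero) (neg_ne_zero.mpr one_ne_zero)
  rw [neg_mul_neg, mul_one, ord_one] at this
  linarith

lemma ord_neg (x : K) : v.ord (-x) = v.ord x := by
  by_cases hx : x = 0
  · simp [hx]
  have := v.ord_mul' (-1) x (neg_ne_zero.mpr one_ne_zero) hx
  rw [ord_neg_one, neg_one_mul] at this
  linarith

lemma ord_inv (x : K) (hx : x ≠ 0) : v.ord x⁻¹ = - v.ord x := by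
  have := v.ord_mul' x x⁻¹ hx (inv_ne_zero hx)
  rw [mul_inv_cancel₀ hx, ord_one] at this
  linarith

lemma ord_pow (hx : x ≠ 0) (n : ℕ) : v.ord (x ^ n) = n * v.ord x := by
  induction n with
  | zero => simp [ord_one]
  | succ n ih =>
    rw [pow_succ, ord_mul (pow_ne_zero n hx) hx, ih]
    push_cast; ring

lemma ord_zpow (hx : x ≠ 0) (n : ℤ) : v.ord (x ^ n) = n * v.ord x := by
  cases n with
  | ofNat n => simp [ord_pow hx]
  | negSucc n =>
    rw [zpow_negSucc, ord_inv _ (pow_ne_zero _ hx), ord_pow hx]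
    push_cast; ring

lemma Ge.zero : v.Ge c 0 := Or.inl rfl
lemma Gt.zero : v.Gt c 0 := Or.inl rfl

lemma Gt.ge (h : v.Gt c x) : v.Ge c x := h.imp id le_of_lt
lemma Eq.ge (h : v.Eq c x) : v.Ge c x := Or.inr h.2.ge
lemma Eq.ne (h : v.Eq c x) : x ≠ 0 := h.1

lemma Ge.mono (h : v.Ge c x) (hd : d ≤ c) : v.Ge d x := h.imp id (le_trans hd)
lemma Gt.mono (h : v.Gt c x) (hd : d ≤ c) : v.Gt d x := h.imp id (lt_of_le_of_lt hd)
lemma Ge.gt (h : v.Ge c x) (hd : d < c) : v.Gt d x := h.imp id (lt_of_lt_of_le hd)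
lemma Eq.gt (h : v.Eq c x) (hd : d < c) : v.Gt d x := h.ge.gt hd

lemma ge_iff (hx : x ≠ 0) : v.Ge c x ↔ c ≤ v.ord x := by simp [Ge, hx]
lemma gt_iff (hx : x ≠ 0) : v.Gt c x ↔ c < v.ord x := by simp [Gt, hx]

lemma not_ge_iff : ¬ v.Ge c x ↔ x ≠ 0 ∧ v.ord x < c := by simp [Ge, not_or]
lemma not_gt_iff : ¬ v.Gt c x ↔ x ≠ 0 ∧ v.ord x ≤ c := by simp [Gt, not_or]

lemma Eq.unique (h : v.Eq c x) (h' : v.Eq d x) : c = d := h.2.symm.trans h'.2

lemma Eq.not_gt (h : v.Eq c x) : ¬ v.Gt c x := by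
  rw [not_gt_iff]; exact ⟨h.1, h.2.le⟩

lemma Ge.add (hx : v.Ge c x) (hy : v.Ge c y) : v.Ge c (x + y) := by
  rcases hx with rfl | hx
  · simpa using hy
  rcases hy with rfl | hy
  · right; simpa using hx
  by_cases hx0 : x = 0
  · subst hx0; right; simpa using hy
  by_cases hy0 : y = 0
  · subst hy0; right; simpa using hx
  by_cases h : x + y = 0
  · left; exact h
  · right; exact (le_min hx hy).trans (v.ord_add' x y hx0 hy0 h)

lemma Gt.add (hx : v.Gt c x) (hy : v.Gt c y) : v.Gt c (x + y) := by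
  by_cases hx0 : x = 0
  · subst hx0; simpa using hy
  by_cases hy0 : y = 0
  · subst hy0; simpa using hx
  rw [gt_iff hx0] at hx
  rw [gt_iff hy0] at hy
  by_cases h : x + y = 0
  · left; exact h
  · right; exact (lt_min hx hy).trans_le (v.ord_add' x y hx0 hy0 h)

lemma Ge.neg (hx : v.Ge c x) : v.Ge c (-x) := by
  rcases hx with rfl | hx
  · simp [Ge]
  · right; rwa [ord_neg]

lemma Gt.neg (hx : v.Gt c x) : v.Gt c (-x) := by
  rcases hx with rfl | hx
  · simp [Gt]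
  · right; rwa [ord_neg]

lemma Eq.neg (hx : v.Eq c x) : v.Eq c (-x) := ⟨neg_ne_zero.mpr hx.1, by rw [ord_neg]; exact hx.2⟩

lemma Ge.sub (hx : v.Ge c x) (hy : v.Ge c y) : v.Ge c (x - y) := by
  rw [sub_eq_add_neg]; exact hx.add hy.neg

lemma Gt.sub (hx : v.Gt c x) (hy : v.Gt c y) : v.Gt c (x - y) := by
  rw [sub_eq_add_neg]; exact hx.add hy.neg

lemma Ge.mul (hx : v.Ge c x) (hy : v.Ge d y) : v.Ge (c + d) (x * y) := by
  by_cases hx0 : x = 0
  · left; simp [hx0]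
  by_cases hy0 : y = 0
  · left; simp [hy0]
  rw [ge_iff hx0] at hx
  rw [ge_iff hy0] at hy
  right; rw [ord_mul hx0 hy0]; linarith

lemma Gt.mul_ge (hx : v.Gt c x) (hy : v.Ge d y) : v.Gt (c + d) (x * y) := by
  by_cases hx0 : x = 0
  · left; simp [hx0]
  by_cases hy0 : y = 0
  · left; simp [hy0]
  rw [gt_iff hx0] at hx
  rw [ge_iff hy0] at hy
  right; rw [ord_mul hx0 hy0]; linarith

lemma Ge.mul_gt (hx : v.Ge c x) (hy : v.Gt d y) : v.Gt (c + d) (x * y) := by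
  rw [mul_comm, add_comm]; exact hy.mul_ge hx

lemma Eq.mul (hx : v.Eq c x) (hy : v.Eq d y) : v.Eq (c + d) (x * y) :=
  ⟨mul_ne_zero hx.1 hy.1, by rw [ord_mul hx.1 hy.1, hx.2, hy.2]⟩

lemma Eq.inv (hx : v.Eq c x) : v.Eq (-c) x⁻¹ :=
  ⟨inv_ne_zero hx.1, by rw [ord_inv _ hx.1, hx.2]⟩

lemma Eq.pow (hx : v.Eq c x) (n : ℕ) : v.Eq (n * c) (x ^ n) :=
  ⟨pow_ne_zero n hx.1, by rw [ord_pow hx.1, hx.2]⟩

lemma Ge.pow_two (hx : v.Ge c x) : v.Ge (2 * c) (x ^ 2) := by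
  rw [two_mul, _root_.pow_two]; exact hx.mul hx

lemma Eq.pow_two (hx : v.Eq c x) : v.Eq (2 * c) (x ^ 2) := by
  rw [two_mul, _root_.pow_two]; exact hx.mul hx

lemma Eq.add_gt (hx : v.Eq c x) (hy : v.Gt c y) : v.Eq c (x + y) := by
  by_cases hy0 : y = 0
  · subst hy0; simpa using hx
  have hy' := (gt_iff hy0).mp hy
  have h0 : x + y ≠ 0 := by
    intro h0
    have : x = -y := eq_neg_of_add_eq_zero_left h0
    have h2 := hx.2
    rw [this, ord_neg] at h2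
    linarith
  refine ⟨h0, le_antisymm ?_ ?_⟩
  · by_contra hlt
    push Not at hlt
    have : v.Gt c ((x + y) + (-y)) := Gt.add ((gt_iff h0).mpr hlt) hy.neg
    rw [add_neg_cancel_right] at this
    exact hx.not_gt this
  · exact (ge_iff h0).mp (hx.ge.add hy.ge)

lemma Eq.sub_gt (hx : v.Eq c x) (hy : v.Gt c y) : v.Eq c (x - y) := by
  rw [sub_eq_add_neg]; exact hx.add_gt hy.neg

lemma Gt.add_eq (hy : v.Gt c y) (hx : v.Eq c x) : v.Eq c (y + x) := by
  rw [add_comm]; exact hx.add_gt hy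

lemma eq_one : v.Eq 0 (1 : K) := ⟨one_ne_zero, ord_one⟩

lemma eq_self (hx : x ≠ 0) : v.Eq (v.ord x) x := ⟨hx, rfl⟩

lemma ge_natCast (n : ℕ) : v.Ge 0 (n : K) := by
  induction n with
  | zero => left; simp
  | succ n ih => push_cast; exact ih.add eq_one.ge

lemma ge_intCast (n : ℤ) : v.Ge 0 (n : K) := by
  cases n with
  | ofNat n => simpa using ge_natCast n
  | negSucc n =>
    rw [Int.cast_negSucc]
    exact (ge_natCast _).neg

lemma ge_ofNat (n : ℕ) [n.AtLeastTwo] : v.Ge 0 (OfNat.ofNat n : K) := by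
  have := ge_natCast (v := v) (OfNat.ofNat n)
  rwa [Nat.cast_ofNat] at this

lemma Ge.natCast_mul (n : ℕ) (hx : v.Ge c x) : v.Ge c ((n : K) * x) := by
  have := (ge_natCast (v := v) n).mul hx
  simpa using this

lemma Gt.natCast_mul (n : ℕ) (hx : v.Gt c x) : v.Gt c ((n : K) * x) := by
  have := (ge_natCast (v := v) n).mul_gt hx
  simpa using this

lemma Ge.zero_mul (hx : v.Ge 0 x) (hy : v.Ge c y) : v.Ge c (x * y) := by
  simpa using hx.mul hy

lemma Ge.zero_mul_gt (hx : v.Ge 0 x) (hy : v.Gt c y) : v.Gt c (x * y) := by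
  simpa using hx.mul_gt hy

lemma Eq.of_mul_eq (h : v.Eq c (x * y)) (hx : v.Eq d x) : v.Eq (c - d) y := by
  have hy : y ≠ 0 := right_ne_zero_of_mul h.1
  refine ⟨hy, ?_⟩
  have := h.2
  rw [ord_mul hx.1 hy, hx.2] at this
  linarith

/-- from `ord (x*y) ≥ c`, `ord x = d` deduce `ord y ≥ c-d`. -/
lemma Ge.of_mul_eq (h : v.Ge c (x * y)) (hx : v.Eq d x) : v.Ge (c - d) y := by
  by_cases hy : y = 0
  · left; exact hy
  rw [ge_iff (mul_ne_zero hx.1 hy), ord_mul hx.1 hy, hx.2] at h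
  right; linarith

lemma Gt.of_mul_eq (h : v.Gt c (x * y)) (hx : v.Eq d x) : v.Gt (c - d) y := by
  by_cases hy : y = 0
  · left; exact hy
  rw [gt_iff (mul_ne_zero hx.1 hy), ord_mul hx.1 hy, hx.2] at h
  right; linarith

end OrdFn

end Fermat.Agent.ECRed
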