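import Fermat.Agent.ECRed.Kummer
import Fermat.Agent.ECRed.Ord

set_option autoImplicit false
set_option linter.unusedSectionVars false

namespace Fermat.Agent.ECRed

/-- Kummer line of an elliptic curve, abstractly: a group `G` with a projective `x`-coordinate
`(N : D)`. -/
structure KummerLine (G : Type*) [AddCommGroup G] (K : Type*) [Field K] where
  N : G → K
  D : G → K
  b₂ : K
  b₄ : K
  b₆ : K
  b₈ : K
  rel_b : 4 * b₈ = b₂ * b₆ - b₄ ^ 2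
  N_zero : N 0 = 1
  D_zero : D 0 = 0
  D_ne : ∀ P, P ≠ 0 → D P = 1
  N_neg : ∀ P, N (-P) = N P
  addSub : ∀ P Q, AddSubRel b₂ b₄ b₆ b₈ (N P) (D P) (N Q) (D Q)
    (N (P + Q)) (D (P + Q)) (N (P - Q)) (D (P - Q))

namespace KummerLine

variable {G : Type*} [AddCommGroup G] {K : Type*} [Field K] (κ : KummerLine G K)

lemma D_neg (P : G) : κ.D (-P) = κ.D P := by
  by_cases h : P = 0
  · simp [h]
  · rw [κ.D_ne _ h, κ.D_ne _ (neg_ne_zero.mpr h)]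

/-- translation of the x-coordinate by `r` -/
def translate (r : K) : KummerLine G K where
  N P := κ.N P - r * κ.D P
  D := κ.D
  b₂ := κ.b₂ + 12 * r
  b₄ := κ.b₄ + r * κ.b₂ + 6 * r ^ 2
  b₆ := κ.b₆ + 2 * r * κ.b₄ + r ^ 2 * κ.b₂ + 4 * r ^ 3
  b₈ := κ.b₈ + 3 * r * κ.b₆ + 3 * r ^ 2 * κ.b₄ + r ^ 3 * κ.b₂ + 3 * r ^ 4
  rel_b := by linear_combination κ.rel_b
  N_zero := by simp [κ.N_zero, κ.D_zero]
  D_zero := κ.D_zero
  D_ne := κ.D_ne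
  N_neg P := by rw [κ.N_neg, κ.D_neg]
  addSub P Q := by
    obtain ⟨l, hl, h2, h1, h0⟩ := κ.addSub P Q
    refine ⟨l, hl, ?_, ?_, ?_⟩
    · linear_combination h2 - r * h1 + r ^ 2 * h0
    · linear_combination h1 - 2 * r * h0
    · linear_combination h0

/-- The Kummer line of a Weierstrass curve. -/
noncomputable def ofCurve [DecidableEq K] (W : WeierstrassCurve.Affine K) :
    KummerLine W.Point K where
  N := xN
  D := xD
  b₂ := W.b₂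
  b₄ := W.b₄
  b₆ := W.b₆
  b₈ := W.b₈
  rel_b := W.b_relation
  N_zero := xN_zero
  D_zero := xD_zero
  D_ne P hP := by
    rcases P with _ | ⟨x, y, h⟩
    · exact absurd rfl hP
    · simp
  N_neg := xN_neg
  addSub := addSubRel

/-- `ψ₂²` -/
def psi (x : K) : K := 4 * x ^ 3 + κ.b₂ * x ^ 2 + 2 * κ.b₄ * x + κ.b₆

/-- numerator of duplication -/
def phi (x : K) : K := x ^ 4 - κ.b₄ * x ^ 2 - 2 * κ.b₆ * x - κ.b₈

/-- discriminant -/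
def disc : K := -κ.b₂ ^ 2 * κ.b₈ - 8 * κ.b₄ ^ 3 - 27 * κ.b₆ ^ 2 + 9 * κ.b₂ * κ.b₄ * κ.b₆

lemma dup {P : G} (hP : P ≠ 0) (h2 : P + P ≠ 0) :
    κ.psi (κ.N P) ≠ 0 ∧ κ.psi (κ.N P) * κ.N (P + P) = κ.phi (κ.N P) := by
  obtain ⟨l, hl, h2, h1, h0⟩ := κ.addSub P P
  rw [κ.D_ne _ hP, κ.D_ne _ ‹P + P ≠ 0›, sub_self, κ.N_zero, κ.D_zero] at *
  have e : l = κ.psi (κ.N P) := by rw [psi]; linear_combination h1
  refine ⟨e ▸ hl, ?_⟩
  rw [← e, phi]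
  linear_combination h2

lemma add_sub_ne {P Q : G} (hP : P ≠ 0) (hQ : Q ≠ 0) (h1 : P ≠ Q) (h2 : P ≠ -Q) :
    κ.N P ≠ κ.N Q ∧
    (κ.N P - κ.N Q) ^ 2 * (κ.N (P + Q) + κ.N (P - Q)) =
      2 * (κ.N P + κ.N Q) * (κ.N P * κ.N Q) + κ.b₂ * (κ.N P * κ.N Q) +
        κ.b₄ * (κ.N P + κ.N Q) + κ.b₆ ∧
    (κ.N P - κ.N Q) ^ 2 * (κ.N (P + Q) * κ.N (P - Q)) =
      (κ.N P * κ.N Q) ^ 2 - κ.b₄ * (κ.N P * κ.N Q) - κ.b₆ * (κ.N P + κ.N Q) - κ.b₈ := by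
  have hs : P - Q ≠ 0 := sub_ne_zero.mpr h1
  have ha : P + Q ≠ 0 := fun h => h2 (eq_neg_of_add_eq_zero_left h)
  obtain ⟨l, hl, e2, e1, e0⟩ := κ.addSub P Q
  rw [κ.D_ne _ hP, κ.D_ne _ hQ, κ.D_ne _ hs, κ.D_ne _ ha] at *
  have e : l = (κ.N P - κ.N Q) ^ 2 := by linear_combination e0
  subst e
  refine ⟨?_, ?_, ?_⟩
  · intro h; apply hl; rw [h]; ring
  · linear_combination e1
  · linear_combination e2

/-- Bezout-type relation: `ψ` and `φ` generate the discriminant. -/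
lemma disc_eq (x : K) : κ.disc =
    (-48 * x ^ 2 - 8 * κ.b₂ * x + (κ.b₂ ^ 2 - 32 * κ.b₄)) * κ.phi x +
    (12 * x ^ 3 - κ.b₂ * x ^ 2 - 10 * κ.b₄ * x + (κ.b₂ * κ.b₄ - 27 * κ.b₆)) * κ.psi x := by
  rw [disc, phi, psi]
  linear_combination (-2 * x * κ.b₂ - 12 * x ^ 2 - 8 * κ.b₄) * κ.rel_b

section Ord

variable (v : OrdFn K)

/-- all b-invariants are integral -/
structure Integral : Prop where
  b₂ : v.Ge 0 κ.b₂
  b₄ : v.Ge 0 κ.b₄
  b₆ : v.Ge 0 κ.b₆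
  b₈ : v.Ge 0 κ.b₈

/-- inverse of the x-coordinate -/
def w (P : G) : K := κ.D P / κ.N P

/-- kernel of reduction -/
def E1 (c : ℝ) (P : G) : Prop := κ.N P ≠ 0 ∧ v.Ge c (κ.w P)

variable {κ v}

open OrdFn

/-- if sum and product of two elements are small then both are small -/
lemma ge_of_add_mul {c : ℝ} {x y : K} (hs : v.Ge c (x + y)) (hp : v.Ge (2 * c) (x * y)) :
    v.Ge c x ∧ v.Ge c y := by
  have key : ∀ x y : K, v.Ge c (x + y) → v.Ge (2 * c) (x * y) → v.Ge c x := by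
    intro x y hs hp
    by_contra hx
    rw [not_ge_iff] at hx
    have hy : v.Ge c y := by
      refine (hp.of_mul_eq (OrdFn.eq_self hx.1)).mono ?_
      linarith [hx.2]
    have : v.Ge c ((x + y) - y) := hs.sub hy
    rw [add_sub_cancel_right, ge_iff hx.1] at this
    linarith [hx.2]
  exact ⟨key x y hs hp, key y x (by rwa [add_comm]) (by rwa [mul_comm y x])⟩

lemma w_rel (hb : κ.Integral v) {c : ℝ} (hc : 0 < c) {P Q : G} (hP : κ.E1 v c P)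
    (hQ : κ.E1 v c Q) :
    κ.E1 v c (P + Q) ∧ κ.E1 v c (P - Q) ∧
      v.Ge (2 * c) (κ.w (P + Q) + κ.w (P - Q) - 2 * (κ.w P + κ.w Q)) := by
  obtain ⟨l, hl, h2, h1, h0⟩ := κ.addSub P Q
  obtain ⟨hP0, hP1⟩ := hP
  obtain ⟨hQ0, hQ1⟩ := hQ
  have eP : κ.D P = κ.w P * κ.N P := by rw [w]; field_simp
  have eQ : κ.D Q = κ.w Q * κ.N Q := by rw [w]; field_simp
  rw [eP, eQ] at h2 h1 h0
  set m := l / (κ.N P * κ.N Q) ^ 2 with hm
  have hm' : l = m * (κ.N P * κ.N Q) ^ 2 := by rw [hm]; field_simp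
  have hm0 : m ≠ 0 := by rw [hm]; positivity
  have hPQ : v.Ge (c + c) (κ.w P * κ.w Q) := hP1.mul hQ1
  have hPQs : v.Ge c (κ.w P + κ.w Q) := hP1.add hQ1
  set f2 := 1 - κ.b₄ * (κ.w P * κ.w Q) - κ.b₆ * ((κ.w P * κ.w Q) * (κ.w P + κ.w Q)) -
    κ.b₈ * (κ.w P * κ.w Q) ^ 2 with hf2
  set f1 := 2 * (κ.w P + κ.w Q) + κ.b₂ * (κ.w P * κ.w Q) +
    κ.b₄ * ((κ.w P * κ.w Q) * (κ.w P + κ.w Q)) + κ.b₆ * (κ.w P * κ.w Q) ^ 2 with hf1
  set f0 := (κ.w P + κ.w Q) ^ 2 - 4 * (κ.w P * κ.w Q) with hf0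
  have hNN : (κ.N P * κ.N Q) ^ 2 ≠ 0 := by positivity
  have g2 : m * (κ.N (P + Q) * κ.N (P - Q)) = f2 := by
    apply mul_left_cancel₀ hNN
    rw [hf2]
    rw [hm'] at h2
    linear_combination h2
  have g1 : m * (κ.N (P + Q) * κ.D (P - Q) + κ.D (P + Q) * κ.N (P - Q)) = f1 := by
    apply mul_left_cancel₀ hNN
    rw [hf1]
    rw [hm'] at h1
    linear_combination h1
  have g0 : m * (κ.D (P + Q) * κ.D (P - Q)) = f0 := by
    apply mul_left_cancel₀ hNN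
    rw [hf0]
    rw [hm'] at h0
    linear_combination h0
  have e1 : v.Ge (2 * c) (1 - f2) := by
    have : 1 - f2 = κ.b₄ * (κ.w P * κ.w Q) + κ.b₆ * ((κ.w P * κ.w Q) * (κ.w P + κ.w Q)) +
      κ.b₈ * (κ.w P * κ.w Q) ^ 2 := by rw [hf2]; ring
    rw [this]
    refine ((hb.b₄.mul hPQ).mono (by linarith)).add ((hb.b₆.mul (hPQ.mul hPQs)).mono
      (by linarith)) |>.add ((hb.b₈.mul hPQ.pow_two).mono (by linarith))
  have e2 : v.Eq 0 f2 := by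
    have : f2 = 1 - (1 - f2) := by ring
    rw [this]
    exact eq_one.sub_gt (e1.gt (by linarith))
  have e3 : v.Ge (2 * c) (f1 - 2 * (κ.w P + κ.w Q)) := by
    have : f1 - 2 * (κ.w P + κ.w Q) = κ.b₂ * (κ.w P * κ.w Q) +
      κ.b₄ * ((κ.w P * κ.w Q) * (κ.w P + κ.w Q)) + κ.b₆ * (κ.w P * κ.w Q) ^ 2 := by
      rw [hf1]; ring
    rw [this]
    refine ((hb.b₂.mul hPQ).mono (by linarith)).add ((hb.b₄.mul (hPQ.mul hPQs)).mono
      (by linarith)) |>.add ((hb.b₆.mul hPQ.pow_two).mono (by linarith))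
  have e3' : v.Ge c f1 := by
    have : f1 = (f1 - 2 * (κ.w P + κ.w Q)) + 2 * (κ.w P + κ.w Q) := by ring
    rw [this]
    exact (e3.mono (by linarith)).add ((ge_ofNat 2).zero_mul hPQs)
  have e4 : v.Ge (2 * c) f0 := by
    rw [hf0]
    exact (hPQs.pow_two).sub ((ge_ofNat 4).zero_mul (hPQ.mono (by linarith)))
  have hnn : κ.N (P + Q) * κ.N (P - Q) ≠ 0 := right_ne_zero_of_mul (g2 ▸ e2.ne)
  have hnS : κ.N (P + Q) ≠ 0 := left_ne_zero_of_mul hnn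
  have hnM : κ.N (P - Q) ≠ 0 := right_ne_zero_of_mul hnn
  have k1 : f2 * (κ.w (P + Q) + κ.w (P - Q)) = f1 := by
    rw [← g2, ← g1, w, w]; field_simp; ring
  have k0 : f2 * (κ.w (P + Q) * κ.w (P - Q)) = f0 := by
    rw [← g2, ← g0, w, w]; field_simp
  have s1 : v.Ge c (κ.w (P + Q) + κ.w (P - Q)) := by
    have := (k1 ▸ e3' : v.Ge c (f2 * (κ.w (P + Q) + κ.w (P - Q)))).of_mul_eq e2
    simpa using this
  have s0 : v.Ge (2 * c) (κ.w (P + Q) * κ.w (P - Q)) := by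
    have := (k0 ▸ e4 : v.Ge (2 * c) (f2 * (κ.w (P + Q) * κ.w (P - Q)))).of_mul_eq e2
    simpa using this
  obtain ⟨hS, hM⟩ := ge_of_add_mul s1 s0
  refine ⟨⟨hnS, hS⟩, ⟨hnM, hM⟩, ?_⟩
  have : κ.w (P + Q) + κ.w (P - Q) - 2 * (κ.w P + κ.w Q) =
    (f1 - 2 * (κ.w P + κ.w Q)) + (κ.w (P + Q) + κ.w (P - Q)) * (1 - f2) := by
    linear_combination k1
  rw [this]
  exact e3.add ((s1.mul e1).mono (by linarith))

lemma w_nsmul (hb : κ.Integral v) {c : ℝ} (hc : 0 < c) {P : G} (hP : κ.E1 v c P) (n : ℕ) :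
    κ.E1 v c (n • P) ∧ v.Gt c (κ.w (n • P) - n ^ 2 * κ.w P) := by
  suffices h : (κ.E1 v c (n • P) ∧ v.Gt c (κ.w (n • P) - n ^ 2 * κ.w P)) ∧
      (κ.E1 v c ((n + 1) • P) ∧ v.Gt c (κ.w ((n + 1) • P) - (n + 1 : ℕ) ^ 2 * κ.w P)) from h.1
  induction n with
  | zero =>
    refine ⟨⟨⟨?_, ?_⟩, ?_⟩, ?_, ?_⟩
    · rw [zero_smul, κ.N_zero]; exact one_ne_zero
    · left; rw [zero_smul, w, κ.D_zero, zero_div]
    · left; rw [zero_smul, w, κ.D_zero, zero_div]; simp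
    · simpa using hP
    · left; simp
  | succ n ih =>
    obtain ⟨⟨h1, h2⟩, h3, h4⟩ := ih
    refine ⟨⟨h3, h4⟩, ?_⟩
    obtain ⟨hS, -, hr⟩ := w_rel hb hc h3 hP
    have eS : (n + 1) • P + P = (n + 1 + 1) • P := by rw [succ_nsmul _ (n + 1)]
    have eM : (n + 1) • P - P = n • P := by rw [succ_nsmul]; abel
    rw [eS] at hS hr
    rw [eM] at hr
    refine ⟨hS, ?_⟩
    have : κ.w ((n + 1 + 1) • P) - ((n + 1 + 1 : ℕ) : K) ^ 2 * κ.w P =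
      (κ.w ((n + 1 + 1) • P) + κ.w (n • P) - 2 * (κ.w ((n + 1) • P) + κ.w P)) +
      2 * (κ.w ((n + 1) • P) - ((n + 1 : ℕ) : K) ^ 2 * κ.w P) - 
      (κ.w (n • P) - n ^ 2 * κ.w P) := by
      push_cast; ring
    rw [this]
    exact ((hr.gt (by linarith)).add ((ge_ofNat 2).zero_mul_gt h4)).sub h2

/-- The kernel of reduction has no `n`-torsion if `n` is a unit. -/
theorem integral_of_torsion (hb : κ.Integral v) {n : ℕ} (hn : v.Eq 0 (n : K)) {P : G}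
    (hP0 : P ≠ 0) (hP : n • P = 0) : v.Ge 0 (κ.N P) := by
  by_contra h
  rw [not_ge_iff] at h
  have hc : 0 < - v.ord (κ.N P) := by linarith [h.2]
  have hw : κ.w P = (κ.N P)⁻¹ := by rw [w, κ.D_ne P hP0, one_div]
  have hwP : v.Eq (- v.ord (κ.N P)) (κ.w P) := by
    rw [hw]; exact (OrdFn.eq_self h.1).inv
  obtain ⟨-, h2⟩ := w_nsmul hb hc (P := P) ⟨h.1, hwP.ge⟩ n
  rw [hP, w, κ.D_zero, zero_div, zero_sub] at h2
  have h3 := ((hn.pow_two).mul hwP).neg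
  rw [mul_zero, zero_add] at h3
  exact h3.not_gt h2

end Ord

end KummerLine

end Fermat.Agent.ECRed
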