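import Fermat.Agent.ECRed.Red

set_option autoImplicit false
set_option linter.unusedSectionVars false

namespace Fermat.Agent.ECRed

namespace KummerLine

open OrdFn

variable {G : Type*} [AddCommGroup G] {K : Type*} [Field K] (κ : KummerLine G K) (v : OrdFn K)

/-- Multiplicative reduction with node at `x = 0`; the discriminant has order `2 * m`. -/
structure MultAt (m : ℝ) : Prop where
  pos : 0 < m
  b₂ : v.Eq 0 κ.b₂
  b₄ : v.Ge m κ.b₄
  b₆ : v.Ge (2 * m) κ.b₆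
  b₈ : v.Eq (2 * m) κ.b₈

variable {κ v} {m : ℝ}

lemma MultAt.integral (h : κ.MultAt v m) : κ.Integral v :=
  ⟨h.b₂.ge, h.b₄.mono h.pos.le, h.b₆.mono (by linarith [h.pos]), h.b₈.ge.mono (by linarith [h.pos])⟩

lemma F1_eq (h : κ.MultAt v m) {a b : ℝ} {x y : K} (ha : v.Eq a x) (hb : v.Eq b y)
    (ha0 : 0 < a) (hb0 : 0 < b) (ham : a < m) (hbm : b < m) :
    v.Eq (a + b) (κ.F1 x y) := by
  have hm := h.pos
  have hxy : v.Eq (a + b) (x * y) := ha.mul hb
  have hs : v.Ge (min a b) (x + y) := (ha.ge.mono (min_le_left _ _)).add (hb.ge.mono (min_le_right _ _))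
  have hmin : 0 < min a b := lt_min ha0 hb0
  have hmm : a + b < m + min a b := by
    rcases le_total a b with h | h
    · rw [min_eq_left h]; linarith
    · rw [min_eq_right h]; linarith
  have e : κ.F1 x y = κ.b₂ * (x * y) + (2 * (x + y) * (x * y) + κ.b₄ * (x + y) + κ.b₆) := by
    rw [F1]; ring
  rw [e]
  have e1 : v.Eq (a + b) (κ.b₂ * (x * y)) := by simpa using h.b₂.mul hxy
  refine e1.add_gt (((Gt.add ?_ ?_)).add ?_)
  · exact ((((ge_ofNat 2).mul hs).mul hxy.ge)).gt (by linarith)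
  · exact (h.b₄.mul hs).gt hmm
  · exact h.b₆.gt (by linarith)

lemma F1_ge (h : κ.MultAt v m) {a : ℝ} {x y : K} (ha : v.Eq a x) (hb : v.Eq 0 y)
    (ha0 : 0 < a) (ham : a < m) :
    v.Ge a (κ.F1 x y) := by
  have hm := h.pos
  have hxy : v.Eq (a + 0) (x * y) := ha.mul hb
  have hs : v.Ge 0 (x + y) := (ha.ge.mono ha0.le).add hb.ge
  rw [F1]
  refine (((((ge_ofNat 2).mul hs).mul hxy.ge).mono (by linarith)).add
    ((h.b₂.mul hxy).ge.mono (by linarith))).add ((h.b₄.mul hs).mono (by linarith))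
    |>.add (h.b₆.mono (by linarith))

lemma F2_lt (h : κ.MultAt v m) {a b : ℝ} {x y : K} (ha : v.Eq a x) (hb : v.Eq b y)
    (ha0 : 0 ≤ a) (hb0 : 0 ≤ b) (hab : a + b < m) :
    v.Eq (2 * (a + b)) (κ.F2 x y) := by
  have hm := h.pos
  have hxy : v.Eq (a + b) (x * y) := ha.mul hb
  have hs : v.Ge 0 (x + y) := (ha.ge.mono ha0).add (hb.ge.mono hb0)
  rw [F2]
  refine (hxy.pow_two.sub_gt ?_).sub_gt ?_ |>.sub_gt ?_
  · exact (h.b₄.mul hxy.ge).gt (by linarith)
  · exact (h.b₆.mul hs).gt (by linarith)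
  · exact h.b₈.gt (by linarith)

lemma F2_gt (h : κ.MultAt v m) {a b : ℝ} {x y : K} (ha : v.Eq a x) (hb : v.Eq b y)
    (ha0 : 0 < a) (hb0 : 0 < b) (hab : m < a + b) :
    v.Eq (2 * m) (κ.F2 x y) := by
  have hm := h.pos
  have hxy : v.Eq (a + b) (x * y) := ha.mul hb
  have hs : v.Gt 0 (x + y) := (ha.gt ha0).add (hb.gt hb0)
  have e : κ.F2 x y = -κ.b₈ + ((x * y) ^ 2 - κ.b₄ * (x * y) - κ.b₆ * (x + y)) := by
    rw [F2]; ring
  rw [e]
  refine h.b₈.neg.add_gt ((Gt.sub ?_ ?_).sub ?_)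
  · exact hxy.pow_two.gt (by linarith)
  · exact (h.b₄.mul hxy.ge).gt (by linarith)
  · simpa using (h.b₆.mul_gt hs)

lemma F2_eq (h : κ.MultAt v m) {a b : ℝ} {x y : K} (ha : v.Eq a x) (hb : v.Eq b y)
    (ha0 : 0 ≤ a) (hb0 : 0 ≤ b) (hab : a + b = m) :
    v.Ge (2 * m) (κ.F2 x y) := by
  have hm := h.pos
  have hxy : v.Eq (a + b) (x * y) := ha.mul hb
  have hs : v.Ge 0 (x + y) := (ha.ge.mono ha0).add (hb.ge.mono hb0)
  rw [F2]
  refine (Ge.sub ?_ ?_).sub ?_ |>.sub h.b₈.ge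
  · exact hxy.pow_two.ge.mono (by linarith)
  · exact (h.b₄.mul hxy.ge).mono (by linarith)
  · simpa using (h.b₆.mul hs)

lemma two_ne {n : ℕ} (hodd : Odd n) {P : G} (hP0 : P ≠ 0) (hP : n • P = 0) : P + P ≠ 0 := by
  intro h
  obtain ⟨k, rfl⟩ := hodd
  apply hP0
  have : (2 * k + 1) • P = k • (P + P) + P := by
    rw [add_smul, mul_comm 2 k, mul_smul, two_smul, one_smul]
  rw [this, h, smul_zero, zero_add] at hP
  exact hP

/-- doubling a torsion point with nonsingular nonzero-component... stays there -/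
lemma unit_double (h : κ.MultAt v m) {n : ℕ} (hn : v.Eq 0 (n : K)) (hodd : Odd n) {P : G}
    (hP0 : P ≠ 0) (hP : n • P = 0) (hx : v.Eq 0 (κ.N P)) :
    v.Eq 0 (κ.N (P + P)) := by
  have h2 := two_ne hodd hP0 hP
  obtain ⟨e0, e⟩ := κ.dup hP0 h2
  have hi := integral_of_torsion h.integral hn h2 (add_torsion hP hP)
  have hphi : v.Eq 0 (κ.phi (κ.N P)) := by
    rw [phi_eq_F2]
    have := F2_lt h hx hx le_rfl le_rfl (by linarith [h.pos])
    simpa using this
  have hpsi : v.Ge 0 (κ.psi (κ.N P)) := by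
    have hn : ∀ (k : ℕ) [k.AtLeastTwo], v.Ge 0 (OfNat.ofNat k : K) := fun k _ => ge_ofNat k
    have hx3 : v.Ge 0 (κ.N P ^ 3) := by
      have : κ.N P ^ 3 = κ.N P * (κ.N P * κ.N P) := by ring
      rw [this]; exact hx.ge.zero_mul (hx.ge.zero_mul hx.ge)
    have hx2 : v.Ge 0 (κ.N P ^ 2) := by
      have : κ.N P ^ 2 = (κ.N P * κ.N P) := by ring
      rw [this]; exact (hx.ge.zero_mul hx.ge)
    have hb := h.integral
    rw [psi]
    exact ((((hn 4).zero_mul hx3).add (hb.b₂.zero_mul hx2)).add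
      (((hn 2).zero_mul hb.b₄).zero_mul hx.ge)).add hb.b₆
  have h2N : κ.N (P + P) ≠ 0 := by
    intro h0; rw [h0, mul_zero] at e; exact hphi.ne e.symm
  refine ⟨h2N, le_antisymm ?_ ((ge_iff h2N).mp hi)⟩
  have := hphi.2
  rw [← e, ord_mul e0 h2N] at this
  have := (ge_iff e0).mp hpsi
  linarith

lemma two_pow_smul_ne {n : ℕ} (hodd : Odd n) {P : G} (hP0 : P ≠ 0) (hP : n • P = 0) (j : ℕ) :
    (2 ^ j) • P ≠ 0 := by
  induction j with
  | zero => simpa using hP0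
  | succ j ih =>
    have : 2 ^ (j + 1) • P = 2 ^ j • P + 2 ^ j • P := by rw [pow_succ, mul_comm, mul_smul, two_smul]
    rw [this]
    refine two_ne hodd ih ?_
    rw [smul_smul, mul_comm, mul_smul, hP, smul_zero]

lemma two_pow_totient_smul {n : ℕ} (hodd : Odd n) {P : G} (hP : n • P = 0) :
    (2 ^ n.totient) • P = P := by
  have hco : Nat.Coprime 2 n := by
    rw [Nat.coprime_two_left]; exact hodd
  have h := Nat.ModEq.pow_totient hco
  have hd : n ∣ 2 ^ n.totient - 1 := (Nat.modEq_iff_dvd' (Nat.one_le_two_pow)).mp h.symm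
  obtain ⟨k, hk⟩ := hd
  have h1 : 2 ^ n.totient = n * k + 1 := by
    have := Nat.one_le_two_pow (n := n.totient)
    omega
  rw [h1, add_smul, mul_comm, mul_smul, hP, smul_zero, one_smul, zero_add]

/-- torsion points of odd order do not lie close to the node -/
lemma not_ge (h : κ.MultAt v m) {n : ℕ} (hn : v.Eq 0 (n : K)) (hodd : Odd n) {P : G}
    (hP0 : P ≠ 0) (hP : n • P = 0) : κ.N P ≠ 0 ∧ v.ord (κ.N P) < m := by
  rw [← not_ge_iff]
  intro hx
  have hm := h.pos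
  have h2 := two_ne hodd hP0 hP
  obtain ⟨e0, e⟩ := κ.dup hP0 h2
  have hi := integral_of_torsion h.integral hn h2 (add_torsion hP hP)
  -- 2P is a unit
  have hphi : v.Eq (2 * m) (κ.phi (κ.N P)) := by
    have e : κ.phi (κ.N P) = - κ.b₈ + (κ.N P ^ 2 * κ.N P ^ 2 - κ.b₄ * κ.N P ^ 2 - 2 * κ.b₆ * κ.N P) := by
      rw [phi]; ring
    rw [e]
    refine h.b₈.neg.add_gt ((Gt.sub ?_ ?_).sub ?_)
    · exact (hx.pow_two.mul hx.pow_two).gt (by linarith)
    · exact (h.b₄.mul hx.pow_two).gt (by linarith)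
    · exact (((ge_ofNat 2).mul h.b₆).mul hx).gt (by linarith)
  have hpsi : v.Ge (2 * m) (κ.psi (κ.N P)) := by
    have e : κ.psi (κ.N P) = 4 * κ.N P * κ.N P ^ 2 + κ.b₂ * κ.N P ^ 2 + 2 * κ.b₄ * κ.N P + κ.b₆ := by
      rw [psi]; ring
    rw [e]
    refine (((((ge_ofNat 4).mul hx).mul hx.pow_two).mono (by linarith)).add
      ((h.b₂.ge.mul hx.pow_two).mono (by linarith))).add
      ((((ge_ofNat 2).mul h.b₄).mul hx).mono (by linarith)) |>.add h.b₆
  have h2N : κ.N (P + P) ≠ 0 := by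
    intro h0; rw [h0, mul_zero] at e; exact hphi.ne e.symm
  have h2u : v.Eq 0 (κ.N (P + P)) := by
    refine ⟨h2N, le_antisymm ?_ ((ge_iff h2N).mp hi)⟩
    have := hphi.2
    rw [← e, ord_mul e0 h2N] at this
    have := (ge_iff e0).mp hpsi
    linarith
  have hall : ∀ j : ℕ, v.Eq 0 (κ.N (2 ^ (j + 1) • P)) := by
    intro j
    induction j with
    | zero => rw [zero_add, pow_one, two_smul]; exact h2u
    | succ j ih =>
      have : 2 ^ (j + 1 + 1) • P = 2 ^ (j + 1) • P + 2 ^ (j + 1) • P := by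
        rw [pow_succ 2 (j + 1), mul_comm, mul_smul, two_smul]
      rw [this]
      refine unit_double h hn hodd (two_pow_smul_ne hodd hP0 hP _) ?_ ih
      rw [smul_smul, mul_comm, mul_smul, hP, smul_zero]
  have hpos : 0 < n.totient := Nat.totient_pos.mpr hodd.pos
  obtain ⟨j, hj⟩ := Nat.exists_eq_succ_of_ne_zero hpos.ne'
  have := hall j
  rw [← Nat.succ_eq_add_one, ← hj, two_pow_totient_smul hodd hP] at this
  exact this.not_gt (hx.gt hm)

end KummerLine

end Fermat.Agent.ECRed
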