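import Fermat.Agent.ECRed.Ord
import Fermat.Agent.DivPoly.Mul

set_option autoImplicit false
set_option linter.unusedSectionVars false

/-! # A Newton polygon argument, and unit coefficients of division polynomials -/

namespace Fermat.Agent.ECRed

open OrdFn Polynomial

section Newton

variable {K : Type*} [Field K] {v : OrdFn K}

lemma coeff_prod_one_sub (s : Multiset K) (hs : ∀ u ∈ s, v.Gt 0 u) :
    ((s.map fun u => 1 - C u * X).prod).coeff 0 = 1 ∧
      ∀ i, i ≠ 0 → v.Gt 0 (((s.map fun u => 1 - C u * X).prod).coeff i) := by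
  induction s using Multiset.induction with
  | empty =>
    simp only [Multiset.map_zero, Multiset.prod_zero]
    refine ⟨by simp, fun i hi => ?_⟩
    left
    rw [coeff_one, if_neg (fun h => hi h)]
  | cons u s ih =>
    obtain ⟨h0, h1⟩ := ih (fun w hw => hs w (Multiset.mem_cons_of_mem hw))
    have hu := hs u (Multiset.mem_cons_self u s)
    rw [Multiset.map_cons, Multiset.prod_cons]
    set g := (s.map fun u => 1 - C u * X).prod
    have hg : ∀ i, v.Ge 0 (g.coeff i) := by
      intro i
      by_cases hi : i = 0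
      · rw [hi, h0]; exact eq_one.ge
      · exact (h1 i hi).ge
    constructor
    · rw [sub_mul, one_mul, coeff_sub, mul_assoc, coeff_C_mul, coeff_X_mul_zero, h0]; simp
    · intro i hi
      obtain ⟨j, rfl⟩ := Nat.exists_eq_succ_of_ne_zero hi
      rw [sub_mul, one_mul, coeff_sub, mul_assoc, coeff_C_mul, coeff_X_mul]
      refine (h1 _ hi).sub ?_
      simpa using hu.mul_ge (hg j)

lemma prod_X_sub (s : Multiset K) (hs : ∀ u ∈ s, u ≠ 0) :
    ((s.map fun u => X - C u).prod) =
      C ((s.map fun u => -u).prod) * ((s.map fun u => 1 - C u⁻¹ * X).prod) := by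
  induction s using Multiset.induction with
  | empty => simp
  | cons u s ih =>
    have hu := hs u (Multiset.mem_cons_self u s)
    have ih' := ih (fun w hw => hs w (Multiset.mem_cons_of_mem hw))
    simp only [Multiset.map_cons, Multiset.prod_cons]
    rw [ih', C_mul]
    have : (X - C u : K[X]) = C (-u) * (1 - C u⁻¹ * X) := by
      rw [mul_sub, mul_one, ← mul_assoc, ← C_mul, neg_mul, mul_inv_cancel₀ hu]
      simp; ring
    rw [this]; ring

/-- if all roots have negative order then the constant coefficient dominates -/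
lemma coeff_eq_of_roots [IsAlgClosed K] {f : K[X]} (hf : f ≠ 0)
    (hroots : ∀ x, f.IsRoot x → ¬ v.Ge 0 x) :
    ∃ g : K[X], g.coeff 0 = 1 ∧ (∀ i, i ≠ 0 → v.Gt 0 (g.coeff i)) ∧
      ∀ i, f.coeff i = f.coeff 0 * g.coeff i := by
  have hne : ∀ u ∈ f.roots, u ≠ 0 := by
    intro u hu h0
    rw [mem_roots hf] at hu
    apply hroots u hu
    rw [h0]; exact Ge.zero
  have hinv : ∀ u ∈ f.roots.map (fun u => u⁻¹), v.Gt 0 u := by
    intro u hu
    rw [Multiset.mem_map] at hu
    obtain ⟨w, hw, rfl⟩ := hu
    have h1 := hroots w ((mem_roots hf).mp hw)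
    rw [not_ge_iff] at h1
    right
    rw [ord_inv _ h1.1]; linarith [h1.2]
  have h1 := coeff_prod_one_sub (v := v) (f.roots.map (fun u => u⁻¹)) hinv
  rw [Multiset.map_map] at h1
  refine ⟨_, h1.1, h1.2, ?_⟩
  have h2 : f = C f.leadingCoeff * (f.roots.map fun u => X - C u).prod :=
    (IsAlgClosed.splits f).eq_prod_roots
  rw [prod_X_sub _ hne, ← mul_assoc, ← C_mul] at h2
  have h3 : f.coeff 0 = f.leadingCoeff * (f.roots.map fun u => -u).prod := by
    have := congrArg (fun p => coeff p 0) h2
    simp only [coeff_C_mul] at this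
    rw [this]
    have h4 := h1.1
    simp only [Function.comp_def] at h4
    rw [h4, mul_one]
  intro i
  have := congrArg (fun p => coeff p i) h2
  simp only [coeff_C_mul] at this
  rw [this, ← h3]
  rfl

theorem newton [IsAlgClosed K] {f : K[X]} (hf : f ≠ 0)
    (hroots : ∀ x, f.IsRoot x → ¬ v.Ge 0 x) (hint : ∀ i, v.Ge 0 (f.coeff i))
    (hunit : ∃ i, v.Eq 0 (f.coeff i))
    (hdisc : ∀ i, v.Gt 0 (f.coeff i) → v.Ge 1 (f.coeff i))
    (hlead : v.Eq 1 (f.coeff f.natDegree)) (hd : 0 < f.natDegree) {x : K} (hx : f.IsRoot x) :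
    f.natDegree * v.ord x = -1 := by
  obtain ⟨g, g0, g1, hg⟩ := coeff_eq_of_roots hf hroots
  have h0 : v.Eq 0 (f.coeff 0) := by
    obtain ⟨i, hi⟩ := hunit
    by_cases hi0 : i = 0
    · rw [hi0] at hi; exact hi
    · exfalso
      rw [hg i] at hi
      exact hi.not_gt (by simpa using (hint 0).mul_gt (g1 i hi0))
  have h1 : ∀ i, i ≠ 0 → v.Ge 1 (f.coeff i) := by
    intro i hi
    apply hdisc
    rw [hg i]
    simpa using h0.ge.mul_gt (g1 i hi)
  have hxx := hroots x hx
  rw [not_ge_iff] at hxx
  obtain ⟨hx0, hxneg⟩ := hxx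
  set d := f.natDegree with hd'
  set a := - v.ord x with ha
  have hapos : 0 < a := by rw [ha]; linarith
  have hxi : ∀ i : ℕ, v.Eq (-(i * a)) (x ^ i) := by
    intro i
    have := (OrdFn.eq_self (v := v) hx0).pow i
    rwa [show (i : ℝ) * v.ord x = -(i * a) by rw [ha]; ring] at this
  have hterm : ∀ i : ℕ, i ≠ 0 → v.Ge (1 - i * a) (f.coeff i * x ^ i) := by
    intro i hi
    have := (h1 i hi).mul (hxi i).ge
    rwa [← sub_eq_add_neg] at this
  have hsum : ∑ i ∈ Finset.range (d + 1), f.coeff i * x ^ i = 0 := by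
    rw [← eval_eq_sum_range]; exact hx
  have hsumge : ∀ (s : Finset ℕ) (F : ℕ → K) (c : ℝ), (∀ i ∈ s, v.Gt c (F i)) →
      v.Gt c (∑ i ∈ s, F i) := by
    intro s F c
    induction s using Finset.induction with
    | empty => intro _; left; simp
    | insert i s hi ih =>
      intro h
      rw [Finset.sum_insert hi]
      exact (h i (Finset.mem_insert_self i s)).add
        (ih (fun j hj => h j (Finset.mem_insert_of_mem hj)))
  suffices hda : (d : ℝ) * a = 1 by
    rw [ha] at hda; linarith
  rcases lt_trichotomy ((d : ℝ) * a) 1 with hlt | heq | hgt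
  · exfalso
    rw [Finset.sum_range_succ'] at hsum
    have h2 : v.Gt 0 (∑ i ∈ Finset.range d, f.coeff (i + 1) * x ^ (i + 1)) := by
      apply hsumge
      intro i hi
      rw [Finset.mem_range] at hi
      refine (hterm (i + 1) (by omega)).gt ?_
      have : ((i + 1 : ℕ) : ℝ) ≤ d := by exact_mod_cast hi
      have := mul_le_mul_of_nonneg_right this hapos.le
      linarith
    have h3 : f.coeff 0 = -(∑ i ∈ Finset.range d, f.coeff (i + 1) * x ^ (i + 1)) := by
      rw [pow_zero, mul_one] at hsum
      linear_combination hsum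
    rw [h3] at h0
    exact h0.not_gt h2.neg
  · exact heq
  · exfalso
    rw [Finset.sum_range_succ] at hsum
    have h2 : v.Gt (1 - d * a) (∑ i ∈ Finset.range d, f.coeff i * x ^ i) := by
      apply hsumge
      intro i hi
      rw [Finset.mem_range] at hi
      by_cases hi0 : i = 0
      · rw [hi0, pow_zero, mul_one]
        exact h0.gt (by linarith)
      · refine (hterm i hi0).gt ?_
        have : (i : ℝ) < d := by exact_mod_cast hi
        have := mul_lt_mul_of_pos_right this hapos
        linarith
    have h3 : v.Eq (1 - d * a) (f.coeff d * x ^ d) := by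
      have := hlead.mul (hxi d)
      rwa [← sub_eq_add_neg] at this
    have h4 : f.coeff d * x ^ d = -(∑ i ∈ Finset.range d, f.coeff i * x ^ i) := by
      linear_combination hsum
    rw [h4] at h3
    exact h3.not_gt h2.neg

end Newton

section Residue

open WeierstrassCurve

variable {K : Type*} [Field K] (A : ValuationSubring K)

/-- If the reduction has a nonsingular point of order two then the value of the odd division
polynomials at its `x`-coordinate is a unit. -/
theorem eval_preΨ_unit (W : WeierstrassCurve A) {x y : A} (hE : W.toAffine.Equation x y)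
    (h2 : 2 * y + W.a₁ * x + W.a₃ = 0)
    (hns : IsUnit (3 * x ^ 2 + 2 * W.a₂ * x + W.a₄ - W.a₁ * y)) {n : ℕ} (hn : Odd n) :
    IsUnit ((W.preΨ' n).eval x) := by
  classical
  set k := IsLocalRing.ResidueField A
  set π : A →+* k := IsLocalRing.residue A with hπ
  set Wb : WeierstrassCurve.Affine k := (W.map π) with hWb
  have hEb : Wb.Equation (π x) (π y) := hE.map π
  have hNs : Wb.Nonsingular (π x) (π y) := by
    rw [Affine.nonsingular_iff']
    refine ⟨hEb, Or.inl ?_⟩
    have h3 := hns.map π
    have h4 := h3.ne_zero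
    intro h5
    apply h4
    simp only [map_sub, map_add, map_mul, map_pow, map_ofNat]
    have : Wb.a₁ * π y - (3 * π x ^ 2 + 2 * Wb.a₂ * π x + Wb.a₄) = 0 := h5
    simp only [hWb, map_a₁, map_a₂, map_a₄] at this
    linear_combination -this
  set T : Wb.Point := Affine.Point.some (π x) (π y) hNs with hT
  have hT0 : T ≠ 0 := Affine.Point.some_ne_zero hNs
  have h2T : 2 • T = 0 := by
    rw [two_nsmul]
    apply Affine.Point.add_self_of_Y_eq
    have h3 := congrArg π h2
    simp only [map_add, map_mul, map_ofNat, map_zero] at h3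
    rw [Affine.negY]
    show π y = - π y - π W.a₁ * π x - π W.a₃
    linear_combination h3
  have hnT : n • T ≠ 0 := by
    obtain ⟨j, rfl⟩ := hn
    rw [succ_nsmul, mul_nsmul, h2T, nsmul_zero, zero_add]
    exact hT0
  rw [Ne, DivPoly.nsmul_eq_zero_iff_odd hT0 hn, show xN T = π x from xN_some hNs] at hnT
  have h6 : (Wb.preΨ' n).eval (π x) = π ((W.preΨ' n).eval x) := by
    rw [hWb, map_preΨ', eval_map, eval₂_hom]
  rw [h6] at hnT
  by_contra h7
  apply hnT
  rw [hπ, IsLocalRing.residue_eq_zero_iff]
  exact h7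

lemma exists_unit_coeff {f : A[X]} {x : A} (h : IsUnit (f.eval x)) : ∃ i, IsUnit (f.coeff i) := by
  by_contra hcon
  push Not at hcon
  have h1 : f.eval x ∈ IsLocalRing.maximalIdeal A := by
    rw [eval_eq_sum_range]
    refine Ideal.sum_mem _ fun i _ => Ideal.mul_mem_right _ _ ?_
    exact hcon i
  exact h1 h

end Residue

end Fermat.Agent.ECRed
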