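import Fermat.Agent.ECRed.KummerLine

set_option autoImplicit false
set_option linter.unusedSectionVars false

namespace Fermat.Agent.ECRed

namespace KummerLine

open OrdFn

variable {G : Type*} [AddCommGroup G] {K : Type*} [Field K] {κ : KummerLine G K} {v : OrdFn K}

/-- numerator of `x(P+Q)+x(P-Q)`. -/
def F1 (κ : KummerLine G K) (x y : K) : K :=
  2 * (x + y) * (x * y) + κ.b₂ * (x * y) + κ.b₄ * (x + y) + κ.b₆

/-- numerator of `x(P+Q)*x(P-Q)`. -/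
def F2 (κ : KummerLine G K) (x y : K) : K :=
  (x * y) ^ 2 - κ.b₄ * (x * y) - κ.b₆ * (x + y) - κ.b₈

lemma add_sub_ne' {P Q : G} (hP : P ≠ 0) (hQ : Q ≠ 0) (h1 : P ≠ Q) (h2 : P ≠ -Q) :
    κ.N P ≠ κ.N Q ∧
    (κ.N P - κ.N Q) ^ 2 * (κ.N (P + Q) + κ.N (P - Q)) = κ.F1 (κ.N P) (κ.N Q) ∧
    (κ.N P - κ.N Q) ^ 2 * (κ.N (P + Q) * κ.N (P - Q)) = κ.F2 (κ.N P) (κ.N Q) :=
  κ.add_sub_ne hP hQ h1 h2

lemma psi_eq_F1 (x : K) : κ.psi x = κ.F1 x x := by rw [psi, F1]; ring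
lemma phi_eq_F2 (x : K) : κ.phi x = κ.F2 x x := by rw [phi, F2]; ring

lemma disc_eq' (x y : K) : κ.disc =
    (-12 * (x + y) ^ 2 - 4 * κ.b₂ * (x + y) + (κ.b₂ ^ 2 - 32 * κ.b₄)) * κ.F2 x y +
    (6 * (x * y) * (x + y) - κ.b₂ * (x * y) - 5 * κ.b₄ * (x + y) + (κ.b₂ * κ.b₄ - 27 * κ.b₆)) *
      κ.F1 x y +
    (-8 * κ.b₄ * (x * y) - 12 * κ.b₆ * (x + y) + (κ.b₄ ^ 2 - 28 * κ.b₈)) * (x - y) ^ 2 := by
  rw [disc, F1, F2]
  linear_combination (-(x + y) * κ.b₂ + 4 * (x + y) ^ 2 - 8 * κ.b₄ - 28 * (x * y)) * κ.rel_b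

lemma neg_torsion {n : ℕ} {P : G} (hP : n • P = 0) : n • (-P) = 0 := by
  rw [smul_neg, hP, neg_zero]

lemma add_torsion {n : ℕ} {P Q : G} (hP : n • P = 0) (hQ : n • Q = 0) : n • (P + Q) = 0 := by
  rw [smul_add, hP, hQ, add_zero]

lemma sub_torsion {n : ℕ} {P Q : G} (hP : n • P = 0) (hQ : n • Q = 0) : n • (P - Q) = 0 := by
  rw [smul_sub, hP, hQ, sub_zero]

lemma N_add_sub_integral (hb : κ.Integral v) {n : ℕ} (hn : v.Eq 0 (n : K)) {P Q : G}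
    (h1 : P ≠ Q) (h2 : P ≠ -Q) (hP : n • P = 0) (hQ : n • Q = 0) :
    v.Ge 0 (κ.N (P + Q)) ∧ v.Ge 0 (κ.N (P - Q)) := by
  have hs : P - Q ≠ 0 := sub_ne_zero.mpr h1
  have ha : P + Q ≠ 0 := fun h => h2 (eq_neg_of_add_eq_zero_left h)
  exact ⟨integral_of_torsion hb hn ha (add_torsion hP hQ),
    integral_of_torsion hb hn hs (sub_torsion hP hQ)⟩

/-- If two `n`-torsion points have congruent x-coordinates, then `F1` and `F2` vanish mod `𝔪`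
unless the points agree up to sign. -/
lemma F_gt_of_congr (hb : κ.Integral v) {n : ℕ} (hn : v.Eq 0 (n : K)) {P Q : G}
    (hP0 : P ≠ 0) (hQ0 : Q ≠ 0) (hP : n • P = 0) (hQ : n • Q = 0)
    (h1 : P ≠ Q) (h2 : P ≠ -Q) {c : ℝ} (h : v.Gt c (κ.N P - κ.N Q)) :
    v.Gt (c + c) (κ.F1 (κ.N P) (κ.N Q)) ∧ v.Gt (c + c) (κ.F2 (κ.N P) (κ.N Q)) := by
  obtain ⟨-, e1, e2⟩ := κ.add_sub_ne' hP0 hQ0 h1 h2
  obtain ⟨i1, i2⟩ := N_add_sub_integral hb hn h1 h2 hP hQ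
  have hh : v.Gt (c + c) ((κ.N P - κ.N Q) ^ 2) := by rw [_root_.pow_two]; exact h.mul_ge h.ge
  rw [← e1, ← e2]
  constructor
  · have := hh.mul_ge (i1.add i2); simpa using this
  · have := hh.mul_ge (i1.mul i2); simpa using this

lemma coeff_integral (hb : κ.Integral v) {x y : K} (hx : v.Ge 0 x) (hy : v.Ge 0 y) :
    v.Ge 0 (-12 * (x + y) ^ 2 - 4 * κ.b₂ * (x + y) + (κ.b₂ ^ 2 - 32 * κ.b₄)) ∧
    v.Ge 0 (6 * (x * y) * (x + y) - κ.b₂ * (x * y) - 5 * κ.b₄ * (x + y) +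
      (κ.b₂ * κ.b₄ - 27 * κ.b₆)) ∧
    v.Ge 0 (-8 * κ.b₄ * (x * y) - 12 * κ.b₆ * (x + y) + (κ.b₄ ^ 2 - 28 * κ.b₈)) := by
  have hxy := hx.add hy
  have hxym := hx.zero_mul hy
  have hn : ∀ (k : ℕ) [k.AtLeastTwo], v.Ge 0 (OfNat.ofNat k : K) := fun k _ => ge_ofNat k
  have h2 : ∀ {z : K}, v.Ge 0 z → v.Ge 0 (z ^ 2) := by
    intro z hz; rw [_root_.pow_two]; exact hz.zero_mul hz
  refine ⟨?_, ?_, ?_⟩
  · exact (((hn 12).neg.zero_mul (h2 hxy)).sub (((hn 4).zero_mul hb.b₂).zero_mul hxy)).add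
      ((h2 hb.b₂).sub ((hn 32).zero_mul hb.b₄))
  · exact ((((hn 6).zero_mul hxym).zero_mul hxy).sub (hb.b₂.zero_mul hxym) |>.sub
      (((hn 5).zero_mul hb.b₄).zero_mul hxy)).add
      ((hb.b₂.zero_mul hb.b₄).sub ((hn 27).zero_mul hb.b₆))
  · exact ((((hn 8).neg.zero_mul hb.b₄).zero_mul hxym).sub
      (((hn 12).zero_mul hb.b₆).zero_mul hxy)).add
      ((h2 hb.b₄).sub ((hn 28).zero_mul hb.b₈))

/-- good reduction: reduction is injective on `n`-torsion (up to sign). -/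
theorem good_eq_or_neg (hb : κ.Integral v) {n : ℕ} (hn : v.Eq 0 (n : K)) (hΔ : v.Eq 0 κ.disc)
    {P Q : G} (hP0 : P ≠ 0) (hQ0 : Q ≠ 0) (hP : n • P = 0) (hQ : n • Q = 0)
    (h : v.Gt 0 (κ.N P - κ.N Q)) : P = Q ∨ P = -Q := by
  by_contra hcon
  push Not at hcon
  obtain ⟨h1, h2⟩ := hcon
  obtain ⟨g1, g2⟩ := F_gt_of_congr hb hn hP0 hQ0 hP hQ h1 h2 h
  rw [add_zero] at g1 g2
  obtain ⟨c2, c1, c0⟩ := coeff_integral hb (integral_of_torsion hb hn hP0 hP)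
    (integral_of_torsion hb hn hQ0 hQ)
  have := ((c2.zero_mul_gt g2).add (c1.zero_mul_gt g1)).add
    (c0.zero_mul_gt (y := (κ.N P - κ.N Q) ^ 2)
      (by rw [_root_.pow_two]; simpa using h.mul_ge h.ge))
  rw [← κ.disc_eq'] at this
  exact hΔ.not_gt this

/-- good reduction: `ψ₂²` is a unit at torsion points of odd order prime to the residue char. -/
theorem good_psi (hb : κ.Integral v) {n : ℕ} (hn : v.Eq 0 (n : K)) (hΔ : v.Eq 0 κ.disc)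
    {P : G} (hP0 : P ≠ 0) (h2P : P + P ≠ 0) (hP : n • P = 0) :
    ¬ v.Gt 0 (κ.psi (κ.N P)) := by
  intro h
  obtain ⟨-, e⟩ := κ.dup hP0 h2P
  have hi := integral_of_torsion hb hn h2P (add_torsion hP hP)
  have hphi : v.Gt 0 (κ.phi (κ.N P)) := by rw [← e]; simpa using h.mul_ge hi
  have hx := integral_of_torsion hb hn hP0 hP
  obtain ⟨c2, c1, c0⟩ := coeff_integral hb hx hx
  have := ((c2.zero_mul_gt (κ.phi_eq_F2 (κ.N P) ▸ hphi)).add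
    (c1.zero_mul_gt (κ.psi_eq_F1 (κ.N P) ▸ h))).add
    (c0.zero_mul_gt (y := (κ.N P - κ.N P) ^ 2) (by left; simp))
  rw [← κ.disc_eq'] at this
  exact hΔ.not_gt this

end KummerLine

end Fermat.Agent.ECRed
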