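import Fermat.Agent.ECRed.CompS
import Fermat.Agent.ECRed.Unram

set_option autoImplicit false
set_option linter.unusedSectionVars false

/-! # `σP - P` lies in the kernel of reduction for `σ` in inertia -/

namespace Fermat.Agent.ECRed

open WeierstrassCurve WeierstrassCurve.Affine WeierstrassCurve.Affine.Point

section EtaRel

variable {F : Type*} [Field F] [DecidableEq F] {W : Affine F}

lemma xN_add {x₁ y₁ x₂ y₂ : F} (h₁ : W.Nonsingular x₁ y₁) (h₂ : W.Nonsingular x₂ y₂)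
    (hx : x₁ ≠ x₂) : xN (Point.some x₁ y₁ h₁ + Point.some x₂ y₂ h₂) =
      ((y₁ - y₂) / (x₁ - x₂)) ^ 2 + W.a₁ * ((y₁ - y₂) / (x₁ - x₂)) - W.a₂ - x₁ - x₂ := by
  rw [add_of_X_ne hx, xN_some, addX, slope_of_X_ne hx]

/-- `(x(P-Q) - x(P+Q)) (x(P)-x(Q))² = η(P) η(Q)` -/
theorem eta_rel {P Q : W.Point} (hP : P ≠ 0) (hQ : Q ≠ 0) (h : xN P ≠ xN Q) :
    (xN (P - Q) - xN (P + Q)) * (xN P - xN Q) ^ 2 = eta P * eta Q := by
  rcases P with _ | ⟨x₁, y₁, h₁⟩
  · exact absurd rfl hP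
  rcases Q with _ | ⟨x₂, y₂, h₂⟩
  · exact absurd rfl hQ
  rw [xN_some, xN_some] at *
  have e0 : Point.some x₁ y₁ h₁ - Point.some x₂ y₂ h₂ =
      Point.some x₁ y₁ h₁ + -Point.some x₂ y₂ h₂ := sub_eq_add_neg _ _
  rw [e0, neg_some, xN_add h₁ _ h, xN_add h₁ h₂ h]
  have hd : x₁ - x₂ ≠ 0 := sub_ne_zero.mpr h
  simp only [eta, negY]
  field_simp
  ring

end EtaRel

namespace KummerLine

open OrdFn

variable {G : Type*} [AddCommGroup G] {K : Type*} [Field K] {κ : KummerLine G K} {v : OrdFn K}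

variable (κ v) in
/-- the kernel of reduction -/
def InE1 (P : G) : Prop := ∃ c : ℝ, 0 < c ∧ κ.E1 v c P

lemma inE1_zero : κ.InE1 v 0 := by
  refine ⟨1, one_pos, ?_, ?_⟩
  · rw [κ.N_zero]; exact one_ne_zero
  · rw [w, κ.D_zero, zero_div]; exact Ge.zero

lemma E1.mono {c d : ℝ} {P : G} (h : κ.E1 v c P) (hd : d ≤ c) : κ.E1 v d P :=
  ⟨h.1, h.2.mono hd⟩

lemma inE1_add (hb : κ.Integral v) {P Q : G} (hP : κ.InE1 v P) (hQ : κ.InE1 v Q) :
    κ.InE1 v (P + Q) := by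
  obtain ⟨c, hc, hP⟩ := hP
  obtain ⟨d, hd, hQ⟩ := hQ
  exact ⟨min c d, lt_min hc hd, (w_rel hb (lt_min hc hd) (hP.mono (min_le_left _ _))
    (hQ.mono (min_le_right _ _))).1⟩

lemma inE1_neg {P : G} (hP : κ.InE1 v P) : κ.InE1 v (-P) := by
  obtain ⟨c, hc, h1, h2⟩ := hP
  exact ⟨c, hc, by rwa [κ.N_neg], by rw [w] at *; rwa [κ.N_neg, κ.D_neg]⟩

/-- the kernel of reduction as a subgroup -/
def E1sub (hb : κ.Integral v) : AddSubgroup G where
  carrier := {P | κ.InE1 v P}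
  zero_mem' := inE1_zero
  add_mem' := inE1_add hb
  neg_mem' := inE1_neg

lemma mem_E1sub (hb : κ.Integral v) {P : G} : P ∈ E1sub hb ↔ κ.InE1 v P := Iff.rfl

lemma inE1_iff {P : G} (hP : P ≠ 0) : κ.InE1 v P ↔ ¬ v.Ge 0 (κ.N P) := by
  constructor
  · rintro ⟨c, hc, h1, h2⟩ h3
    rw [w, κ.D_ne P hP, one_div] at h2
    rcases h2 with h2 | h2
    · exact h1 (inv_eq_zero.mp h2)
    · rw [ord_inv _ h1] at h2
      rw [ge_iff h1] at h3
      linarith
  · intro h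
    rw [not_ge_iff] at h
    refine ⟨-v.ord (κ.N P), by linarith [h.2], h.1, ?_⟩
    rw [w, κ.D_ne P hP, one_div]
    exact (OrdFn.eq_self h.1).inv.ge

lemma not_inE1 {P : G} (h : ¬ κ.InE1 v P) : P ≠ 0 ∧ v.Ge 0 (κ.N P) := by
  have h0 : P ≠ 0 := by rintro rfl; exact h inE1_zero
  refine ⟨h0, ?_⟩
  by_contra h1
  exact h ((inE1_iff h0).mpr h1)

lemma inE1_translate {r : K} (hr : v.Ge 0 r) {P : G} :
    (κ.translate r).InE1 v P ↔ κ.InE1 v P := by
  by_cases hP : P = 0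
  · subst hP; exact ⟨fun _ => inE1_zero, fun _ => inE1_zero⟩
  rw [inE1_iff hP, inE1_iff hP, not_iff_not]
  have e : (κ.translate r).N P = κ.N P - r := by
    simp only [translate]; rw [κ.D_ne P hP, mul_one]
  rw [e]
  constructor
  · intro h
    have := h.add hr
    rwa [sub_add_cancel] at this
  · intro h; exact h.sub hr

/-- an odd order point whose double lies in `E₁` lies in `E₁` -/
lemma inE1_of_double (hb : κ.Integral v) {n : ℕ} (hodd : Odd n) {P : G} (hP : n • P = 0)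
    (h : κ.InE1 v (P + P)) : κ.InE1 v P := by
  obtain ⟨k, rfl⟩ := hodd
  have h1 : P = (k + 1) • (P + P) := by
    have : (2 * k + 1) • P + P = (k + 1) • (P + P) := by
      rw [← two_nsmul, ← mul_nsmul', ← succ_nsmul]
      congr 1
      ring
    rw [← this, hP, zero_add]
  rw [← mem_E1sub hb] at h ⊢
  rw [h1]
  exact (E1sub hb).nsmul_mem h _

end KummerLine

section Main

open OrdFn

variable {K : Type*} [Field K] [DecidableEq K] [Algebra ℚ K] {W : Affine ℚ} {v : OrdFn K}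

lemma N_translate_smul {κ : KummerLine (W⁄K).Point K} {r : ℚ}
    (hκ : κ = (KummerLine.ofCurve (W⁄K)).translate (algebraMap ℚ K r))
    (σ : K ≃ₐ[ℚ] K) (P : (W⁄K).Point) : κ.N (σ • P) = σ (κ.N P) := by
  rw [hκ]
  simp only [KummerLine.translate]
  rw [N_smul, D_smul, map_sub, map_mul]
  congr 2
  exact (σ.commutes r).symm

lemma eta_sq_translate {κ : KummerLine (W⁄K).Point K} {r : ℚ}
    (hκ : κ = (KummerLine.ofCurve (W⁄K)).translate (algebraMap ℚ K r))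
    {P : (W⁄K).Point} (hP0 : P ≠ 0) : eta P ^ 2 = κ.psi (κ.N P) := by
  rw [eta_sq hP0, hκ, ← psi_translate _ (algebraMap ℚ K r)]
  congr 1
  simp only [KummerLine.translate]
  rw [(KummerLine.ofCurve (W⁄K)).D_ne P hP0, mul_one]

lemma eta_rel_translate {κ : KummerLine (W⁄K).Point K} {r : ℚ}
    (hκ : κ = (KummerLine.ofCurve (W⁄K)).translate (algebraMap ℚ K r))
    {P Q : (W⁄K).Point} (hP0 : P ≠ 0) (hQ0 : Q ≠ 0) (h1 : P ≠ Q) (h2 : P ≠ -Q) :
    (κ.N (P - Q) - κ.N (P + Q)) * (κ.N P - κ.N Q) ^ 2 = eta P * eta Q := by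
  have hs : P - Q ≠ 0 := sub_ne_zero.mpr h1
  have ha : P + Q ≠ 0 := fun h => h2 (eq_neg_of_add_eq_zero_left h)
  have hne := ((KummerLine.ofCurve (W⁄K)).add_sub_ne hP0 hQ0 h1 h2).1
  have := eta_rel hP0 hQ0 hne
  rw [← this, hκ]
  simp only [KummerLine.translate]
  rw [(KummerLine.ofCurve (W⁄K)).D_ne P hP0, (KummerLine.ofCurve (W⁄K)).D_ne Q hQ0,
    (KummerLine.ofCurve (W⁄K)).D_ne _ hs, (KummerLine.ofCurve (W⁄K)).D_ne _ ha]
  show (xN _ - _ - (xN _ - _)) * (xN _ - _ - (xN _ - _)) ^ 2 = _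
  ring

/-- **Key lemma**: at an odd place, `σP - P` is in the kernel of reduction. -/
theorem star {κ : KummerLine (W⁄K).Point K} {r : ℚ}
    (hκ : κ = (KummerLine.ofCurve (W⁄K)).translate (algebraMap ℚ K r))
    {σ : K ≃ₐ[ℚ] K} (hσ : ∀ z, v.Ge 0 z → v.Gt 0 (σ z - z)) (h2 : v.Eq 0 (2 : K))
    (hb : κ.Integral v) {P : (W⁄K).Point} (hP0 : P ≠ 0) {a : ℝ} (ha : 0 ≤ a)
    (hb4 : v.Ge a κ.b₄) (hN : v.Ge a (κ.N P))
    (hpsi : v.Eq (2 * a) (κ.psi (κ.N P))) (hr : ∃ r₀ : K, σ r₀ = r₀ ∧ v.Eq a r₀) :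
    κ.InE1 v (σ • P - P) := by
  obtain ⟨r₀, hr1, hr2⟩ := hr
  have hfix : ∀ {z : K}, v.Ge a z → v.Gt a (σ z - z) := fun hz => gt_sub_of_fixed hσ hr1 hr2 hz
  have e1 : eta P ^ 2 = κ.psi (κ.N P) := eta_sq_translate hκ hP0
  have e3 : v.Eq a (eta P) := by
    have h0 : eta P ≠ 0 := by
      intro h0
      rw [h0] at e1
      exact hpsi.ne (by rw [← e1]; ring)
    refine ⟨h0, ?_⟩
    have := hpsi.2
    rw [← e1, ord_pow h0] at this
    push_cast at this
    linarith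
  have hση := hfix e3.ge
  have hσP0 : σ • P ≠ 0 := smul_ne_zero' σ hP0
  by_cases h1 : σ • P = P
  · rw [h1, sub_self]; exact KummerLine.inE1_zero
  by_cases h3 : σ • P = -P
  · exfalso
    have e2 : σ (eta P) = - eta P := by
      rw [← eta_smul, ← eta_neg, h3]
    rw [e2] at hση
    have e5 : - eta P - eta P = -(2 * eta P) := by ring
    rw [e5] at hση
    have e6 := (h2.mul e3).neg
    rw [zero_add] at e6
    exact e6.not_gt hση
  · obtain ⟨hne, f1, -⟩ := κ.add_sub_ne' hσP0 hP0 h1 h3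
    have f0 := eta_rel_translate hκ hσP0 hP0 h1 h3
    rw [N_translate_smul hκ] at hne f1 f0
    rw [eta_smul] at f0
    have hδ : v.Gt a (σ (κ.N P) - κ.N P) := hfix hN
    have hδ0 : σ (κ.N P) - κ.N P ≠ 0 := sub_ne_zero.mpr hne
    set x := κ.N P with hx
    set δ := σ x - x with hδdef
    set ε := σ (eta P) - eta P with hε
    have hsx : σ x = x + δ := by rw [hδdef]; ring
    have key : 2 * κ.N (σ • P - P) * δ ^ 2 =
        2 * κ.psi x + (δ * (6 * x ^ 2 + 2 * δ * x + κ.b₂ * x + κ.b₄) + ε * eta P) := by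
      have h4 : κ.F1 (σ x) x = κ.psi x + δ * (6 * x ^ 2 + 2 * δ * x + κ.b₂ * x + κ.b₄) := by
        rw [hsx, KummerLine.F1, KummerLine.psi]; ring
      have h5 : σ (eta P) * eta P = κ.psi x + ε * eta P := by
        rw [hε, ← e1]; ring
      rw [h4] at f1
      rw [h5] at f0
      linear_combination f1 + f0
    have hsmall : v.Gt (2 * a) (δ * (6 * x ^ 2 + 2 * δ * x + κ.b₂ * x + κ.b₄) + ε * eta P) := by
      refine Gt.add ?_ ?_
      · have h6 : v.Ge a (6 * x ^ 2 + 2 * δ * x + κ.b₂ * x + κ.b₄) := by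
          have g1 : v.Ge a (6 * x ^ 2) := by
            have := (ge_ofNat (v := v) 6).mul hN.pow_two
            exact this.mono (by linarith)
          have g2 : v.Ge a (2 * δ * x) := by
            have := ((ge_ofNat (v := v) 2).mul hδ.ge).mul hN
            exact this.mono (by linarith)
          have g3 : v.Ge a (κ.b₂ * x) := hb.b₂.zero_mul hN
          exact ((g1.add g2).add g3).add hb4
        have := hδ.mul_ge h6
        exact this.mono (by linarith)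
      · have := hση.mul_ge e3.ge
        exact this.mono (by linarith)
    have hbig : v.Eq (2 * a) (2 * κ.psi x) := by simpa using h2.mul hpsi
    have htot := hbig.add_gt hsmall
    rw [← key] at htot
    have hδ2 : v.Eq (2 * v.ord δ) (δ ^ 2) := (OrdFn.eq_self hδ0).pow_two
    rw [mul_comm (2 * κ.N (σ • P - P)) (δ ^ 2)] at htot
    have h7 := htot.of_mul_eq hδ2
    have h8 := h7.of_mul_eq h2
    rw [KummerLine.inE1_iff (sub_ne_zero.mpr h1), not_ge_iff]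
    refine ⟨h8.ne, ?_⟩
    rw [h8.2]
    have := (gt_iff hδ0).mp hδ
    linarith

/-- good reduction at an odd place: `σP - P` is in the kernel of reduction for points of odd order -/
theorem star_good {κ : KummerLine (W⁄K).Point K} {r : ℚ}
    (hκ : κ = (KummerLine.ofCurve (W⁄K)).translate (algebraMap ℚ K r))
    {σ : K ≃ₐ[ℚ] K} (hσ : ∀ z, v.Ge 0 z → v.Gt 0 (σ z - z)) (h2 : v.Eq 0 (2 : K))
    (hb : κ.Integral v) (hΔ : v.Eq 0 κ.disc) {n : ℕ} (hodd : Odd n) {P : (W⁄K).Point}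
    (hP : n • P = 0) (hPE : ¬ κ.InE1 v P) : κ.InE1 v (σ • P - P) := by
  obtain ⟨hP0, hN⟩ := KummerLine.not_inE1 hPE
  have h2P := KummerLine.two_ne hodd hP0 hP
  have h2E : ¬ κ.InE1 v (P + P) := fun h => hPE (KummerLine.inE1_of_double hb hodd hP h)
  obtain ⟨-, hi⟩ := KummerLine.not_inE1 h2E
  have hpsi0 : ¬ v.Gt 0 (κ.psi (κ.N P)) := by
    intro h
    obtain ⟨-, e⟩ := κ.dup hP0 h2P
    have hphi : v.Gt 0 (κ.phi (κ.N P)) := by rw [← e]; simpa using h.mul_ge hi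
    obtain ⟨c2, c1, c0⟩ := KummerLine.coeff_integral hb hN hN
    have := ((c2.zero_mul_gt (κ.phi_eq_F2 (κ.N P) ▸ hphi)).add
      (c1.zero_mul_gt (κ.psi_eq_F1 (κ.N P) ▸ h))).add
      (c0.zero_mul_gt (y := (κ.N P - κ.N P) ^ 2) (by left; simp))
    rw [← κ.disc_eq'] at this
    exact hΔ.not_gt this
  have h4 : v.Ge 0 (κ.psi (κ.N P)) := by
    have hn : ∀ (k : ℕ) [k.AtLeastTwo], v.Ge 0 (OfNat.ofNat k : K) := fun k _ => ge_ofNat k
    have hx3 : v.Ge 0 (κ.N P ^ 3) := by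
      have : κ.N P ^ 3 = κ.N P * (κ.N P * κ.N P) := by ring
      rw [this]; exact hN.zero_mul (hN.zero_mul hN)
    have hx2 : v.Ge 0 (κ.N P ^ 2) := by
      have : κ.N P ^ 2 = (κ.N P * κ.N P) := by ring
      rw [this]; exact (hN.zero_mul hN)
    rw [KummerLine.psi]
    exact ((((hn 4).zero_mul hx3).add (hb.b₂.zero_mul hx2)).add
      (((hn 2).zero_mul hb.b₄).zero_mul hN)).add hb.b₆
  have hpsi : v.Eq (2 * 0) (κ.psi (κ.N P)) := by
    rw [mul_zero]
    rw [not_gt_iff] at hpsi0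
    exact ⟨hpsi0.1, le_antisymm hpsi0.2 ((ge_iff hpsi0.1).mp h4)⟩
  exact star hκ hσ h2 hb hP0 le_rfl hb.b₄ hN hpsi ⟨1, map_one σ, eq_one⟩

/-- multiplicative reduction at an odd place: if the component of `P` is the order of a fixed
element then `σP - P` is in the kernel of reduction. -/
theorem star_mult {κ : KummerLine (W⁄K).Point K} {r : ℚ}
    (hκ : κ = (KummerLine.ofCurve (W⁄K)).translate (algebraMap ℚ K r))
    {σ : K ≃ₐ[ℚ] K} (hσ : ∀ z, v.Ge 0 z → v.Gt 0 (σ z - z)) (h2 : v.Eq 0 (2 : K))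
    {m : ℝ} (h : κ.MultAt v m) {n : ℕ} {S : AddSubgroup (W⁄K).Point} (t : κ.Tors v n S)
    {r₁ : K} {ρ : ℝ} (hr₁ : σ r₁ = r₁) (hρ : v.Eq ρ r₁) (hnρ : n * ρ = 2 * m)
    {P : (W⁄K).Point} (hP : P ∈ S) : κ.InE1 v (σ • P - P) := by
  by_cases hP0 : P = 0
  · rw [hP0, gal_smul_zero, sub_self]; exact KummerLine.inE1_zero
  have hn0 : (n : ℝ) ≠ 0 := by exact_mod_cast t.odd.pos.ne'
  obtain ⟨j, hj⟩ := KummerLine.Sub.comp_torsion h t hP
  have hcomp : κ.comp v P = j * ρ := by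
    apply mul_left_cancel₀ hn0
    rw [hj, ← hnρ]; ring
  obtain ⟨ha0, ham⟩ := KummerLine.Sub.comp_range h t hP
  have hx := KummerLine.Sub.comp_eq h t hP0 hP
  have hmpos := h.pos
  have hpsi : v.Eq (2 * κ.comp v P) (κ.psi (κ.N P)) := by
    rcases ha0.eq_or_lt with ha | ha
    · rw [← ha] at hx ⊢
      rw [mul_zero]
      have h2P := KummerLine.two_ne t.odd hP0 (t.tor _ hP)
      obtain ⟨e0, e⟩ := κ.dup hP0 h2P
      have h2u := KummerLine.Sub.unit_double h t hP0 hP hx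
      have hphi : v.Eq 0 (κ.phi (κ.N P)) := by
        rw [KummerLine.phi_eq_F2]
        have := KummerLine.F2_lt h hx hx le_rfl le_rfl (by linarith)
        simpa using this
      rw [← e, mul_comm] at hphi
      simpa using hphi.of_mul_eq h2u
    · rw [KummerLine.psi_eq_F1, two_mul]
      exact KummerLine.F1_eq h hx hx ha ha ham ham
  refine star hκ hσ h2 h.integral hP0 ha0 (h.b₄.mono ham.le) hx.ge hpsi
    ⟨r₁ ^ j, by rw [map_zpow₀, hr₁], ?_⟩
  rw [hcomp]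
  exact ⟨zpow_ne_zero _ hρ.ne, by rw [ord_zpow hρ.ne, hρ.2]⟩

end Main

end Fermat.Agent.ECRed
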